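/-
Lib/FlatMod: finite Galois modules that are the `ℚ̄`-points of a finite flat commutative group scheme
over `ℤ_(p)` (in the existential Hopf-algebra form of the Prelude's `GaloisRepAdic.IsFlatAt`).
Definitions + the reformulation of `IsFlatAt`.  Shared by cluster A (S32) and cluster J (J3, flat case).
Interface author: helper60.  The closure lemmas (products, sub-objects, quotients) are stubs in
`Lib/FlatMod/Closure.lean`.
-/
import Fermat.Prelude.Def_GaloisRep_Flat

set_option autoImplicit false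

namespace Fermat.Agent.FlatMod

/-- `M` with the action `act` of `G_ℚ` is the module of `ℚ̄`-points of a finite flat commutative
(cocommutative Hopf algebra) group scheme over `ℤ_(p)`. -/
def IsFlatGaloisModule (p : ℕ) (M : Type) [AddCommGroup M]
    (act : (AlgebraicClosure ℚ ≃ₐ[ℚ] AlgebraicClosure ℚ) → M → M) : Prop :=
  ∃ (H : Type) (_ : CommRing H) (_ : HopfAlgebra (GaloisRep.ratLocalizedAt p) H),
    Module.Finite (GaloisRep.ratLocalizedAt p) H ∧
    Module.Flat (GaloisRep.ratLocalizedAt p) H ∧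
    Coalgebra.IsCocomm (GaloisRep.ratLocalizedAt p) H ∧
    ∃ e : WithConv (H →ₐ[GaloisRep.ratLocalizedAt p] AlgebraicClosure ℚ) ≃ M,
      (∀ f g : WithConv (H →ₐ[GaloisRep.ratLocalizedAt p] AlgebraicClosure ℚ),
        e (f * g) = e f + e g) ∧
      ∀ (σ : AlgebraicClosure ℚ ≃ₐ[ℚ] AlgebraicClosure ℚ)
        (f g : WithConv (H →ₐ[GaloisRep.ratLocalizedAt p] AlgebraicClosure ℚ)),
        (∀ h : H, g h = σ (f h)) → e g = act σ (e f)

/-- The Prelude's `IsFlatAt` in terms of `IsFlatGaloisModule`. -/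
theorem isFlatAt_iff {A : Type} [CommRing A] [IsLocalRing A] (ρ : GaloisRepAdic A) (p : ℕ) :
    ρ.IsFlatAt p ↔ Finite (IsLocalRing.ResidueField A) ∧ ∀ I : Ideal A, Finite (A ⧸ I) →
      IsFlatGaloisModule p (ρ.V ⧸ (I • (⊤ : Submodule A ρ.V)))
        (fun σ x => ρ.levelAction I σ x) :=
  Iff.rfl

end Fermat.Agent.FlatMod
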