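/-
Lib/FlatMod/RatLoc: the ring `ℤ_(p) = GaloisRep.ratLocalizedAt p ⊆ ℚ` is a discrete valuation
ring (hence a PID); finite torsion-free modules over it are free.
-/
import Mathlib
import Fermat.Prelude.Def_GaloisRep_Flat

set_option autoImplicit false

namespace Fermat.Agent.FlatMod

open GaloisRep

variable (p : ℕ) [hp : Fact p.Prime]

omit hp in
theorem ratLoc_mem_iff (q : ℚ) : q ∈ ratLocalizedAt p ↔ q.den.Coprime p := Iff.rfl

theorem ratLoc_mem_of_padicValRat_nonneg {q : ℚ} (hq : 0 ≤ padicValRat p q) :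
    q ∈ ratLocalizedAt p := by
  rw [ratLoc_mem_iff]
  by_contra hcop
  have hdvd : p ∣ q.den := by
    rcases (Nat.coprime_or_dvd_of_prime hp.out q.den) with h | h
    · exact absurd h.symm hcop
    · exact h
  have hnum : ¬ (p : ℤ) ∣ q.num := by
    intro h
    have h1 : p ∣ q.num.natAbs := Int.natCast_dvd.mp h
    have h2 : p ∣ Nat.gcd q.num.natAbs q.den := Nat.dvd_gcd h1 hdvd
    rw [q.reduced] at h2
    exact hp.out.one_lt.ne' (Nat.dvd_one.mp h2)
  have hv1 : padicValInt p q.num = 0 := padicValInt.eq_zero_of_not_dvd hnum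
  have hv2 : 1 ≤ padicValNat p q.den :=
    one_le_padicValNat_of_dvd q.den_nz hdvd
  unfold padicValRat at hq
  rw [hv1] at hq
  omega

theorem ratLoc_padicValRat_nonneg {q : ℚ} (hq : q ∈ ratLocalizedAt p) :
    0 ≤ padicValRat p q := by
  rw [ratLoc_mem_iff] at hq
  have hnd : ¬ p ∣ q.den := by
    intro h
    have h2 : p ∣ Nat.gcd q.den p := Nat.dvd_gcd h dvd_rfl
    rw [hq] at h2
    exact hp.out.one_lt.ne' (Nat.dvd_one.mp h2)
  have hv2 : padicValNat p q.den = 0 := padicValNat.eq_zero_of_not_dvd hnd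
  unfold padicValRat
  rw [hv2]
  simp

theorem ratLoc_isUnit_of_padicValRat_eq_zero (x : ratLocalizedAt p) (hx : (x : ℚ) ≠ 0)
    (hv : padicValRat p (x : ℚ) = 0) : IsUnit x := by
  have hinv : (x : ℚ)⁻¹ ∈ ratLocalizedAt p := by
    apply ratLoc_mem_of_padicValRat_nonneg
    rw [padicValRat.inv, hv]; simp
  refine IsUnit.of_mul_eq_one ⟨_, hinv⟩ (Subtype.ext ?_)
  show (x : ℚ) * (x : ℚ)⁻¹ = 1
  exact mul_inv_cancel₀ hx

theorem ratLoc_padicValRat_eq_zero_of_isUnit (x : ratLocalizedAt p) (hx : IsUnit x) :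
    padicValRat p (x : ℚ) = 0 := by
  obtain ⟨y, hy⟩ := hx.exists_right_inv
  have hxy : (x : ℚ) * (y : ℚ) = 1 := by
    have := congrArg (Subtype.val) hy
    simpa using this
  have hx0 : (x : ℚ) ≠ 0 := left_ne_zero_of_mul_eq_one hxy
  have hy0 : (y : ℚ) ≠ 0 := right_ne_zero_of_mul_eq_one hxy
  have h1 := padicValRat.mul (p := p) hx0 hy0
  rw [hxy, padicValRat.one] at h1
  have h2 := ratLoc_padicValRat_nonneg p x.2
  have h3 := ratLoc_padicValRat_nonneg p y.2
  omega

omit hp in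
theorem ratLoc_coe_p : ((p : ratLocalizedAt p) : ℚ) = (p : ℚ) := by simp

theorem ratLoc_irreducible_p : Irreducible (p : ratLocalizedAt p) := by
  have hp0 : (p : ℚ) ≠ 0 := by exact_mod_cast hp.out.ne_zero
  have hvp : padicValRat p (p : ℚ) = 1 := padicValRat.self hp.out.one_lt
  rw [irreducible_iff]
  refine ⟨fun h => ?_, fun a b hab => ?_⟩
  · have := ratLoc_padicValRat_eq_zero_of_isUnit p _ h
    rw [ratLoc_coe_p, hvp] at this
    exact one_ne_zero this
  · have hab' : (p : ℚ) = (a : ℚ) * (b : ℚ) := by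
      have := congrArg (Subtype.val) hab
      simpa using this
    have ha0 : (a : ℚ) ≠ 0 := by
      intro h; rw [h, zero_mul] at hab'; exact hp0 hab'
    have hb0 : (b : ℚ) ≠ 0 := by
      intro h; rw [h, mul_zero] at hab'; exact hp0 hab'
    have h1 := padicValRat.mul (p := p) ha0 hb0
    rw [← hab', hvp] at h1
    have h2 := ratLoc_padicValRat_nonneg p a.2
    have h3 := ratLoc_padicValRat_nonneg p b.2
    rcases (show padicValRat p (a : ℚ) = 0 ∨ padicValRat p (b : ℚ) = 0 by omega) with h | h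
    · exact Or.inl (ratLoc_isUnit_of_padicValRat_eq_zero p a ha0 h)
    · exact Or.inr (ratLoc_isUnit_of_padicValRat_eq_zero p b hb0 h)

theorem ratLoc_hasUnitMulPow :
    IsDiscreteValuationRing.HasUnitMulPowIrreducibleFactorization (ratLocalizedAt p) := by
  have hp0 : (p : ℚ) ≠ 0 := by exact_mod_cast hp.out.ne_zero
  have hvp : padicValRat p (p : ℚ) = 1 := padicValRat.self hp.out.one_lt
  refine ⟨(p : ratLocalizedAt p), ratLoc_irreducible_p p, fun {x} hx => ?_⟩
  have hx0 : (x : ℚ) ≠ 0 := fun h => hx (Subtype.ext h)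
  have hv := ratLoc_padicValRat_nonneg p x.2
  obtain ⟨n, hn⟩ := Int.eq_ofNat_of_zero_le hv
  have hpn0 : (p : ℚ) ^ n ≠ 0 := pow_ne_zero _ hp0
  have hu0 : (x : ℚ) / (p : ℚ) ^ n ≠ 0 := div_ne_zero hx0 hpn0
  have hvu : padicValRat p ((x : ℚ) / (p : ℚ) ^ n) = 0 := by
    rw [padicValRat.div hx0 hpn0, padicValRat.pow (p := p) (q := (p : ℚ)) (k := n), hvp, hn]; simp
  have humem : (x : ℚ) / (p : ℚ) ^ n ∈ ratLocalizedAt p :=
    ratLoc_mem_of_padicValRat_nonneg p hvu.ge
  have hunit : IsUnit (⟨_, humem⟩ : ratLocalizedAt p) :=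
    ratLoc_isUnit_of_padicValRat_eq_zero p ⟨_, humem⟩ hu0 hvu
  refine ⟨n, hunit.unit, Subtype.ext ?_⟩
  show ((p : ratLocalizedAt p) : ℚ) ^ n * ((x : ℚ) / (p : ℚ) ^ n) = (x : ℚ)
  rw [ratLoc_coe_p]
  field_simp

instance ratLoc_isDiscreteValuationRing : IsDiscreteValuationRing (ratLocalizedAt p) :=
  IsDiscreteValuationRing.ofHasUnitMulPowIrreducibleFactorization (ratLoc_hasUnitMulPow p)

example : IsPrincipalIdealRing (ratLocalizedAt p) := inferInstance
example : IsDomain (ratLocalizedAt p) := inferInstance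

end Fermat.Agent.FlatMod
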