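/-
Lib/FlatMod/Descent: weak Galois descent for subspaces of `ℚ̄^ι` (a Galois-stable subspace without
nonzero rational points is zero), and the resulting "key lemma": a Galois-stable, jointly injective
family of `ℤ_(p)`-linear functionals `B → ℚ̄` on a finite free module stays jointly injective after
extending scalars to `ℚ̄` (in coordinates).
-/
import Mathlib
import Fermat.Agent.Lib.FlatMod.RatLoc

set_option autoImplicit false

namespace Fermat.Agent.FlatMod

open GaloisRep TensorProduct

local notation "Kb" => AlgebraicClosure ℚ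
local notation "GK" => (AlgebraicClosure ℚ ≃ₐ[ℚ] AlgebraicClosure ℚ)

theorem mem_range_of_galois_fixed (x : Kb) (hx : ∀ σ : GK, σ x = x) :
    x ∈ Set.range (algebraMap ℚ Kb) := by
  have : Algebra.IsAlgebraic ℚ Kb := AlgebraicClosure.isAlgebraic ℚ
  have : IsAlgClosure ℚ Kb := ⟨inferInstance, inferInstance⟩
  have : IsGalois ℚ Kb := inferInstance
  exact (InfiniteGalois.mem_range_algebraMap_iff_fixed x).2 hx

/-- Weak Galois descent: a Galois-stable `ℚ̄`-subspace of `ℚ̄^ι` whose only rational point is `0`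
is zero. -/
theorem galois_descent_weak {ι : Type*} [Fintype ι] (W : Submodule Kb (ι → Kb))
    (hW : ∀ σ : GK, ∀ w ∈ W, (fun i => σ (w i)) ∈ W)
    (h0 : ∀ w ∈ W, (∀ i, w i ∈ Set.range (algebraMap ℚ Kb)) → w = 0) : W = ⊥ := by
  classical
  by_contra hne
  obtain ⟨w0, hw0, hw0ne⟩ := Submodule.exists_mem_ne_zero_of_ne_bot hne
  let P : ℕ → Prop := fun n =>
    ∃ w ∈ W, w ≠ 0 ∧ (Finset.univ.filter (fun i => w i ≠ 0)).card = n
  have hP : ∃ n, P n := ⟨_, w0, hw0, hw0ne, rfl⟩
  obtain ⟨w, hw, hwne, hcard⟩ := Nat.find_spec hP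
  have hmin : ∀ v ∈ W, v ≠ 0 →
      Nat.find hP ≤ (Finset.univ.filter (fun i => v i ≠ 0)).card :=
    fun v hv hvne => Nat.find_min' hP ⟨v, hv, hvne, rfl⟩
  obtain ⟨i0, hi0⟩ : ∃ i, w i ≠ 0 := by
    by_contra h
    push Not at h
    exact hwne (funext h)
  have hw'W : (w i0)⁻¹ • w ∈ W := W.smul_mem _ hw
  have hw'i0 : ((w i0)⁻¹ • w) i0 = 1 := by
    simp [hi0]
  have hfix : ∀ σ : GK, ∀ i, σ (((w i0)⁻¹ • w) i) = ((w i0)⁻¹ • w) i := by
    intro σ
    by_contra hcon
    push Not at hcon
    obtain ⟨i1, hi1⟩ := hcon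
    have hvW : ((fun i => σ (((w i0)⁻¹ • w) i)) - (w i0)⁻¹ • w) ∈ W :=
      W.sub_mem (hW σ _ hw'W) hw'W
    have hvne : ((fun i => σ (((w i0)⁻¹ • w) i)) - (w i0)⁻¹ • w) ≠ 0 := by
      intro h
      apply hi1
      have := congrFun h i1
      simpa [sub_eq_zero] using this
    have h1 := hmin _ hvW hvne
    have h2 : (Finset.univ.filter
        (fun i => ((fun i => σ (((w i0)⁻¹ • w) i)) - (w i0)⁻¹ • w) i ≠ 0)).card <
        (Finset.univ.filter (fun i => w i ≠ 0)).card := by
      apply Finset.card_lt_card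
      rw [Finset.ssubset_iff_of_subset]
      · refine ⟨i0, by simp [hi0], ?_⟩
        simp only [Finset.mem_filter, Finset.mem_univ, true_and, not_not, Pi.sub_apply]
        rw [hw'i0, map_one, sub_self]
      · intro i hi
        simp only [Finset.mem_filter, Finset.mem_univ, true_and] at hi ⊢
        intro hwi
        apply hi
        simp [hwi]
    omega
  have h3 : (w i0)⁻¹ • w = 0 :=
    h0 _ hw'W (fun i => mem_range_of_galois_fixed _ (fun σ => hfix σ i))
  have h4 := congrFun h3 i0
  rw [hw'i0] at h4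
  exact one_ne_zero h4

variable {p : ℕ}

theorem ratLoc_algebraMap_Kb (r : ratLocalizedAt p) :
    algebraMap (ratLocalizedAt p) Kb r = algebraMap ℚ Kb (r : ℚ) := by
  rw [IsScalarTower.algebraMap_apply (ratLocalizedAt p) ℚ Kb]
  rfl

theorem ratLoc_algebraMap_Kb_injective :
    Function.Injective (algebraMap (ratLocalizedAt p) Kb) := by
  intro a b hab
  rw [ratLoc_algebraMap_Kb, ratLoc_algebraMap_Kb] at hab
  exact Subtype.ext ((algebraMap ℚ Kb).injective hab)

instance ratLoc_faithfulSMul_Kb : FaithfulSMul (ratLocalizedAt p) Kb :=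
  (faithfulSMul_iff_algebraMap_injective _ _).2 ratLoc_algebraMap_Kb_injective

/-- Galois automorphisms are `ℤ_(p)`-linear. -/
theorem gal_algebraMap (σ : GK) (r : ratLocalizedAt p) :
    σ (algebraMap (ratLocalizedAt p) Kb r) = algebraMap (ratLocalizedAt p) Kb r := by
  rw [ratLoc_algebraMap_Kb]
  exact σ.commutes _

/-- common integer denominators -/
theorem exists_int_multiples {ι : Type*} [Fintype ι] (q : ι → ℚ) :
    ∃ (D : ℕ) (m : ι → ℤ), D ≠ 0 ∧ ∀ i, (D : ℚ) * q i = (m i : ℚ) := by
  classical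
  refine ⟨∏ i, (q i).den, fun i => (∏ j ∈ Finset.univ.erase i, (q j).den : ℕ) * (q i).num,
    Finset.prod_ne_zero_iff.2 (fun i _ => (q i).den_nz), fun i => ?_⟩
  have h1 : (∏ j, (q j).den) = (q i).den * ∏ j ∈ Finset.univ.erase i, (q j).den :=
    (Finset.mul_prod_erase Finset.univ (fun j => (q j).den) (Finset.mem_univ i)).symm
  rw [h1]
  push_cast
  have h2 : ((q i).den : ℚ) * q i = (q i).num := Rat.den_mul_eq_num (q i)
  calc ((q i).den : ℚ) * (∏ j ∈ Finset.univ.erase i, ((q j).den : ℚ)) * q i
      = (∏ j ∈ Finset.univ.erase i, ((q j).den : ℚ)) * (((q i).den : ℚ) * q i) := by ring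
    _ = _ := by rw [h2]

section KL

variable {B : Type*} [AddCommGroup B] [Module (ratLocalizedAt p) B]
  {ι : Type*} [Fintype ι] (b : Module.Basis ι (ratLocalizedAt p) B)
  {J : Type*} (φ : J → (B →ₗ[ratLocalizedAt p] Kb))

/-- **Key lemma** (coordinates): a Galois-stable jointly injective family of functionals on a
finite free `ℤ_(p)`-module is jointly injective on `ℚ̄`-linear combinations of a basis. -/
theorem kl_coord
    (hgal : ∀ (σ : GK) (j : J), ∃ j', ∀ x, φ j' x = σ (φ j x))
    (hinj : ∀ x : B, (∀ j, φ j x = 0) → x = 0)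
    (c : ι → Kb) (hc : ∀ j, ∑ i, c i * φ j (b i) = 0) : c = 0 := by
  classical
  let W : Submodule Kb (ι → Kb) :=
    { carrier := {c | ∀ j, ∑ i, c i * φ j (b i) = 0}
      add_mem' := by
        intro a a' ha ha' j
        simp only [Pi.add_apply, add_mul, Finset.sum_add_distrib, ha j, ha' j, add_zero]
      zero_mem' := by
        intro j
        simp
      smul_mem' := by
        intro r a ha j
        simp only [Pi.smul_apply, smul_eq_mul, mul_assoc, ← Finset.mul_sum, ha j, mul_zero] }
  have hWmem : ∀ c : ι → Kb, c ∈ W ↔ ∀ j, ∑ i, c i * φ j (b i) = 0 := fun c => Iff.rfl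
  have hbot : W = ⊥ := by
    apply galois_descent_weak
    · intro σ w hw
      rw [hWmem] at hw ⊢
      intro j
      obtain ⟨j', hj'⟩ := hgal σ⁻¹ j
      have h1 : ∀ x, φ j x = σ (φ j' x) := by
        intro x
        rw [hj' x]
        exact (AlgEquiv.apply_symm_apply σ _).symm
      have h2 : ∑ i, σ (w i) * φ j (b i) = σ (∑ i, w i * φ j' (b i)) := by
        rw [map_sum]
        refine Finset.sum_congr rfl (fun i _ => ?_)
        rw [map_mul, h1]
      rw [h2, hw j', map_zero]
    · intro w hw hrat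
      rw [hWmem] at hw
      choose q hq using hrat
      obtain ⟨D, m, hD, hm⟩ := exists_int_multiples q
      have hx : (∑ i, (m i : ratLocalizedAt p) • b i) = 0 := by
        apply hinj
        intro j
        rw [map_sum]
        have h3 : ∀ i, φ j ((m i : ratLocalizedAt p) • b i) = (D : Kb) * (w i * φ j (b i)) := by
          intro i
          rw [map_smul, Algebra.smul_def, ratLoc_algebraMap_Kb, ← hq i, ← mul_assoc]
          congr 1
          rw [show (D : Kb) = algebraMap ℚ Kb (D : ℚ) by simp, ← map_mul, hm i]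
          simp
        simp only [h3, ← Finset.mul_sum, hw j, mul_zero]
      have hmi : ∀ i, m i = 0 := by
        intro i
        have h4 : (m i : ratLocalizedAt p) = 0 := by
          have h8 : (fun i => (m i : ratLocalizedAt p)) = ⇑(b.repr 0) := by
            rw [← hx, b.repr_sum_self]
          have h9 := congrFun h8 i
          simpa using h9
        have h5 := congrArg Subtype.val h4
        simpa using h5
      funext i
      have h6 : (D : ℚ) * q i = 0 := by rw [hm i, hmi i]; simp
      have h7 : q i = 0 := by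
        rcases mul_eq_zero.1 h6 with h | h
        · exact absurd (by exact_mod_cast h) hD
        · exact h
      rw [Pi.zero_apply, ← hq i, h7, map_zero]
  have hcW : c ∈ W := hc
  rw [hbot] at hcW
  exact (Submodule.mem_bot Kb).1 hcW

end KL


end Fermat.Agent.FlatMod
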