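/-
Lib/FlatMod/KeyLemma: consequences of the key lemma `kl_coord`:
* separation of `B₁ ⊗ B₂` by products of functionals;
* rank bounds: `rank B ≤ #J` for a Galois-stable jointly injective family, and (Dedekind)
  `#Hom_alg(B, ℚ̄) ≤ rank B`;
* the dual form: every functional is a `ℚ̄`-combination of the family.
-/
import Mathlib
import Fermat.Agent.Lib.FlatMod.Descent

set_option autoImplicit false

namespace Fermat.Agent.FlatMod

open GaloisRep TensorProduct

local notation "Kb" => AlgebraicClosure ℚ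
local notation "GK" => (AlgebraicClosure ℚ ≃ₐ[ℚ] AlgebraicClosure ℚ)

variable {p : ℕ}

section TMul

variable {B₁ B₂ : Type*} [AddCommGroup B₁] [Module (ratLocalizedAt p) B₁]
  [AddCommGroup B₂] [Module (ratLocalizedAt p) B₂]

/-- The functional `x ⊗ y ↦ φ x * ψ y` on `B₁ ⊗ B₂`. -/
noncomputable def tmulFun (φ : B₁ →ₗ[ratLocalizedAt p] Kb) (ψ : B₂ →ₗ[ratLocalizedAt p] Kb) :
    B₁ ⊗[ratLocalizedAt p] B₂ →ₗ[ratLocalizedAt p] Kb :=
  LinearMap.mul' (ratLocalizedAt p) Kb ∘ₗ TensorProduct.map φ ψ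

@[simp] theorem tmulFun_tmul (φ : B₁ →ₗ[ratLocalizedAt p] Kb) (ψ : B₂ →ₗ[ratLocalizedAt p] Kb)
    (x : B₁) (y : B₂) : tmulFun φ ψ (x ⊗ₜ y) = φ x * ψ y := by
  simp [tmulFun]

theorem tmulFun_map {C₁ C₂ : Type*} [AddCommGroup C₁] [Module (ratLocalizedAt p) C₁]
    [AddCommGroup C₂] [Module (ratLocalizedAt p) C₂]
    (φ : B₁ →ₗ[ratLocalizedAt p] Kb) (ψ : B₂ →ₗ[ratLocalizedAt p] Kb)
    (u : C₁ →ₗ[ratLocalizedAt p] B₁) (v : C₂ →ₗ[ratLocalizedAt p] B₂)
    (z : C₁ ⊗[ratLocalizedAt p] C₂) :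
    tmulFun φ ψ (TensorProduct.map u v z) = tmulFun (φ ∘ₗ u) (ψ ∘ₗ v) z := by
  induction z with
  | zero => simp
  | tmul x y => simp
  | add x y hx hy => simp [hx, hy]

variable {ι : Type*} [Fintype ι] (b : Module.Basis ι (ratLocalizedAt p) B₁)
  {J₁ J₂ : Type*} (φ : J₁ → (B₁ →ₗ[ratLocalizedAt p] Kb))
  (ψ : J₂ → (B₂ →ₗ[ratLocalizedAt p] Kb))

include b in
/-- Separation of `B₁ ⊗ B₂` by products of functionals. -/
theorem tensor_separation
    (hgal : ∀ (σ : GK) (j : J₁), ∃ j', ∀ x, φ j' x = σ (φ j x))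
    (hφ : ∀ x : B₁, (∀ j, φ j x = 0) → x = 0)
    (hψ : ∀ x : B₂, (∀ j, ψ j x = 0) → x = 0)
    (z : B₁ ⊗[ratLocalizedAt p] B₂)
    (hz : ∀ j₁ j₂, tmulFun (φ j₁) (ψ j₂) z = 0) : z = 0 := by
  classical
  obtain ⟨y, rfl⟩ := TensorProduct.eq_repr_basis_left b z
  have hy : y = 0 := by
    ext k
    rw [Finsupp.zero_apply]
    apply hψ
    intro j₂
    have hc : (fun k => ψ j₂ (y k)) = 0 := by
      apply kl_coord b φ hgal hφ
      intro j₁
      have h1 := hz j₁ j₂
      rw [Finsupp.sum, map_sum] at h1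
      simp only [tmulFun_tmul] at h1
      rw [← h1]
      symm
      rw [Finset.sum_subset (Finset.subset_univ y.support)]
      · exact Finset.sum_congr rfl (fun i _ => mul_comm _ _)
      · intro i _ hi
        rw [Finsupp.notMem_support_iff.1 hi, map_zero, mul_zero]
    exact congrFun hc k
  rw [hy]
  simp

end TMul

section Rank

variable {B : Type*} [AddCommGroup B] [Module (ratLocalizedAt p) B]
  {ι : Type*} [Fintype ι] (b : Module.Basis ι (ratLocalizedAt p) B)
  {J : Type*} (φ : J → (B →ₗ[ratLocalizedAt p] Kb))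

/-- The `ℚ̄`-linear map `c ↦ (∑ i, c i * φ j (b i))_j`. -/
noncomputable def coordMap : (ι → Kb) →ₗ[Kb] (J → Kb) where
  toFun c j := ∑ i, c i * φ j (b i)
  map_add' c c' := by
    funext j
    simp [add_mul, Finset.sum_add_distrib]
  map_smul' r c := by
    funext j
    simp [mul_assoc, Finset.mul_sum]

theorem coordMap_apply (c : ι → Kb) (j : J) : coordMap b φ c j = ∑ i, c i * φ j (b i) := rfl

theorem coordMap_injective
    (hgal : ∀ (σ : GK) (j : J), ∃ j', ∀ x, φ j' x = σ (φ j x))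
    (hinj : ∀ x : B, (∀ j, φ j x = 0) → x = 0) :
    Function.Injective (coordMap b φ) := by
  rw [← LinearMap.ker_eq_bot, LinearMap.ker_eq_bot']
  intro c hc
  exact kl_coord b φ hgal hinj c (fun j => congrFun hc j)

include b in
theorem card_basis_le [Fintype J]
    (hgal : ∀ (σ : GK) (j : J), ∃ j', ∀ x, φ j' x = σ (φ j x))
    (hinj : ∀ x : B, (∀ j, φ j x = 0) → x = 0) :
    Fintype.card ι ≤ Fintype.card J := by
  have h := LinearMap.finrank_le_finrank_of_injective (coordMap_injective b φ hgal hinj)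
  rwa [Module.finrank_fintype_fun_eq_card, Module.finrank_fintype_fun_eq_card] at h

include b in
/-- Dual form of the key lemma: every functional is a `ℚ̄`-combination of the family. -/
theorem exists_combination [Fintype J]
    (hgal : ∀ (σ : GK) (j : J), ∃ j', ∀ x, φ j' x = σ (φ j x))
    (hinj : ∀ x : B, (∀ j, φ j x = 0) → x = 0)
    (ψ : B →ₗ[ratLocalizedAt p] Kb) :
    ∃ a : J → Kb, ∀ x : B, ψ x = ∑ j, a j * φ j x := by
  classical
  -- the span of the rows
  let S : Submodule Kb (ι → Kb) := Submodule.span Kb (Set.range (fun j i => φ j (b i)))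
  have hS : S = ⊤ := by
    by_contra hne
    obtain ⟨f, hf0, hf⟩ := Submodule.exists_le_ker_of_lt_top S (lt_top_iff_ne_top.2 hne)
    apply hf0
    have hc : (fun i => f (Pi.single i 1)) = 0 := by
      apply kl_coord b φ hgal hinj
      intro j
      have h1 : (fun i => φ j (b i)) ∈ S := Submodule.subset_span ⟨j, rfl⟩
      have h2 : f (fun i => φ j (b i)) = 0 := hf h1
      rw [← h2]
      conv_rhs => rw [← Finset.univ_sum_single (fun i => φ j (b i))]
      rw [map_sum]
      refine Finset.sum_congr rfl (fun i _ => ?_)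
      have h3 : (Pi.single i (φ j (b i)) : ι → Kb) = (φ j (b i)) • Pi.single i (1 : Kb) := by
        rw [← Pi.single_smul, smul_eq_mul, mul_one]
      rw [h3, map_smul, smul_eq_mul, mul_comm]
    apply LinearMap.pi_ext'
    intro i
    ext
    simpa using congrFun hc i
  have hmem : (fun i => ψ (b i)) ∈ S := by rw [hS]; trivial
  rw [Submodule.mem_span_range_iff_exists_fun] at hmem
  obtain ⟨a, ha⟩ := hmem
  refine ⟨a, fun x => ?_⟩
  have hlin : ψ = ∑ j, (a j) • (φ j) := by
    apply b.ext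
    intro i
    have := congrFun ha i
    simp only [Finset.sum_apply, Pi.smul_apply, smul_eq_mul] at this
    rw [LinearMap.sum_apply]
    simp only [LinearMap.smul_apply, smul_eq_mul]
    exact this.symm
  rw [hlin, LinearMap.sum_apply]
  simp

end Rank

section Dedekind

variable {B : Type*} [CommRing B] [Algebra (ratLocalizedAt p) B]
  [Module.Free (ratLocalizedAt p) B] [Module.Finite (ratLocalizedAt p) B]

theorem finite_algHom : Finite (B →ₐ[ratLocalizedAt p] Kb) :=
  (linearIndependent_toLinearMap (ratLocalizedAt p) B Kb).finite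

theorem card_algHom_le [Fintype (B →ₐ[ratLocalizedAt p] Kb)] :
    Fintype.card (B →ₐ[ratLocalizedAt p] Kb) ≤ Module.finrank (ratLocalizedAt p) B := by
  have h := (linearIndependent_toLinearMap (ratLocalizedAt p) B Kb).fintype_card_le_finrank
  rwa [Module.finrank_linearMap, Module.finrank_self, mul_one] at h

end Dedekind

end Fermat.Agent.FlatMod
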