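/-
Lib/FlatMod/Points: the group of `ℚ̄`-points `WithConv (H →ₐ[ℤ_(p)] ℚ̄)` of a commutative Hopf
algebra over `ℤ_(p)`: Galois twists, inverses via the antipode, evaluation of products through
the comultiplication.
-/
import Mathlib
import Fermat.Agent.Lib.FlatMod.KeyLemma

set_option autoImplicit false

namespace Fermat.Agent.FlatMod

open GaloisRep TensorProduct WithConv

local notation "Kb" => AlgebraicClosure ℚ
local notation "GK" => (AlgebraicClosure ℚ ≃ₐ[ℚ] AlgebraicClosure ℚ)

variable {p : ℕ}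

/-- A Galois automorphism as a `ℤ_(p)`-algebra endomorphism of `ℚ̄`. -/
noncomputable def galHom (p : ℕ) (σ : GK) : Kb →ₐ[ratLocalizedAt p] Kb :=
  (σ : Kb →ₐ[ℚ] Kb).restrictScalars (ratLocalizedAt p)

@[simp] theorem galHom_apply (σ : GK) (x : Kb) : galHom p σ x = σ x := rfl

section Bialg

variable {H : Type*} [CommRing H] [Bialgebra (ratLocalizedAt p) H]

/-- The Galois twist `σ ∘ f` of a point. -/
noncomputable def galPt (σ : GK) (f : WithConv (H →ₐ[ratLocalizedAt p] Kb)) :
    WithConv (H →ₐ[ratLocalizedAt p] Kb) :=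
  toConv ((galHom p σ).comp f.ofConv)

@[simp] theorem galPt_apply (σ : GK) (f : WithConv (H →ₐ[ratLocalizedAt p] Kb)) (h : H) :
    galPt σ f h = σ (f h) := rfl

theorem eq_galPt (σ : GK) (f g : WithConv (H →ₐ[ratLocalizedAt p] Kb))
    (hfg : ∀ h : H, g h = σ (f h)) : g = galPt σ f := by
  apply WithConv.ext
  apply AlgHom.ext
  intro h
  exact hfg h

theorem galPt_mul (σ : GK) (f g : WithConv (H →ₐ[ratLocalizedAt p] Kb)) :
    galPt σ (f * g) = galPt σ f * galPt σ g := by
  apply WithConv.ext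
  exact AlgHom.comp_convMul_distrib (galHom p σ) f g

theorem galPt_one_pt (σ : GK) :
    galPt σ (1 : WithConv (H →ₐ[ratLocalizedAt p] Kb)) = 1 := by
  apply WithConv.ext
  apply AlgHom.ext
  intro h
  show σ (algebraMap (ratLocalizedAt p) Kb _) = algebraMap (ratLocalizedAt p) Kb _
  exact gal_algebraMap σ _

theorem galPt_galPt (σ τ : GK) (f : WithConv (H →ₐ[ratLocalizedAt p] Kb)) :
    galPt σ (galPt τ f) = galPt (σ * τ) f := rfl

theorem galPt_id (f : WithConv (H →ₐ[ratLocalizedAt p] Kb)) :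
    galPt (1 : GK) f = f := rfl

theorem convMul_apply_eq_tmulFun (f g : WithConv (H →ₐ[ratLocalizedAt p] Kb)) (h : H) :
    (f * g) h = tmulFun f.ofConv.toLinearMap g.ofConv.toLinearMap
      (Coalgebra.comul (R := ratLocalizedAt p) h) := by
  rw [AlgHom.convMul_apply]
  generalize Coalgebra.comul (R := ratLocalizedAt p) h = z
  induction z with
  | zero => simp
  | tmul x y => simp
  | add x y hx hy => simp [hx, hy]

end Bialg

section Hopf

variable {H : Type*} [CommRing H] [HopfAlgebra (ratLocalizedAt p) H]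

/-- The inverse `f ∘ S` of a point. -/
noncomputable def invPt (f : WithConv (H →ₐ[ratLocalizedAt p] Kb)) :
    WithConv (H →ₐ[ratLocalizedAt p] Kb) :=
  toConv (f.ofConv.comp (HopfAlgebra.antipodeAlgHom (ratLocalizedAt p) H))

@[simp] theorem invPt_apply (f : WithConv (H →ₐ[ratLocalizedAt p] Kb)) (h : H) :
    invPt f h = f (HopfAlgebra.antipode (ratLocalizedAt p) h) := rfl

theorem invPt_mul (f : WithConv (H →ₐ[ratLocalizedAt p] Kb)) : invPt f * f = 1 := by
  have h1 : invPt f * f = toConv (f.ofConv.comp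
      (toConv (HopfAlgebra.antipodeAlgHom (ratLocalizedAt p) H) *
        toConv (AlgHom.id (ratLocalizedAt p) H)).ofConv) := by
    rw [AlgHom.comp_convMul_distrib]
    rfl
  rw [h1, AlgHom.antipode_id_cancel]
  apply WithConv.ext
  apply AlgHom.ext
  intro h
  simp

theorem mul_invPt [Coalgebra.IsCocomm (ratLocalizedAt p) H]
    (f : WithConv (H →ₐ[ratLocalizedAt p] Kb)) : f * invPt f = 1 := by
  rw [mul_comm, invPt_mul]

end Hopf

end Fermat.Agent.FlatMod
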