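/-
Lib/FlatMod/SubIdeal: the Hopf ideal of functions vanishing on a Galois-stable subgroup of points.
-/
import Mathlib
import Fermat.Agent.Lib.FlatMod.Points

set_option autoImplicit false

namespace Fermat.Agent.FlatMod

open GaloisRep TensorProduct WithConv

local notation "Kb" => AlgebraicClosure ℚ
local notation "GK" => (AlgebraicClosure ℚ ≃ₐ[ℚ] AlgebraicClosure ℚ)

variable {p : ℕ}

/-- A Galois-stable subgroup of the group of points. -/
structure GalSub (p : ℕ) (H : Type*) [CommRing H] [HopfAlgebra (ratLocalizedAt p) H] where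
  carrier : Set (WithConv (H →ₐ[ratLocalizedAt p] Kb))
  one_mem : (1 : WithConv (H →ₐ[ratLocalizedAt p] Kb)) ∈ carrier
  mul_mem : ∀ f ∈ carrier, ∀ g ∈ carrier, f * g ∈ carrier
  inv_mem : ∀ f ∈ carrier, invPt f ∈ carrier
  gal_mem : ∀ (σ : GK), ∀ f ∈ carrier, galPt σ f ∈ carrier

namespace GalSub

variable {H : Type*} [CommRing H] [HopfAlgebra (ratLocalizedAt p) H] (N : GalSub p H)

/-- The ideal of functions vanishing on `N`. -/
def ideal : Ideal H where
  carrier := {h | ∀ f ∈ N.carrier, f h = 0}
  add_mem' := by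
    intro a b ha hb f hf
    rw [map_add, ha f hf, hb f hf, add_zero]
  zero_mem' := by
    intro f _
    exact map_zero _
  smul_mem' := by
    intro c x hx f hf
    rw [smul_eq_mul, map_mul, hx f hf, mul_zero]

theorem mem_ideal (h : H) : h ∈ N.ideal ↔ ∀ f ∈ N.carrier, f h = 0 := Iff.rfl

/-- The functional on the quotient module induced by a point of `N`. -/
noncomputable def barFun (f : N.carrier) :
    (H ⧸ (N.ideal.restrictScalars (ratLocalizedAt p))) →ₗ[ratLocalizedAt p] Kb :=
  (N.ideal.restrictScalars (ratLocalizedAt p)).liftQ f.1.ofConv.toLinearMap (by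
    intro x hx
    exact hx f.1 f.2)

@[simp] theorem barFun_mk (f : N.carrier) (x : H) :
    N.barFun f (Submodule.Quotient.mk x) = f.1 x := rfl

theorem barFun_gal (σ : GK) (f : N.carrier) :
    ∃ g : N.carrier, ∀ x, N.barFun g x = σ (N.barFun f x) := by
  refine ⟨⟨galPt σ f.1, N.gal_mem σ f.1 f.2⟩, fun x => ?_⟩
  obtain ⟨x, rfl⟩ := Submodule.Quotient.mk_surjective _ x
  rfl

theorem barFun_inj (x : H ⧸ (N.ideal.restrictScalars (ratLocalizedAt p)))
    (hx : ∀ f : N.carrier, N.barFun f x = 0) : x = 0 := by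
  obtain ⟨x, rfl⟩ := Submodule.Quotient.mk_surjective _ x
  rw [Submodule.Quotient.mk_eq_zero]
  intro f hf
  exact hx ⟨f, hf⟩

instance isTorsionFree_quot :
    Module.IsTorsionFree (ratLocalizedAt p) (H ⧸ (N.ideal.restrictScalars (ratLocalizedAt p))) := by
  refine Function.Injective.moduleIsTorsionFree
    (fun x (f : N.carrier) => N.barFun f x) ?_ ?_
  · intro x y hxy
    rw [← sub_eq_zero]
    apply N.barFun_inj
    intro f
    rw [map_sub, sub_eq_zero]
    exact congrFun hxy f
  · intro r m
    funext f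
    simp

variable [Fact p.Prime] [Module.Finite (ratLocalizedAt p) H]

instance isCoideal_ideal : (N.ideal.restrictScalars (ratLocalizedAt p)).IsCoideal where
  counit_eq_zero := by
    intro x hx
    have h1 : (1 : WithConv (H →ₐ[ratLocalizedAt p] Kb)) x = 0 := hx 1 N.one_mem
    rw [AlgHom.convOne_apply] at h1
    exact ratLoc_algebraMap_Kb_injective (by rw [h1, map_zero])
  map_mkQ_comul_eq_zero := by
    intro x hx
    have hfree : Module.Free (ratLocalizedAt p)
        (H ⧸ (N.ideal.restrictScalars (ratLocalizedAt p))) := inferInstance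
    let b := Module.Free.chooseBasis (ratLocalizedAt p)
      (H ⧸ (N.ideal.restrictScalars (ratLocalizedAt p)))
    apply tensor_separation b N.barFun N.barFun N.barFun_gal N.barFun_inj N.barFun_inj
    intro f g
    rw [tmulFun_map]
    have h2 : (f.1 * g.1) x = 0 := hx _ (N.mul_mem f.1 f.2 g.1 g.2)
    rw [convMul_apply_eq_tmulFun] at h2
    exact h2

instance isHopfIdeal_ideal : N.ideal.IsHopfIdeal (ratLocalizedAt p) where
  antipode_mem := by
    intro x hx f hf
    exact hx _ (N.inv_mem f hf)

end GalSub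

end Fermat.Agent.FlatMod
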