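/-
Lib/FlatMod/Sub: the quotient Hopf algebra `H ⧸ I_N` of functions on a Galois-stable subgroup `N`
of points: it is finite flat cocommutative and its points are exactly `N`.  Consequence:
sub-objects of flat Galois modules are flat.
-/
import Mathlib
import Fermat.Agent.Lib.FlatMod.SubIdeal
import Fermat.Agent.Lib.FlatMod.Defs

set_option autoImplicit false
set_option linter.style.haveILetI false
set_option linter.unusedSectionVars false

namespace Fermat.Agent.FlatMod

open GaloisRep TensorProduct WithConv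

local notation "Kb" => AlgebraicClosure ℚ
local notation "GK" => (AlgebraicClosure ℚ ≃ₐ[ℚ] AlgebraicClosure ℚ)

variable {p : ℕ}

namespace GalSub

variable {H : Type*} [CommRing H] [HopfAlgebra (ratLocalizedAt p) H] (N : GalSub p H)
variable [Fact p.Prime] [Module.Finite (ratLocalizedAt p) H]

instance isTorsionFree_quot' :
    Module.IsTorsionFree (ratLocalizedAt p) (H ⧸ N.ideal) :=
  N.isTorsionFree_quot

instance isCocomm_quot [Coalgebra.IsCocomm (ratLocalizedAt p) H] :
    Coalgebra.IsCocomm (ratLocalizedAt p) (H ⧸ N.ideal) where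
  comm_comp_comul := by
    apply LinearMap.ext
    intro x
    obtain ⟨x, rfl⟩ := Ideal.Quotient.mk_surjective x
    simp only [LinearMap.coe_comp, LinearEquiv.coe_coe, Function.comp_apply,
      Bialgebra.Quotient.comul_mk]
    rw [← TensorProduct.map_comm, Coalgebra.comm_comul]

/-- Pull back a point of the quotient to `H`. -/
noncomputable def pullPt (f' : WithConv ((H ⧸ N.ideal) →ₐ[ratLocalizedAt p] Kb)) :
    WithConv (H →ₐ[ratLocalizedAt p] Kb) :=
  toConv (f'.ofConv.comp (Ideal.Quotient.mkₐ (ratLocalizedAt p) N.ideal))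

@[simp] theorem pullPt_apply (f' : WithConv ((H ⧸ N.ideal) →ₐ[ratLocalizedAt p] Kb)) (h : H) :
    N.pullPt f' h = f' (Ideal.Quotient.mk N.ideal h) := rfl

theorem pullPt_injective : Function.Injective N.pullPt := by
  intro f' g' hfg
  apply WithConv.ext
  apply AlgHom.ext
  intro x
  obtain ⟨x, rfl⟩ := Ideal.Quotient.mk_surjective x
  have := congrArg (fun f : WithConv (H →ₐ[ratLocalizedAt p] Kb) => f x) hfg
  exact this

theorem pullPt_mul (f' g' : WithConv ((H ⧸ N.ideal) →ₐ[ratLocalizedAt p] Kb)) :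
    N.pullPt (f' * g') = N.pullPt f' * N.pullPt g' := by
  apply WithConv.ext
  exact AlgHom.convMul_comp_bialgHom_distrib f' g' (Bialgebra.Quotient.mkBialgHom N.ideal)

theorem pullPt_gal (σ : GK) (f' : WithConv ((H ⧸ N.ideal) →ₐ[ratLocalizedAt p] Kb)) :
    N.pullPt (galPt σ f') = galPt σ (N.pullPt f') := rfl

/-- Lift a point of `N` to the quotient. -/
noncomputable def liftPt (f : N.carrier) :
    WithConv ((H ⧸ N.ideal) →ₐ[ratLocalizedAt p] Kb) :=
  toConv (Ideal.Quotient.liftₐ N.ideal f.1.ofConv (fun _ hx => hx f.1 f.2))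

theorem pullPt_liftPt (f : N.carrier) : N.pullPt (N.liftPt f) = f.1 := by
  apply WithConv.ext
  apply AlgHom.ext
  intro x
  rfl

theorem liftPt_injective : Function.Injective N.liftPt := by
  intro f g hfg
  apply Subtype.ext
  rw [← N.pullPt_liftPt f, ← N.pullPt_liftPt g, hfg]

variable [Module.Flat (ratLocalizedAt p) H]

theorem finite_pts : Finite (WithConv (H →ₐ[ratLocalizedAt p] Kb)) := by
  haveI : Finite (H →ₐ[ratLocalizedAt p] Kb) := finite_algHom
  exact Finite.of_equiv _ (WithConv.equiv _).symm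

theorem liftPt_surjective : Function.Surjective N.liftPt := by
  classical
  haveI := finite_pts (p := p) (H := H)
  haveI : Finite N.carrier := inferInstance
  haveI : Finite ((H ⧸ N.ideal) →ₐ[ratLocalizedAt p] Kb) := finite_algHom
  haveI : Finite (WithConv ((H ⧸ N.ideal) →ₐ[ratLocalizedAt p] Kb)) :=
    Finite.of_equiv _ (WithConv.equiv _).symm
  letI : Fintype N.carrier := Fintype.ofFinite _
  letI : Fintype ((H ⧸ N.ideal) →ₐ[ratLocalizedAt p] Kb) := Fintype.ofFinite _
  letI : Fintype (WithConv ((H ⧸ N.ideal) →ₐ[ratLocalizedAt p] Kb)) := Fintype.ofFinite _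
  have h1 : Fintype.card ((H ⧸ N.ideal) →ₐ[ratLocalizedAt p] Kb) ≤
      Module.finrank (ratLocalizedAt p) (H ⧸ N.ideal) := card_algHom_le
  have h2 : Module.finrank (ratLocalizedAt p) (H ⧸ N.ideal) ≤ Fintype.card N.carrier := by
    rw [Module.finrank_eq_card_chooseBasisIndex]
    exact card_basis_le (Module.Free.chooseBasis (ratLocalizedAt p) (H ⧸ N.ideal))
      N.barFun N.barFun_gal N.barFun_inj
  have h3 : Fintype.card (WithConv ((H ⧸ N.ideal) →ₐ[ratLocalizedAt p] Kb)) =
      Fintype.card ((H ⧸ N.ideal) →ₐ[ratLocalizedAt p] Kb) :=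
    Fintype.card_congr (WithConv.equiv _)
  have h4 : Fintype.card (WithConv ((H ⧸ N.ideal) →ₐ[ratLocalizedAt p] Kb)) ≤
      Fintype.card N.carrier := by omega
  have h5 : Fintype.card N.carrier ≤
      Fintype.card (WithConv ((H ⧸ N.ideal) →ₐ[ratLocalizedAt p] Kb)) :=
    Fintype.card_le_of_injective _ N.liftPt_injective
  exact ((Fintype.bijective_iff_injective_and_card _).2
    ⟨N.liftPt_injective, le_antisymm h5 h4⟩).2

theorem pullPt_mem (f' : WithConv ((H ⧸ N.ideal) →ₐ[ratLocalizedAt p] Kb)) :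
    N.pullPt f' ∈ N.carrier := by
  obtain ⟨f, rfl⟩ := N.liftPt_surjective f'
  rw [pullPt_liftPt]
  exact f.2

end GalSub

section Main

variable [Fact p.Prime]

/-- Sub-objects (same statement as the stub `IsFlatGaloisModule.sub`). -/
theorem isFlat_sub_aux {M : Type} [AddCommGroup M]
    {act : (AlgebraicClosure ℚ ≃ₐ[ℚ] AlgebraicClosure ℚ) → M → M}
    (h : IsFlatGaloisModule p M act) (N : AddSubgroup M)
    (hN : ∀ σ, ∀ x ∈ N, act σ x ∈ N) :
    IsFlatGaloisModule p N (fun σ x => ⟨act σ x.1, hN σ x.1 x.2⟩) := by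
  obtain ⟨H, i1, i2, h1, h2, h3, e, he1, he2⟩ := h
  have hone : e 1 = 0 := by
    have := he1 1 1
    rw [mul_one] at this
    exact left_eq_add.1 this
  have hinv : ∀ f, e (invPt f) = - e f := by
    intro f
    have := he1 (invPt f) f
    rw [invPt_mul, hone] at this
    exact eq_neg_of_add_eq_zero_left this.symm
  have hgal : ∀ σ f, e (galPt σ f) = act σ (e f) := fun σ f =>
    he2 σ f (galPt σ f) (fun _ => rfl)
  let NN : GalSub p H :=
    { carrier := {f | e f ∈ N}
      one_mem := by
        show e 1 ∈ N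
        rw [hone]
        exact N.zero_mem
      mul_mem := by
        intro f hf g hg
        show e (f * g) ∈ N
        rw [he1]
        exact N.add_mem hf hg
      inv_mem := by
        intro f hf
        show e (invPt f) ∈ N
        rw [hinv]
        exact N.neg_mem hf
      gal_mem := by
        intro σ f hf
        show e (galPt σ f) ∈ N
        rw [hgal]
        exact hN σ _ hf }
  refine ⟨H ⧸ NN.ideal, inferInstance, inferInstance, inferInstance, inferInstance,
    inferInstance, ?_⟩
  let e' : WithConv ((H ⧸ NN.ideal) →ₐ[ratLocalizedAt p] Kb) ≃ N :=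
    Equiv.ofBijective (fun f' => ⟨e (NN.pullPt f'), NN.pullPt_mem f'⟩) (by
      constructor
      · intro f' g' hfg
        have h4 : e (NN.pullPt f') = e (NN.pullPt g') := congrArg Subtype.val hfg
        exact NN.pullPt_injective (e.injective h4)
      · intro x
        have hx : e.symm x.1 ∈ NN.carrier := by
          show e (e.symm x.1) ∈ N
          rw [Equiv.apply_symm_apply]
          exact x.2
        refine ⟨NN.liftPt ⟨_, hx⟩, Subtype.ext ?_⟩
        show e (NN.pullPt (NN.liftPt ⟨_, hx⟩)) = x.1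
        rw [NN.pullPt_liftPt]
        exact Equiv.apply_symm_apply e x.1)
  refine ⟨e', fun f' g' => ?_, fun σ f' g' hfg => ?_⟩
  · apply Subtype.ext
    show e (NN.pullPt (f' * g')) = e (NN.pullPt f') + e (NN.pullPt g')
    rw [NN.pullPt_mul, he1]
  · apply Subtype.ext
    show e (NN.pullPt g') = act σ (e (NN.pullPt f'))
    exact he2 σ (NN.pullPt f') (NN.pullPt g') (fun h => hfg _)

/-- Sub-objects, for an injective equivariant additive map (same statement as the stub
`IsFlatGaloisModule.of_injective`). -/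
theorem isFlat_of_injective_aux {M M' : Type} [AddCommGroup M] [AddCommGroup M']
    {act : (AlgebraicClosure ℚ ≃ₐ[ℚ] AlgebraicClosure ℚ) → M → M}
    {act' : (AlgebraicClosure ℚ ≃ₐ[ℚ] AlgebraicClosure ℚ) → M' → M'}
    (h : IsFlatGaloisModule p M act) (ι : M' →+ M) (hι : Function.Injective ι)
    (hact : ∀ σ x, ι (act' σ x) = act σ (ι x)) :
    IsFlatGaloisModule p M' act' := by
  have hN : ∀ σ, ∀ x ∈ ι.range, act σ x ∈ ι.range := by
    rintro σ _ ⟨y, rfl⟩
    exact ⟨act' σ y, hact σ y⟩
  obtain ⟨H, i1, i2, h1, h2, h3, e₀, he1, he2⟩ := isFlat_sub_aux h ι.range hN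
  let E : M' ≃+ ι.range := AddMonoidHom.ofInjective hι
  refine ⟨H, i1, i2, h1, h2, h3, e₀.trans E.symm.toEquiv, fun f g => ?_, fun σ f g hfg => ?_⟩
  · show E.symm (e₀ (f * g)) = E.symm (e₀ f) + E.symm (e₀ g)
    rw [he1, map_add]
  · show E.symm (e₀ g) = act' σ (E.symm (e₀ f))
    rw [he2 σ f g hfg]
    apply E.injective
    rw [AddEquiv.apply_symm_apply]
    apply Subtype.ext
    show act σ (e₀ f).1 = ι (act' σ (E.symm (e₀ f)))
    rw [hact]
    congr 1
    exact (congrArg Subtype.val (E.apply_symm_apply (e₀ f))).symm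

end Main

end Fermat.Agent.FlatMod
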