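/-
Lib/FlatMod/Sep: a flat Galois module is the module of points of a finite flat Hopf algebra whose
points separate its elements (replace `H` by the quotient by the functions vanishing at all points).
-/
import Mathlib
import Fermat.Agent.Lib.FlatMod.Sub

set_option autoImplicit false
set_option linter.style.haveILetI false
set_option linter.unusedSectionVars false

namespace Fermat.Agent.FlatMod

open GaloisRep TensorProduct WithConv

local notation "Kb" => AlgebraicClosure ℚ
local notation "GK" => (AlgebraicClosure ℚ ≃ₐ[ℚ] AlgebraicClosure ℚ)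

variable {p : ℕ}

/-- The full group of points as a Galois-stable subgroup. -/
def GalSub.top (p : ℕ) (H : Type*) [CommRing H] [HopfAlgebra (ratLocalizedAt p) H] :
    GalSub p H where
  carrier := Set.univ
  one_mem := trivial
  mul_mem := fun _ _ _ _ => trivial
  inv_mem := fun _ _ => trivial
  gal_mem := fun _ _ _ => trivial

variable [Fact p.Prime]

/-- Separated form of `IsFlatGaloisModule`. -/
theorem exists_separated {M : Type} [AddCommGroup M]
    {act : (AlgebraicClosure ℚ ≃ₐ[ℚ] AlgebraicClosure ℚ) → M → M}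
    (h : IsFlatGaloisModule p M act) :
    ∃ (H : Type) (_ : CommRing H) (_ : HopfAlgebra (ratLocalizedAt p) H),
      Module.Finite (ratLocalizedAt p) H ∧
      Module.Flat (ratLocalizedAt p) H ∧
      Coalgebra.IsCocomm (ratLocalizedAt p) H ∧
      (∀ x : H, (∀ f : WithConv (H →ₐ[ratLocalizedAt p] Kb), f x = 0) → x = 0) ∧
      ∃ e : WithConv (H →ₐ[ratLocalizedAt p] Kb) ≃ M,
        (∀ f g : WithConv (H →ₐ[ratLocalizedAt p] Kb), e (f * g) = e f + e g) ∧
        ∀ (σ : GK) (f g : WithConv (H →ₐ[ratLocalizedAt p] Kb)),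
          (∀ h : H, g h = σ (f h)) → e g = act σ (e f) := by
  obtain ⟨H, i1, i2, h1, h2, h3, e, he1, he2⟩ := h
  let NN : GalSub p H := GalSub.top p H
  refine ⟨H ⧸ NN.ideal, inferInstance, inferInstance, inferInstance, inferInstance,
    inferInstance, ?_, ?_⟩
  · intro x hx
    obtain ⟨y, rfl⟩ := Ideal.Quotient.mk_surjective x
    rw [Ideal.Quotient.eq_zero_iff_mem]
    intro f hf
    exact hx (NN.liftPt ⟨f, hf⟩)
  let e' : WithConv ((H ⧸ NN.ideal) →ₐ[ratLocalizedAt p] Kb) ≃ M :=
    Equiv.ofBijective (fun f' => e (NN.pullPt f')) (by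
      constructor
      · intro f' g' hfg
        exact NN.pullPt_injective (e.injective hfg)
      · intro x
        refine ⟨NN.liftPt ⟨e.symm x, trivial⟩, ?_⟩
        show e (NN.pullPt (NN.liftPt ⟨_, trivial⟩)) = x
        rw [NN.pullPt_liftPt]
        exact Equiv.apply_symm_apply e x)
  refine ⟨e', fun f' g' => ?_, fun σ f' g' hfg => ?_⟩
  · show e (NN.pullPt (f' * g')) = e (NN.pullPt f') + e (NN.pullPt g')
    rw [NN.pullPt_mul, he1]
  · show e (NN.pullPt g') = act σ (e (NN.pullPt f'))
    exact he2 σ (NN.pullPt f') (NN.pullPt g') (fun h => hfg _)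

end Fermat.Agent.FlatMod
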