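/-
Lib/FlatMod/OrderBasic: Hopf orders (finite `ℤ_(p)`-algebras of Galois-equivariant functions on a
finite Galois module `W`, closed under comultiplication and antipode): definition and the
separation of `H`, `H ⊗ H`, `H ⊗ (H ⊗ H)` by evaluations.
-/
import Mathlib
import Fermat.Agent.Lib.FlatMod.QuotAlg

set_option autoImplicit false
set_option linter.style.haveILetI false
set_option linter.unusedSectionVars false

namespace Fermat.Agent.FlatMod

open GaloisRep TensorProduct WithConv

local notation "Kb" => AlgebraicClosure ℚ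
local notation "GK" => (AlgebraicClosure ℚ ≃ₐ[ℚ] AlgebraicClosure ℚ)

variable {p : ℕ}

instance ratLoc_isFractionRing [Fact p.Prime] : IsFractionRing (ratLocalizedAt p) ℚ := by
  apply IsFractionRing.of_field
  intro z
  refine ⟨(z.num : ratLocalizedAt p), (z.den : ratLocalizedAt p), ?_⟩
  have h1 : algebraMap (ratLocalizedAt p) ℚ (z.num : ratLocalizedAt p) = (z.num : ℚ) := by
    simp
  have h2 : algebraMap (ratLocalizedAt p) ℚ (z.den : ratLocalizedAt p) = (z.den : ℚ) := by
    simp
  rw [h1, h2]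
  exact (Rat.num_div_den z).symm

/-- A Galois-fixed element of `ℚ̄` that is integral over `ℤ_(p)` lies in `ℤ_(p)`. -/
theorem mem_range_of_fixed_of_isIntegral [Fact p.Prime] (x : Kb) (hx : ∀ σ : GK, σ x = x)
    (hint : IsIntegral (ratLocalizedAt p) x) :
    x ∈ (algebraMap (ratLocalizedAt p) Kb).range := by
  obtain ⟨q, rfl⟩ := mem_range_of_galois_fixed x hx
  have h1 : IsIntegral (ratLocalizedAt p) q :=
    (isIntegral_algebraMap_iff (FaithfulSMul.algebraMap_injective ℚ Kb)).1 hint
  obtain ⟨r, hr⟩ := IsIntegrallyClosed.algebraMap_eq_of_integral h1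
  refine ⟨r, ?_⟩
  rw [← hr]
  exact (IsScalarTower.algebraMap_apply (ratLocalizedAt p) ℚ Kb r)

section TMulMore

variable {B₁ B₂ B₃ : Type*} [AddCommGroup B₁] [Module (ratLocalizedAt p) B₁]
  [AddCommGroup B₂] [Module (ratLocalizedAt p) B₂]
  [AddCommGroup B₃] [Module (ratLocalizedAt p) B₃]

theorem tmulFun_comm (φ : B₁ →ₗ[ratLocalizedAt p] Kb) (ψ : B₂ →ₗ[ratLocalizedAt p] Kb)
    (z : B₁ ⊗[ratLocalizedAt p] B₂) :
    tmulFun ψ φ (TensorProduct.comm (ratLocalizedAt p) B₁ B₂ z) = tmulFun φ ψ z := by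
  induction z with
  | zero => simp
  | tmul x y => simp [mul_comm]
  | add x y hx hy => rw [map_add, map_add, map_add, hx, hy]

theorem tmulFun_assoc (φ₁ : B₁ →ₗ[ratLocalizedAt p] Kb) (φ₂ : B₂ →ₗ[ratLocalizedAt p] Kb)
    (φ₃ : B₃ →ₗ[ratLocalizedAt p] Kb)
    (z : (B₁ ⊗[ratLocalizedAt p] B₂) ⊗[ratLocalizedAt p] B₃) :
    tmulFun φ₁ (tmulFun φ₂ φ₃) (TensorProduct.assoc (ratLocalizedAt p) B₁ B₂ B₃ z) =
      tmulFun (tmulFun φ₁ φ₂) φ₃ z := by
  induction z with
  | zero => simp
  | tmul x c =>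
    induction x with
    | zero => simp
    | tmul a b => simp [mul_assoc]
    | add x y hx hy => rw [add_tmul, map_add, map_add, map_add, hx, hy]
  | add x y hx hy => rw [map_add, map_add, map_add, hx, hy]

end TMulMore

/-- Evaluation at a point as an algebra hom on a subalgebra of functions. -/
noncomputable def evPt {W : Type*} (H : Subalgebra (ratLocalizedAt p) (W → Kb)) (w : W) :
    H →ₐ[ratLocalizedAt p] Kb :=
  (Pi.evalAlgHom (ratLocalizedAt p) (fun _ : W => Kb) w).comp H.val

@[simp] theorem evPt_apply {W : Type*} (H : Subalgebra (ratLocalizedAt p) (W → Kb)) (w : W)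
    (h : H) : evPt H w h = (h : W → Kb) w := rfl

/-- A Hopf order: a finite `ℤ_(p)`-algebra of Galois-equivariant functions on `W`, separating the
points of `W`, closed under comultiplication and antipode. -/
structure HopfOrder (p : ℕ) (W : Type*) [AddCommGroup W] (act : GK → W → W) where
  alg : Subalgebra (ratLocalizedAt p) (W → Kb)
  fin : Module.Finite (ratLocalizedAt p) alg
  equiv : ∀ h ∈ alg, ∀ (σ : GK) (w : W), h (act σ w) = σ (h w)
  sep : ∀ w w' : W, (∀ h ∈ alg, h w = h w') → w = w'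
  add : ∀ h ∈ alg, ∃ z : alg ⊗[ratLocalizedAt p] alg, ∀ w w' : W,
    tmulFun (evPt alg w).toLinearMap (evPt alg w').toLinearMap z = h (w + w')
  neg : ∀ h ∈ alg, (fun w => h (-w)) ∈ alg

namespace HopfOrder

variable {W : Type*} [AddCommGroup W] {act : GK → W → W} (O : HopfOrder p W act)

instance : Module.Finite (ratLocalizedAt p) O.alg := O.fin

instance isTorsionFree_alg : Module.IsTorsionFree (ratLocalizedAt p) O.alg :=
  Function.Injective.moduleIsTorsionFree (fun a : O.alg => (a : W → Kb)) Subtype.val_injective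
    (fun _ _ => rfl)

/-- The evaluation functionals. -/
noncomputable def ev (w : W) : O.alg →ₗ[ratLocalizedAt p] Kb := (evPt O.alg w).toLinearMap

@[simp] theorem ev_apply (w : W) (h : O.alg) : O.ev w h = (h : W → Kb) w := rfl

theorem ev_gal (σ : GK) (w : W) : ∃ w', ∀ x, O.ev w' x = σ (O.ev w x) :=
  ⟨act σ w, fun x => O.equiv x.1 x.2 σ w⟩

theorem sep1 (h : O.alg) (hh : ∀ w, O.ev w h = 0) : h = 0 := by
  apply Subtype.ext
  funext w
  exact hh w

theorem gal_tmulFun_ev (σ : GK) (w w' : W) (z : O.alg ⊗[ratLocalizedAt p] O.alg) :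
    σ (tmulFun (O.ev w) (O.ev w') z) = tmulFun (O.ev (act σ w)) (O.ev (act σ w')) z := by
  induction z with
  | zero => simp
  | tmul a b =>
    simp only [tmulFun_tmul, ev_apply, map_mul]
    rw [O.equiv a.1 a.2, O.equiv b.1 b.2]
  | add x y hx hy => rw [map_add, map_add, map_add, hx, hy]

include O in
theorem act_add (σ : GK) (w w' : W) : act σ (w + w') = act σ w + act σ w' := by
  apply O.sep
  intro h hh
  obtain ⟨z, hz⟩ := O.add h hh
  rw [O.equiv h hh, ← hz, ← hz]
  exact O.gal_tmulFun_ev σ w w' z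

include O in
theorem act_zero (σ : GK) : act σ 0 = 0 := by
  have := O.act_add σ 0 0
  rw [add_zero] at this
  exact left_eq_add.1 this

variable [Fact p.Prime]

theorem sep2 (z : O.alg ⊗[ratLocalizedAt p] O.alg)
    (hz : ∀ w w', tmulFun (O.ev w) (O.ev w') z = 0) : z = 0 :=
  tensor_separation (Module.Free.chooseBasis (ratLocalizedAt p) O.alg) O.ev O.ev
    O.ev_gal O.sep1 O.sep1 z hz

theorem sep3 (z : O.alg ⊗[ratLocalizedAt p] (O.alg ⊗[ratLocalizedAt p] O.alg))
    (hz : ∀ w w' w'', tmulFun (O.ev w) (tmulFun (O.ev w') (O.ev w'')) z = 0) : z = 0 :=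
  tensor_separation (Module.Free.chooseBasis (ratLocalizedAt p) O.alg) O.ev
    (fun j : W × W => tmulFun (O.ev j.1) (O.ev j.2))
    O.ev_gal O.sep1 (fun x hx => O.sep2 x (fun w w' => hx (w, w'))) z
    (fun w j => hz w j.1 j.2)

end HopfOrder

end Fermat.Agent.FlatMod
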