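/-
Lib/FlatMod/OrderMaps: the structure maps (comultiplication, counit, antipode) of a Hopf order.
-/
import Mathlib
import Fermat.Agent.Lib.FlatMod.OrderBasic

set_option autoImplicit false
set_option linter.style.haveILetI false
set_option linter.unusedSectionVars false

namespace Fermat.Agent.FlatMod

open GaloisRep TensorProduct WithConv

local notation "Kb" => AlgebraicClosure ℚ
local notation "GK" => (AlgebraicClosure ℚ ≃ₐ[ℚ] AlgebraicClosure ℚ)

variable {p : ℕ}

namespace HopfOrder

variable {W : Type*} [AddCommGroup W] {act : GK → W → W} (O : HopfOrder p W act)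

/-- The algebra hom `H ⊗ H → Map(W × W, ℚ̄)`. -/
noncomputable def theta2 : O.alg ⊗[ratLocalizedAt p] O.alg →ₐ[ratLocalizedAt p] (W × W → Kb) :=
  Algebra.TensorProduct.lift
    (AlgHom.pi (fun x : W × W => evPt O.alg x.1) :
      O.alg →ₐ[ratLocalizedAt p] (W × W → Kb))
    (AlgHom.pi (fun x : W × W => evPt O.alg x.2) :
      O.alg →ₐ[ratLocalizedAt p] (W × W → Kb))
    (fun _ _ => Commute.all _ _)

theorem theta2_apply (z : O.alg ⊗[ratLocalizedAt p] O.alg) (x : W × W) :
    O.theta2 z x = tmulFun (O.ev x.1) (O.ev x.2) z := by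
  induction z with
  | zero => simp
  | tmul a b => simp [theta2]
  | add a b ha hb => rw [map_add, map_add, Pi.add_apply, ha, hb]

/-- Pull-back along the addition of `W`. -/
noncomputable def addPull : O.alg →ₐ[ratLocalizedAt p] (W × W → Kb) :=
  (AlgHom.pi (fun x : W × W => evPt O.alg (x.1 + x.2)) :
    O.alg →ₐ[ratLocalizedAt p] (W × W → Kb))

@[simp] theorem addPull_apply (h : O.alg) (x : W × W) :
    O.addPull h x = (h : W → Kb) (x.1 + x.2) := rfl

theorem addPull_mem (h : O.alg) : O.addPull h ∈ O.theta2.range := by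
  obtain ⟨z, hz⟩ := O.add h.1 h.2
  refine ⟨z, ?_⟩
  funext x
  show O.theta2 z x = _
  rw [theta2_apply]
  exact hz x.1 x.2

/-- Pull-back along the negation of `W`, as an endomorphism of `H`. -/
noncomputable def negHom : O.alg →ₐ[ratLocalizedAt p] O.alg :=
  AlgHom.codRestrict
    (AlgHom.pi (fun w : W => evPt O.alg (-w)) : O.alg →ₐ[ratLocalizedAt p] (W → Kb))
    O.alg (fun h => O.neg h.1 h.2)

@[simp] theorem negHom_apply (h : O.alg) (w : W) :
    (O.negHom h : W → Kb) w = (h : W → Kb) (-w) := rfl

variable [Fact p.Prime]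

theorem theta2_injective : Function.Injective O.theta2 := by
  rw [injective_iff_map_eq_zero]
  intro z hz
  apply O.sep2
  intro w w'
  have := congrFun hz (w, w')
  rw [theta2_apply] at this
  exact this

/-- The comultiplication. -/
noncomputable def comulHom : O.alg →ₐ[ratLocalizedAt p] O.alg ⊗[ratLocalizedAt p] O.alg :=
  ((AlgEquiv.ofInjective O.theta2 O.theta2_injective).symm :
      O.theta2.range →ₐ[ratLocalizedAt p] O.alg ⊗[ratLocalizedAt p] O.alg).comp
    (AlgHom.codRestrict O.addPull O.theta2.range O.addPull_mem)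

theorem theta2_comulHom (h : O.alg) : O.theta2 (O.comulHom h) = O.addPull h := by
  have := (AlgEquiv.ofInjective O.theta2 O.theta2_injective).apply_symm_apply
    (AlgHom.codRestrict O.addPull O.theta2.range O.addPull_mem h)
  exact congrArg Subtype.val this

theorem comulHom_spec (h : O.alg) (w w' : W) :
    tmulFun (O.ev w) (O.ev w') (O.comulHom h) = (h : W → Kb) (w + w') := by
  have := congrFun (O.theta2_comulHom h) (w, w')
  rw [theta2_apply] at this
  exact this

theorem tmulFun_comp_comulHom (w w' : W) :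
    tmulFun (O.ev w) (O.ev w') ∘ₗ O.comulHom.toLinearMap = O.ev (w + w') :=
  LinearMap.ext (fun h => O.comulHom_spec h w w')

theorem ev_zero_mem (h : O.alg) :
    evPt O.alg 0 h ∈ (Algebra.ofId (ratLocalizedAt p) Kb).range := by
  have h1 : ∀ σ : GK, σ (evPt O.alg 0 h) = evPt O.alg 0 h := by
    intro σ
    rw [evPt_apply, ← O.equiv h.1 h.2, O.act_zero]
  have h2 : IsIntegral (ratLocalizedAt p) (evPt O.alg 0 h) :=
    (IsIntegral.of_finite (ratLocalizedAt p) h).map (evPt O.alg 0)
  exact mem_range_of_fixed_of_isIntegral _ h1 h2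

/-- The counit. -/
noncomputable def counitHom : O.alg →ₐ[ratLocalizedAt p] (ratLocalizedAt p) :=
  ((AlgEquiv.ofInjective (Algebra.ofId (ratLocalizedAt p) Kb)
      ratLoc_algebraMap_Kb_injective).symm :
      (Algebra.ofId (ratLocalizedAt p) Kb).range →ₐ[ratLocalizedAt p] ratLocalizedAt p).comp
    (AlgHom.codRestrict (evPt O.alg 0) (Algebra.ofId (ratLocalizedAt p) Kb).range O.ev_zero_mem)

theorem counitHom_spec (h : O.alg) :
    algebraMap (ratLocalizedAt p) Kb (O.counitHom h) = (h : W → Kb) 0 := by
  have := (AlgEquiv.ofInjective (Algebra.ofId (ratLocalizedAt p) Kb)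
      ratLoc_algebraMap_Kb_injective).apply_symm_apply
    (AlgHom.codRestrict (evPt O.alg 0) (Algebra.ofId (ratLocalizedAt p) Kb).range O.ev_zero_mem h)
  exact congrArg Subtype.val this

end HopfOrder

end Fermat.Agent.FlatMod
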