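/-
Lib/FlatMod/OrderHopf: the Hopf algebra structure of a Hopf order (all axioms are checked on
points, using the separation of `H`, `H ⊗ H`, `H ⊗ (H ⊗ H)` by evaluations).
-/
import Mathlib
import Fermat.Agent.Lib.FlatMod.OrderMaps

set_option autoImplicit false
set_option linter.style.haveILetI false
set_option linter.unusedSectionVars false

namespace Fermat.Agent.FlatMod

open GaloisRep TensorProduct WithConv

local notation "Kb" => AlgebraicClosure ℚ
local notation "GK" => (AlgebraicClosure ℚ ≃ₐ[ℚ] AlgebraicClosure ℚ)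

variable {p : ℕ}

namespace HopfOrder

variable {W : Type*} [AddCommGroup W] {act : GK → W → W} (O : HopfOrder p W act)
variable [Fact p.Prime]

theorem eq_of_sep1 (x y : O.alg) (h : ∀ w, O.ev w x = O.ev w y) : x = y := by
  rw [← sub_eq_zero]
  apply O.sep1
  intro w
  rw [map_sub, h w, sub_self]

theorem eq_of_sep2 (x y : O.alg ⊗[ratLocalizedAt p] O.alg)
    (h : ∀ w w', tmulFun (O.ev w) (O.ev w') x = tmulFun (O.ev w) (O.ev w') y) : x = y := by
  rw [← sub_eq_zero]
  apply O.sep2
  intro w w'
  rw [map_sub, h w w', sub_self]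

theorem eq_of_sep3 (x y : O.alg ⊗[ratLocalizedAt p] (O.alg ⊗[ratLocalizedAt p] O.alg))
    (h : ∀ w w' w'', tmulFun (O.ev w) (tmulFun (O.ev w') (O.ev w'')) x =
      tmulFun (O.ev w) (tmulFun (O.ev w') (O.ev w'')) y) : x = y := by
  rw [← sub_eq_zero]
  apply O.sep3
  intro w w' w''
  rw [map_sub, h w w' w'', sub_self]

theorem coassoc_aux :
    (Algebra.TensorProduct.assoc (ratLocalizedAt p) (ratLocalizedAt p) (ratLocalizedAt p)
        O.alg O.alg O.alg).toAlgHom.comp
      ((Algebra.TensorProduct.map O.comulHom (.id (ratLocalizedAt p) O.alg)).comp O.comulHom) =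
    (Algebra.TensorProduct.map (.id (ratLocalizedAt p) O.alg) O.comulHom).comp O.comulHom := by
  apply AlgHom.ext
  intro h
  apply O.eq_of_sep3
  intro w w' w''
  have hL : tmulFun (O.ev w) (tmulFun (O.ev w') (O.ev w''))
      (TensorProduct.assoc (ratLocalizedAt p) O.alg O.alg O.alg
        (TensorProduct.map O.comulHom.toLinearMap
          (AlgHom.id (ratLocalizedAt p) O.alg).toLinearMap (O.comulHom h))) =
      (h : W → Kb) (w + w' + w'') := by
    rw [tmulFun_assoc, tmulFun_map, tmulFun_comp_comulHom]
    exact O.comulHom_spec h (w + w') w''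
  have hR : tmulFun (O.ev w) (tmulFun (O.ev w') (O.ev w''))
        (TensorProduct.map (AlgHom.id (ratLocalizedAt p) O.alg).toLinearMap
          O.comulHom.toLinearMap (O.comulHom h)) =
      (h : W → Kb) (w + (w' + w'')) := by
    rw [tmulFun_map, tmulFun_comp_comulHom]
    exact O.comulHom_spec h w (w' + w'')
  rw [add_assoc] at hL
  exact hL.trans hR.symm

theorem ev_lid_map_counit (w : W) (y : O.alg ⊗[ratLocalizedAt p] O.alg) :
    O.ev w (TensorProduct.lid (ratLocalizedAt p) O.alg
      (TensorProduct.map O.counitHom.toLinearMap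
        (AlgHom.id (ratLocalizedAt p) O.alg).toLinearMap y)) =
      tmulFun (O.ev 0) (O.ev w) y := by
  induction y with
  | zero => rw [map_zero, LinearEquiv.map_zero, map_zero, map_zero]
  | tmul a b =>
    simp only [TensorProduct.map_tmul, AlgHom.toLinearMap_apply, AlgHom.coe_id, id_eq,
      TensorProduct.lid_tmul, map_smul, ev_apply, tmulFun_tmul]
    rw [Algebra.smul_def, counitHom_spec]
  | add x y hx hy => rw [map_add, LinearEquiv.map_add, map_add, map_add, hx, hy]

theorem ev_rid_map_counit (w : W) (y : O.alg ⊗[ratLocalizedAt p] O.alg) :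
    O.ev w (TensorProduct.rid (ratLocalizedAt p) O.alg
      (TensorProduct.map (AlgHom.id (ratLocalizedAt p) O.alg).toLinearMap
        O.counitHom.toLinearMap y)) =
      tmulFun (O.ev w) (O.ev 0) y := by
  induction y with
  | zero => rw [map_zero, LinearEquiv.map_zero, map_zero, map_zero]
  | tmul a b =>
    simp only [TensorProduct.map_tmul, AlgHom.toLinearMap_apply, AlgHom.coe_id, id_eq,
      TensorProduct.rid_tmul, map_smul, ev_apply, tmulFun_tmul]
    rw [Algebra.smul_def, counitHom_spec, mul_comm]
  | add x y hx hy => rw [map_add, LinearEquiv.map_add, map_add, map_add, hx, hy]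

theorem rTensor_aux :
    (Algebra.TensorProduct.map O.counitHom (.id (ratLocalizedAt p) O.alg)).comp O.comulHom =
      (Algebra.TensorProduct.lid (ratLocalizedAt p) O.alg).symm := by
  apply AlgHom.ext
  intro h
  apply (Algebra.TensorProduct.lid (ratLocalizedAt p) O.alg).injective
  rw [AlgEquiv.coe_toAlgHom, AlgEquiv.apply_symm_apply]
  apply O.eq_of_sep1
  intro w
  have := O.ev_lid_map_counit w (O.comulHom h)
  rw [comulHom_spec, zero_add] at this
  exact this

theorem lTensor_aux :
    (Algebra.TensorProduct.map (.id (ratLocalizedAt p) O.alg) O.counitHom).comp O.comulHom =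
      (Algebra.TensorProduct.rid (ratLocalizedAt p) (ratLocalizedAt p) O.alg).symm := by
  apply AlgHom.ext
  intro h
  apply (Algebra.TensorProduct.rid (ratLocalizedAt p) (ratLocalizedAt p) O.alg).injective
  rw [AlgEquiv.coe_toAlgHom, AlgEquiv.apply_symm_apply]
  apply O.eq_of_sep1
  intro w
  have := O.ev_rid_map_counit w (O.comulHom h)
  rw [comulHom_spec, add_zero] at this
  exact this

/-- The bialgebra structure of a Hopf order. -/
@[instance_reducible]
noncomputable def bialgebra : Bialgebra (ratLocalizedAt p) O.alg :=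
  Bialgebra.ofAlgHom O.comulHom O.counitHom O.coassoc_aux O.rTensor_aux O.lTensor_aux

theorem ev_mul' (w : W) (y : O.alg ⊗[ratLocalizedAt p] O.alg) :
    O.ev w (LinearMap.mul' (ratLocalizedAt p) O.alg y) = tmulFun (O.ev w) (O.ev w) y := by
  induction y with
  | zero => simp
  | tmul a b => simp
  | add x y hx hy => simp only [map_add, hx, hy]

theorem ev_comp_negHom (w : W) : O.ev w ∘ₗ O.negHom.toLinearMap = O.ev (-w) := rfl

/-- The Hopf algebra structure of a Hopf order. -/
@[instance_reducible]
noncomputable def hopfAlgebra : HopfAlgebra (ratLocalizedAt p) O.alg :=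
  { O.bialgebra with
    antipode := O.negHom.toLinearMap
    mul_antipode_rTensor_comul := by
      apply LinearMap.ext
      intro h
      apply O.eq_of_sep1
      intro w
      show O.ev w (LinearMap.mul' (ratLocalizedAt p) O.alg
        (TensorProduct.map O.negHom.toLinearMap LinearMap.id (O.comulHom h))) =
        O.ev w (algebraMap (ratLocalizedAt p) O.alg (O.counitHom h))
      rw [ev_mul', tmulFun_map, ev_comp_negHom, LinearMap.comp_id, comulHom_spec,
        neg_add_cancel]
      rw [← counitHom_spec]
      rfl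
    mul_antipode_lTensor_comul := by
      apply LinearMap.ext
      intro h
      apply O.eq_of_sep1
      intro w
      show O.ev w (LinearMap.mul' (ratLocalizedAt p) O.alg
        (TensorProduct.map LinearMap.id O.negHom.toLinearMap (O.comulHom h))) =
        O.ev w (algebraMap (ratLocalizedAt p) O.alg (O.counitHom h))
      rw [ev_mul', tmulFun_map, ev_comp_negHom, LinearMap.comp_id, comulHom_spec,
        add_neg_cancel]
      rw [← counitHom_spec]
      rfl }

theorem isCocomm : @Coalgebra.IsCocomm (ratLocalizedAt p) O.alg _ _ _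
    O.hopfAlgebra.toCoalgebra := by
  letI := O.hopfAlgebra
  refine ⟨LinearMap.ext fun h => ?_⟩
  apply O.eq_of_sep2
  intro w w'
  show tmulFun (O.ev w) (O.ev w')
    (TensorProduct.comm (ratLocalizedAt p) O.alg O.alg (O.comulHom h)) =
    tmulFun (O.ev w) (O.ev w') (O.comulHom h)
  rw [tmulFun_comm, comulHom_spec, comulHom_spec, add_comm]

end HopfOrder

end Fermat.Agent.FlatMod
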