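/-
Lib/FlatMod/Order: **Hopf order criterion** (FF / S19, route R-G section 0): a finite
`ℤ_(p)`-algebra `H` of Galois-equivariant functions on `W`, separating the points of `W` and closed
under comultiplication and antipode, exhibits `W` as a flat Galois module.
-/
import Mathlib
import Fermat.Agent.Lib.FlatMod.OrderHopf
import Fermat.Agent.Lib.FlatMod.Defs

set_option autoImplicit false
set_option linter.style.haveILetI false
set_option linter.unusedSectionVars false

namespace Fermat.Agent.FlatMod

open GaloisRep TensorProduct WithConv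

local notation "Kb" => AlgebraicClosure ℚ
local notation "GK" => (AlgebraicClosure ℚ ≃ₐ[ℚ] AlgebraicClosure ℚ)

variable {p : ℕ}

namespace HopfOrder

variable {W : Type*} [AddCommGroup W] {act : GK → W → W} (O : HopfOrder p W act)
variable [Fact p.Prime]

theorem evPt_injective : Function.Injective (evPt O.alg) := by
  intro w w' h
  apply O.sep
  intro h' hh'
  exact congrArg (fun f : O.alg →ₐ[ratLocalizedAt p] Kb => f ⟨h', hh'⟩) h

include O in
theorem finite_W : Finite W := by
  haveI : Finite (O.alg →ₐ[ratLocalizedAt p] Kb) := finite_algHom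
  exact Finite.of_injective _ O.evPt_injective

theorem evPt_surjective : Function.Surjective (evPt O.alg) := by
  classical
  haveI : Finite (O.alg →ₐ[ratLocalizedAt p] Kb) := finite_algHom
  haveI : Finite W := O.finite_W
  letI : Fintype (O.alg →ₐ[ratLocalizedAt p] Kb) := Fintype.ofFinite _
  letI : Fintype W := Fintype.ofFinite _
  have h1 : Fintype.card (O.alg →ₐ[ratLocalizedAt p] Kb) ≤
      Module.finrank (ratLocalizedAt p) O.alg := card_algHom_le
  have h2 : Module.finrank (ratLocalizedAt p) O.alg ≤ Fintype.card W := by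
    rw [Module.finrank_eq_card_chooseBasisIndex]
    exact card_basis_le (Module.Free.chooseBasis (ratLocalizedAt p) O.alg) O.ev O.ev_gal O.sep1
  have h3 : Fintype.card W ≤ Fintype.card (O.alg →ₐ[ratLocalizedAt p] Kb) :=
    Fintype.card_le_of_injective _ O.evPt_injective
  exact ((Fintype.bijective_iff_injective_and_card _).2
    ⟨O.evPt_injective, le_antisymm h3 (h1.trans h2)⟩).2

end HopfOrder

/-- **Hopf order criterion**: a finite Galois module carrying a Hopf order is a flat Galois
module. -/
theorem HopfOrder.isFlat [Fact p.Prime] {W : Type} [AddCommGroup W] {act : GK → W → W}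
    (O : HopfOrder p W act) : IsFlatGaloisModule p W act := by
  classical
  letI iH : HopfAlgebra (ratLocalizedAt p) O.alg := O.hopfAlgebra
  have hcc : Coalgebra.IsCocomm (ratLocalizedAt p) O.alg := O.isCocomm
  refine ⟨O.alg, inferInstance, iH, O.fin, inferInstance, hcc, ?_⟩
  let P : W → WithConv (O.alg →ₐ[ratLocalizedAt p] Kb) := fun w => toConv (evPt O.alg w)
  have hPinj : Function.Injective P := fun w w' h =>
    O.evPt_injective (congrArg WithConv.ofConv h)
  have hPsurj : Function.Surjective P := by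
    intro f
    obtain ⟨w, hw⟩ := O.evPt_surjective f.ofConv
    exact ⟨w, WithConv.ext hw⟩
  have hPmul : ∀ w w', P (w + w') = P w * P w' := by
    intro w w'
    apply WithConv.ext
    apply AlgHom.ext
    intro h
    have h5 := convMul_apply_eq_tmulFun (P w) (P w') h
    show (h : W → Kb) (w + w') = (P w * P w') h
    rw [h5]
    exact (O.comulHom_spec h w w').symm
  have hsymm : ∀ w, (Equiv.ofBijective P ⟨hPinj, hPsurj⟩).symm (P w) = w := fun w =>
    (Equiv.ofBijective P ⟨hPinj, hPsurj⟩).symm_apply_apply w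
  refine ⟨(Equiv.ofBijective P ⟨hPinj, hPsurj⟩).symm, fun f g => ?_, fun σ f g hfg => ?_⟩
  · obtain ⟨w, rfl⟩ := hPsurj f
    obtain ⟨w', rfl⟩ := hPsurj g
    rw [← hPmul, hsymm, hsymm, hsymm]
  · obtain ⟨w, rfl⟩ := hPsurj f
    have hg : g = P (act σ w) := by
      apply WithConv.ext
      apply AlgHom.ext
      intro h
      show g h = (h : W → Kb) (act σ w)
      rw [hfg h, O.equiv h.1 h.2]
      rfl
    rw [hg, hsymm, hsymm]

/-- **Hopf order criterion, subalgebra form (A)**. -/
theorem isFlat_of_hopfOrder [Fact p.Prime] {W : Type} [AddCommGroup W] (act : GK → W → W)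
    (H : Subalgebra (ratLocalizedAt p) (W → Kb))
    (hfin : Module.Finite (ratLocalizedAt p) H)
    (hequiv : ∀ h ∈ H, ∀ (σ : GK) (w : W), h (act σ w) = σ (h w))
    (hsep : ∀ w w' : W, (∀ h ∈ H, h w = h w') → w = w')
    (hadd : ∀ h ∈ H, ∃ (n : ℕ) (a b : Fin n → W → Kb), (∀ i, a i ∈ H) ∧ (∀ i, b i ∈ H) ∧
      ∀ w w', h (w + w') = ∑ i, a i w * b i w')
    (hneg : ∀ h ∈ H, (fun w => h (-w)) ∈ H) :
    IsFlatGaloisModule p W act := by
  refine HopfOrder.isFlat
    { alg := H
      fin := hfin
      equiv := hequiv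
      sep := hsep
      add := ?_
      neg := hneg }
  intro h hh
  obtain ⟨n, a, b, ha, hb, hab⟩ := hadd h hh
  refine ⟨∑ i, (⟨a i, ha i⟩ : H) ⊗ₜ[ratLocalizedAt p] (⟨b i, hb i⟩ : H), fun w w' => ?_⟩
  rw [map_sum, hab]
  refine Finset.sum_congr rfl (fun i _ => ?_)
  rw [tmulFun_tmul]
  rfl

end Fermat.Agent.FlatMod
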