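/-
Lib/FlatMod/Summand: (a) a saturated submodule of a finite module over a PID is a direct summand
(retraction); (b) an element of `H ⊗ H` killed by `mkQ ⊗ id` and by `id ⊗ mkQ` is fixed by
`(ι ∘ ρ) ⊗ (ι ∘ ρ)` for any retraction `ρ` onto `A`.
Spec: helper57 (for `IsFlatGaloisModule.quot`, feeding `hopfSub`).  Owner: helper27.  Pure algebra.
-/
import Mathlib.LinearAlgebra.FreeModule.PID
import Mathlib.Algebra.Module.Projective
import Mathlib.LinearAlgebra.TensorProduct.Basic
import Mathlib.LinearAlgebra.Quotient.Basic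
import Mathlib.Algebra.Module.Torsion.Basic

set_option autoImplicit false

namespace Fermat.Agent.FlatMod

open TensorProduct

/-- (a) A saturated submodule of a finite module over a PID admits a linear retraction. -/
theorem exists_retraction_of_saturated {R H : Type*} [CommRing R] [IsDomain R]
    [IsPrincipalIdealRing R] [AddCommGroup H] [Module R H] [Module.Finite R H]
    (A : Submodule R H) (hsat : ∀ (r : R) (h : H), r ≠ 0 → r • h ∈ A → h ∈ A) :
    ∃ ρ : H →ₗ[R] A, ∀ a : A, ρ (a : H) = a := by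
  have htf : NoZeroSMulDivisors R (H ⧸ A) := by
    refine ⟨fun {r x} hrx => ?_⟩
    obtain ⟨h, rfl⟩ := Submodule.Quotient.mk_surjective A x
    by_cases hr : r = 0
    · exact Or.inl hr
    · right
      rw [← Submodule.Quotient.mk_smul, Submodule.Quotient.mk_eq_zero] at hrx
      exact (Submodule.Quotient.mk_eq_zero A).2 (hsat r h hr hrx)
  have hfree : Module.Free R (H ⧸ A) := Module.free_of_finite_type_torsion_free'
  obtain ⟨s, hs⟩ := Module.projective_lifting_property A.mkQ (LinearMap.id : (H ⧸ A) →ₗ[R] H ⧸ A)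
    (Submodule.mkQ_surjective A)
  have hmem : ∀ h : H, ((LinearMap.id : H →ₗ[R] H) - s ∘ₗ A.mkQ) h ∈ A := by
    intro h
    rw [← Submodule.Quotient.mk_eq_zero A, LinearMap.sub_apply, LinearMap.id_apply,
      LinearMap.comp_apply, Submodule.Quotient.mk_sub, sub_eq_zero]
    exact (LinearMap.congr_fun hs (A.mkQ h)).symm
  refine ⟨LinearMap.codRestrict A ((LinearMap.id : H →ₗ[R] H) - s ∘ₗ A.mkQ) hmem,
    fun a => Subtype.ext ?_⟩
  rw [LinearMap.codRestrict_apply, LinearMap.sub_apply, LinearMap.id_apply, LinearMap.comp_apply,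
    Submodule.mkQ_apply, (Submodule.Quotient.mk_eq_zero A).2 a.2, map_zero, sub_zero]

/-- (b) An element of `H ⊗ H` killed by `mkQ ⊗ id` and by `id ⊗ mkQ` is fixed by
`(ι ∘ ρ) ⊗ (ι ∘ ρ)`. -/
theorem map_retraction_eq_self {R H : Type*} [CommRing R] [AddCommGroup H] [Module R H]
    (A : Submodule R H) (ρ : H →ₗ[R] A) (hρ : ∀ a : A, ρ (a : H) = a)
    (z : TensorProduct R H H)
    (h1 : TensorProduct.map A.mkQ LinearMap.id z = 0)
    (h2 : TensorProduct.map LinearMap.id A.mkQ z = 0) :
    TensorProduct.map (A.subtype ∘ₗ ρ) (A.subtype ∘ₗ ρ) z = z := by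
  have hker : A ≤ LinearMap.ker (LinearMap.id - A.subtype ∘ₗ ρ) := by
    intro a ha
    rw [LinearMap.mem_ker, LinearMap.sub_apply, LinearMap.id_apply, LinearMap.comp_apply,
      hρ ⟨a, ha⟩, Submodule.subtype_apply, sub_self]
  have he : (LinearMap.id : H →ₗ[R] H) =
      A.subtype ∘ₗ ρ + (A.liftQ (LinearMap.id - A.subtype ∘ₗ ρ) hker) ∘ₗ A.mkQ := by
    rw [Submodule.liftQ_mkQ]
    abel
  have hl : TensorProduct.map (A.subtype ∘ₗ ρ) (LinearMap.id : H →ₗ[R] H) z = z := by
    have h := congrArg (fun f => TensorProduct.map f (LinearMap.id : H →ₗ[R] H) z) he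
    simp only [TensorProduct.map_id, LinearMap.id_apply] at h
    rw [TensorProduct.map_add_left, LinearMap.add_apply] at h
    have h0 : TensorProduct.map ((A.liftQ (LinearMap.id - A.subtype ∘ₗ ρ) hker) ∘ₗ A.mkQ)
        (LinearMap.id : H →ₗ[R] H) z = 0 := by
      have : TensorProduct.map ((A.liftQ (LinearMap.id - A.subtype ∘ₗ ρ) hker) ∘ₗ A.mkQ)
          (LinearMap.id : H →ₗ[R] H) =
          TensorProduct.map (A.liftQ (LinearMap.id - A.subtype ∘ₗ ρ) hker) LinearMap.id ∘ₗ
            TensorProduct.map A.mkQ LinearMap.id := by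
        rw [← TensorProduct.map_comp, LinearMap.id_comp]
      rw [this, LinearMap.comp_apply, h1, map_zero]
    rw [h0, add_zero] at h
    exact h.symm
  have hr : TensorProduct.map (LinearMap.id : H →ₗ[R] H) (A.subtype ∘ₗ ρ) z = z := by
    have h := congrArg (fun f => TensorProduct.map (LinearMap.id : H →ₗ[R] H) f z) he
    simp only [TensorProduct.map_id, LinearMap.id_apply] at h
    rw [TensorProduct.map_add_right, LinearMap.add_apply] at h
    have h0 : TensorProduct.map (LinearMap.id : H →ₗ[R] H)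
        ((A.liftQ (LinearMap.id - A.subtype ∘ₗ ρ) hker) ∘ₗ A.mkQ) z = 0 := by
      have : TensorProduct.map (LinearMap.id : H →ₗ[R] H)
          ((A.liftQ (LinearMap.id - A.subtype ∘ₗ ρ) hker) ∘ₗ A.mkQ) =
          TensorProduct.map LinearMap.id (A.liftQ (LinearMap.id - A.subtype ∘ₗ ρ) hker) ∘ₗ
            TensorProduct.map LinearMap.id A.mkQ := by
        rw [← TensorProduct.map_comp, LinearMap.id_comp]
      rw [this, LinearMap.comp_apply, h2, map_zero]
    rw [h0, add_zero] at h
    exact h.symm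
  have hcomp : TensorProduct.map (A.subtype ∘ₗ ρ) (A.subtype ∘ₗ ρ) =
      TensorProduct.map (A.subtype ∘ₗ ρ) (LinearMap.id : H →ₗ[R] H) ∘ₗ
        TensorProduct.map (LinearMap.id : H →ₗ[R] H) (A.subtype ∘ₗ ρ) := by
    rw [← TensorProduct.map_comp, LinearMap.id_comp, LinearMap.comp_id]
  rw [hcomp, LinearMap.comp_apply, hr, hl]

end Fermat.Agent.FlatMod
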