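/-
Lib/FlatMod: products of flat Galois modules (helper21).
`isFlat_prod_aux` has EXACTLY the statement of the stub `IsFlatGaloisModule.prod`
(`Lib/FlatMod/Closure.lean`).  Hopf algebra: `H₁ ⊗[R] H₂`; its points are pairs of points.
-/
import Mathlib
import Fermat.Agent.Lib.FlatMod.Defs

set_option autoImplicit false

noncomputable section

namespace Fermat.Agent.FlatMod

open TensorProduct WithConv

section Tensor

variable {R : Type} [CommRing R] {H₁ H₂ C : Type} [CommRing H₁] [CommRing H₂] [CommRing C]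
  [Bialgebra R H₁] [Bialgebra R H₂] [Algebra R C]

/-- `h ↦ h ⊗ 1` as a bialgebra homomorphism. -/
def inclLeftBialg (R H₁ H₂ : Type) [CommRing R] [CommRing H₁] [CommRing H₂]
    [Bialgebra R H₁] [Bialgebra R H₂] : H₁ →ₐc[R] H₁ ⊗[R] H₂ :=
  (Bialgebra.TensorProduct.map (BialgHom.id R H₁) (Bialgebra.unitBialgHom R H₂)).comp
    (Bialgebra.TensorProduct.rid R R H₁).symm.toBialgHom

/-- `h ↦ 1 ⊗ h` as a bialgebra homomorphism. -/
def inclRightBialg (R H₁ H₂ : Type) [CommRing R] [CommRing H₁] [CommRing H₂]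
    [Bialgebra R H₁] [Bialgebra R H₂] : H₂ →ₐc[R] H₁ ⊗[R] H₂ :=
  (Bialgebra.TensorProduct.map (Bialgebra.unitBialgHom R H₁) (BialgHom.id R H₂)).comp
    (Bialgebra.TensorProduct.lid R H₂).symm.toBialgHom

@[simp] theorem inclLeftBialg_apply (h : H₁) : inclLeftBialg R H₁ H₂ h = h ⊗ₜ[R] 1 := by
  simp [inclLeftBialg, Bialgebra.unitBialgHom]

@[simp] theorem inclRightBialg_apply (h : H₂) : inclRightBialg R H₁ H₂ h = 1 ⊗ₜ[R] h := by
  simp [inclRightBialg, Bialgebra.unitBialgHom]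

/-- restriction of a point of `H₁ ⊗ H₂` to `H₁`. -/
def ptLeft (F : WithConv ((H₁ ⊗[R] H₂) →ₐ[R] C)) : WithConv (H₁ →ₐ[R] C) :=
  toConv (F.ofConv.comp ((inclLeftBialg R H₁ H₂ : H₁ →ₐc[R] H₁ ⊗[R] H₂) : H₁ →ₐ[R] H₁ ⊗[R] H₂))

/-- restriction of a point of `H₁ ⊗ H₂` to `H₂`. -/
def ptRight (F : WithConv ((H₁ ⊗[R] H₂) →ₐ[R] C)) : WithConv (H₂ →ₐ[R] C) :=
  toConv (F.ofConv.comp ((inclRightBialg R H₁ H₂ : H₂ →ₐc[R] H₁ ⊗[R] H₂) : H₂ →ₐ[R] H₁ ⊗[R] H₂))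

/-- the point of `H₁ ⊗ H₂` attached to a pair of points. -/
def ptPair (f₁ : WithConv (H₁ →ₐ[R] C)) (f₂ : WithConv (H₂ →ₐ[R] C)) :
    WithConv ((H₁ ⊗[R] H₂) →ₐ[R] C) :=
  toConv (Algebra.TensorProduct.productMap f₁.ofConv f₂.ofConv)

@[simp] theorem ptLeft_apply (F : WithConv ((H₁ ⊗[R] H₂) →ₐ[R] C)) (h : H₁) :
    ptLeft F h = F (h ⊗ₜ[R] 1) := by
  show F.ofConv ((inclLeftBialg R H₁ H₂) h) = _
  rw [inclLeftBialg_apply]

@[simp] theorem ptRight_apply (F : WithConv ((H₁ ⊗[R] H₂) →ₐ[R] C)) (h : H₂) :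
    ptRight F h = F (1 ⊗ₜ[R] h) := by
  show F.ofConv ((inclRightBialg R H₁ H₂) h) = _
  rw [inclRightBialg_apply]

@[simp] theorem ptPair_tmul (f₁ : WithConv (H₁ →ₐ[R] C)) (f₂ : WithConv (H₂ →ₐ[R] C))
    (a : H₁) (b : H₂) : ptPair f₁ f₂ (a ⊗ₜ[R] b) = f₁ a * f₂ b := by
  show Algebra.TensorProduct.productMap f₁.ofConv f₂.ofConv (a ⊗ₜ[R] b) = _
  rw [Algebra.TensorProduct.productMap_apply_tmul]

/-- points of `H₁ ⊗ H₂` are pairs of points. -/
def ptEquiv : WithConv ((H₁ ⊗[R] H₂) →ₐ[R] C) ≃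
    WithConv (H₁ →ₐ[R] C) × WithConv (H₂ →ₐ[R] C) where
  toFun F := (ptLeft F, ptRight F)
  invFun f := ptPair f.1 f.2
  left_inv F := by
    apply WithConv.ext
    apply Algebra.TensorProduct.ext'
    intro a b
    have h1 : (ptPair (ptLeft F) (ptRight F)) (a ⊗ₜ[R] b) = F (a ⊗ₜ[R] 1) * F (1 ⊗ₜ[R] b) := by
      rw [ptPair_tmul, ptLeft_apply, ptRight_apply]
    have h2 : F (a ⊗ₜ[R] 1) * F (1 ⊗ₜ[R] b) = F (a ⊗ₜ[R] b) := by
      show F.ofConv (a ⊗ₜ[R] 1) * F.ofConv (1 ⊗ₜ[R] b) = F.ofConv (a ⊗ₜ[R] b)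
      rw [← map_mul, Algebra.TensorProduct.tmul_mul_tmul, mul_one, one_mul]
    exact h1.trans h2
  right_inv f := by
    apply Prod.ext
    · apply WithConv.ext
      ext a
      show (ptLeft (ptPair f.1 f.2)) a = f.1 a
      rw [ptLeft_apply, ptPair_tmul, map_one]
      show f.1.ofConv a * 1 = _
      rw [mul_one]
    · apply WithConv.ext
      ext b
      show (ptRight (ptPair f.1 f.2)) b = f.2 b
      rw [ptRight_apply, ptPair_tmul, map_one]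
      show 1 * f.2.ofConv b = _
      rw [one_mul]

theorem ptLeft_mul (F G : WithConv ((H₁ ⊗[R] H₂) →ₐ[R] C)) :
    ptLeft (F * G) = ptLeft F * ptLeft G := by
  apply WithConv.ext
  exact AlgHom.convMul_comp_bialgHom_distrib F G (inclLeftBialg R H₁ H₂)

theorem ptRight_mul (F G : WithConv ((H₁ ⊗[R] H₂) →ₐ[R] C)) :
    ptRight (F * G) = ptRight F * ptRight G := by
  apply WithConv.ext
  exact AlgHom.convMul_comp_bialgHom_distrib F G (inclRightBialg R H₁ H₂)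

end Tensor

variable {p : ℕ}

/-- Products of flat Galois modules (exact statement of the stub `IsFlatGaloisModule.prod`). -/
theorem isFlat_prod_aux [Fact p.Prime] {M₁ M₂ : Type} [AddCommGroup M₁]
    [AddCommGroup M₂]
    {act₁ : (AlgebraicClosure ℚ ≃ₐ[ℚ] AlgebraicClosure ℚ) → M₁ → M₁}
    {act₂ : (AlgebraicClosure ℚ ≃ₐ[ℚ] AlgebraicClosure ℚ) → M₂ → M₂}
    (h₁ : IsFlatGaloisModule p M₁ act₁) (h₂ : IsFlatGaloisModule p M₂ act₂) :
    IsFlatGaloisModule p (M₁ × M₂) (fun σ x => (act₁ σ x.1, act₂ σ x.2)) := by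
  obtain ⟨H₁, i1, i2, hfin1, hflat1, hco1, e₁, he1, hσ1⟩ := h₁
  obtain ⟨H₂, j1, j2, hfin2, hflat2, hco2, e₂, he2, hσ2⟩ := h₂
  refine ⟨H₁ ⊗[GaloisRep.ratLocalizedAt p] H₂, inferInstance, inferInstance, inferInstance,
    inferInstance, inferInstance,
    (ptEquiv (R := GaloisRep.ratLocalizedAt p) (H₁ := H₁) (H₂ := H₂)
      (C := AlgebraicClosure ℚ)).trans (Equiv.prodCongr e₁ e₂), ?_, ?_⟩
  · intro f g
    show (e₁ (ptLeft (f * g)), e₂ (ptRight (f * g))) = (e₁ (ptLeft f), e₂ (ptRight f)) +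
      (e₁ (ptLeft g), e₂ (ptRight g))
    rw [ptLeft_mul, ptRight_mul, he1, he2]
    rfl
  · intro σ f g hfg
    show (e₁ (ptLeft g), e₂ (ptRight g)) = (act₁ σ (e₁ (ptLeft f)), act₂ σ (e₂ (ptRight f)))
    have h1 : e₁ (ptLeft g) = act₁ σ (e₁ (ptLeft f)) := by
      apply hσ1 σ (ptLeft f) (ptLeft g)
      intro h
      rw [ptLeft_apply, ptLeft_apply]
      exact hfg _
    have h2 : e₂ (ptRight g) = act₂ σ (e₂ (ptRight f)) := by
      apply hσ2 σ (ptRight f) (ptRight g)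
      intro h
      rw [ptRight_apply, ptRight_apply]
      exact hfg _
    rw [h1, h2]

end Fermat.Agent.FlatMod
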