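/-
Lib/FlatMod/HopfSub: the Hopf algebra structure on a subalgebra `A` of a commutative Hopf algebra
`H` that is a direct summand (`ρ : H → A` linear retraction), stable under the comultiplication
(`Δ(A) ⊆ A ⊗ A`, in the form `(ιρ ⊗ ιρ) Δ a = Δ a`) and under the antipode.
Spec: helper57 (for `IsFlatGaloisModule.quot`).  Owner: helper27.  Pure algebra.

Main declarations (namespace `Fermat.Agent.FlatMod`):
* `hopfSub A ρ hρ hΔ hS : HopfAlgebra R A`, with `hopfSub_toAlgebra : _ = A.algebra := rfl`;
* `hopfSub_comul`, `hopfSub_comul_eq`, `hopfSub_counit`, `hopfSub_antipode`, `hopfSub_isCocomm`;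
* `hopfSub_map_injective` : `ι ⊗ ι : A ⊗ A → H ⊗ H` is injective.
-/
import Mathlib.RingTheory.HopfAlgebra.Basic
import Mathlib.RingTheory.Bialgebra.Basic
import Mathlib.RingTheory.Coalgebra.Basic
import Mathlib.RingTheory.TensorProduct.Maps
import Mathlib.Algebra.Algebra.Subalgebra.Basic

set_option autoImplicit false
set_option linter.style.haveILetI false

namespace Fermat.Agent.FlatMod

open TensorProduct Coalgebra

universe u v

variable {R : Type u} {H : Type v} [CommRing R] [CommRing H] [HopfAlgebra R H]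
  (A : Subalgebra R H) (ρ : H →ₗ[R] A)

/-- `ρ ∘ ι = id`. -/
theorem hopfSub_rho_comp_val (hρ : ∀ a : A, ρ (a : H) = a) :
    ρ ∘ₗ A.val.toLinearMap = LinearMap.id :=
  LinearMap.ext hρ

/-- `ι ⊗ ι` is injective. -/
theorem hopfSub_map_injective (hρ : ∀ a : A, ρ (a : H) = a) :
    Function.Injective (TensorProduct.map A.val.toLinearMap A.val.toLinearMap) := by
  refine Function.LeftInverse.injective (g := TensorProduct.map ρ ρ) fun x => ?_
  rw [← LinearMap.comp_apply, ← TensorProduct.map_comp, hopfSub_rho_comp_val A ρ hρ,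
    TensorProduct.map_id, LinearMap.id_apply]

/-- `ι ⊗ (ι ⊗ ι)` is injective. -/
theorem hopfSub_map₃_injective (hρ : ∀ a : A, ρ (a : H) = a) :
    Function.Injective (TensorProduct.map A.val.toLinearMap
      (TensorProduct.map A.val.toLinearMap A.val.toLinearMap)) := by
  refine Function.LeftInverse.injective (g := TensorProduct.map ρ (TensorProduct.map ρ ρ))
    fun x => ?_
  rw [← LinearMap.comp_apply, ← TensorProduct.map_comp, ← TensorProduct.map_comp,
    hopfSub_rho_comp_val A ρ hρ, TensorProduct.map_id, TensorProduct.map_id, LinearMap.id_apply]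

/-- `id ⊗ ι` is injective. -/
theorem hopfSub_lTensor_injective (hρ : ∀ a : A, ρ (a : H) = a) (M : Type*) [AddCommGroup M]
    [Module R M] :
    Function.Injective (TensorProduct.map (LinearMap.id : M →ₗ[R] M) A.val.toLinearMap) := by
  refine Function.LeftInverse.injective (g := TensorProduct.map LinearMap.id ρ) fun x => ?_
  rw [← LinearMap.comp_apply, ← TensorProduct.map_comp, hopfSub_rho_comp_val A ρ hρ,
    LinearMap.id_comp, TensorProduct.map_id, LinearMap.id_apply]

/-- `ι ⊗ id` is injective. -/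
theorem hopfSub_rTensor_injective (hρ : ∀ a : A, ρ (a : H) = a) (M : Type*) [AddCommGroup M]
    [Module R M] :
    Function.Injective (TensorProduct.map A.val.toLinearMap (LinearMap.id : M →ₗ[R] M)) := by
  refine Function.LeftInverse.injective (g := TensorProduct.map ρ LinearMap.id) fun x => ?_
  rw [← LinearMap.comp_apply, ← TensorProduct.map_comp, hopfSub_rho_comp_val A ρ hρ,
    LinearMap.id_comp, TensorProduct.map_id, LinearMap.id_apply]

/-- The comultiplication of the sub-Hopf-algebra. -/
noncomputable def hopfSubComul : A →ₗ[R] A ⊗[R] A :=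
  TensorProduct.map ρ ρ ∘ₗ (comul (R := R) (A := H)) ∘ₗ A.val.toLinearMap

/-- The counit of the sub-Hopf-algebra. -/
noncomputable def hopfSubCounit (A : Subalgebra R H) : A →ₗ[R] R :=
  (counit (R := R) (A := H)) ∘ₗ A.val.toLinearMap

theorem hopfSubComul_spec
    (hΔ : ∀ a : A, TensorProduct.map (A.val.toLinearMap ∘ₗ ρ) (A.val.toLinearMap ∘ₗ ρ)
      (Coalgebra.comul (R := R) (a : H)) = Coalgebra.comul (R := R) (a : H)) (a : A) :
    TensorProduct.map A.val.toLinearMap A.val.toLinearMap (hopfSubComul A ρ a) =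
      Coalgebra.comul (R := R) (a : H) := by
  rw [hopfSubComul, LinearMap.comp_apply, LinearMap.comp_apply, ← LinearMap.comp_apply,
    ← TensorProduct.map_comp]
  exact hΔ a

theorem hopfSubComul_spec'
    (hΔ : ∀ a : A, TensorProduct.map (A.val.toLinearMap ∘ₗ ρ) (A.val.toLinearMap ∘ₗ ρ)
      (Coalgebra.comul (R := R) (a : H)) = Coalgebra.comul (R := R) (a : H)) :
    TensorProduct.map A.val.toLinearMap A.val.toLinearMap ∘ₗ hopfSubComul A ρ =
      Coalgebra.comul (R := R) (A := H) ∘ₗ A.val.toLinearMap :=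
  LinearMap.ext fun a => hopfSubComul_spec A ρ hΔ a


/-- Naturality of the associator. -/
theorem hopfSub_assoc_nat :
    TensorProduct.map A.val.toLinearMap (TensorProduct.map A.val.toLinearMap A.val.toLinearMap) ∘ₗ
        (TensorProduct.assoc R A A A).toLinearMap =
      (TensorProduct.assoc R H H H).toLinearMap ∘ₗ
        TensorProduct.map (TensorProduct.map A.val.toLinearMap A.val.toLinearMap)
          A.val.toLinearMap :=
  TensorProduct.ext_threefold fun _ _ _ => rfl

theorem hopfSub_coassoc (hρ : ∀ a : A, ρ (a : H) = a)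
    (hΔ : ∀ a : A, TensorProduct.map (A.val.toLinearMap ∘ₗ ρ) (A.val.toLinearMap ∘ₗ ρ)
      (Coalgebra.comul (R := R) (a : H)) = Coalgebra.comul (R := R) (a : H)) :
    (TensorProduct.assoc R A A A).toLinearMap ∘ₗ (hopfSubComul A ρ).rTensor A ∘ₗ hopfSubComul A ρ =
      (hopfSubComul A ρ).lTensor A ∘ₗ hopfSubComul A ρ := by
  have hinj := hopfSub_map₃_injective A ρ hρ
  have h3 := hopfSubComul_spec' A ρ hΔ
  refine LinearMap.ext fun a => hinj ?_
  have hL : TensorProduct.map A.val.toLinearMap
        (TensorProduct.map A.val.toLinearMap A.val.toLinearMap) ∘ₗ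
        (TensorProduct.assoc R A A A).toLinearMap ∘ₗ (hopfSubComul A ρ).rTensor A ∘ₗ
          hopfSubComul A ρ =
      (TensorProduct.assoc R H H H).toLinearMap ∘ₗ (comul (R := R) (A := H)).rTensor H ∘ₗ
        comul (R := R) (A := H) ∘ₗ A.val.toLinearMap := by
    rw [← LinearMap.comp_assoc, hopfSub_assoc_nat, LinearMap.comp_assoc]
    congr 1
    rw [← LinearMap.comp_assoc, LinearMap.rTensor, ← TensorProduct.map_comp, h3,
      LinearMap.comp_id, ← h3, ← LinearMap.comp_assoc, LinearMap.rTensor,
      ← TensorProduct.map_comp, LinearMap.id_comp, h3]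
  have hR : TensorProduct.map A.val.toLinearMap
        (TensorProduct.map A.val.toLinearMap A.val.toLinearMap) ∘ₗ
        (hopfSubComul A ρ).lTensor A ∘ₗ hopfSubComul A ρ =
      (comul (R := R) (A := H)).lTensor H ∘ₗ
        comul (R := R) (A := H) ∘ₗ A.val.toLinearMap := by
    rw [← LinearMap.comp_assoc, LinearMap.lTensor, ← TensorProduct.map_comp, h3,
      LinearMap.comp_id, ← h3, ← LinearMap.comp_assoc, LinearMap.lTensor,
      ← TensorProduct.map_comp, LinearMap.id_comp, h3]
  have := Coalgebra.coassoc (R := R) (A := H)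
  calc _ = ((TensorProduct.assoc R H H H).toLinearMap ∘ₗ (comul (R := R) (A := H)).rTensor H ∘ₗ
        comul (R := R) (A := H) ∘ₗ A.val.toLinearMap) a := congrArg (fun f => f a) hL
    _ = ((comul (R := R) (A := H)).lTensor H ∘ₗ
        comul (R := R) (A := H) ∘ₗ A.val.toLinearMap) a := by
      rw [← LinearMap.comp_assoc, ← LinearMap.comp_assoc, LinearMap.comp_assoc _ _
        (TensorProduct.assoc R H H H).toLinearMap, this, LinearMap.comp_assoc]
    _ = _ := (congrArg (fun f => f a) hR).symm


theorem hopfSub_rTensor_counit (hρ : ∀ a : A, ρ (a : H) = a)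
    (hΔ : ∀ a : A, TensorProduct.map (A.val.toLinearMap ∘ₗ ρ) (A.val.toLinearMap ∘ₗ ρ)
      (Coalgebra.comul (R := R) (a : H)) = Coalgebra.comul (R := R) (a : H)) :
    (hopfSubCounit A).rTensor A ∘ₗ hopfSubComul A ρ = TensorProduct.mk R R A 1 := by
  have hinj := hopfSub_lTensor_injective A ρ hρ R
  have h3 := hopfSubComul_spec' A ρ hΔ
  refine LinearMap.ext fun a => hinj ?_
  have hL : TensorProduct.map (LinearMap.id : R →ₗ[R] R) A.val.toLinearMap ∘ₗ
        (hopfSubCounit A).rTensor A ∘ₗ hopfSubComul A ρ =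
      (counit (R := R) (A := H)).rTensor H ∘ₗ comul (R := R) (A := H) ∘ₗ A.val.toLinearMap := by
    rw [← LinearMap.comp_assoc, LinearMap.rTensor, ← TensorProduct.map_comp, LinearMap.id_comp,
      LinearMap.comp_id, ← h3, ← LinearMap.comp_assoc, LinearMap.rTensor,
      ← TensorProduct.map_comp, LinearMap.id_comp]
    rfl
  have := Coalgebra.rTensor_counit_comp_comul (R := R) (A := H)
  calc _ = ((counit (R := R) (A := H)).rTensor H ∘ₗ comul (R := R) (A := H) ∘ₗ
        A.val.toLinearMap) a := congrArg (fun f => f a) hL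
    _ = (TensorProduct.mk R R H 1 ∘ₗ A.val.toLinearMap) a := by
      rw [← LinearMap.comp_assoc, this]
    _ = _ := rfl

theorem hopfSub_lTensor_counit (hρ : ∀ a : A, ρ (a : H) = a)
    (hΔ : ∀ a : A, TensorProduct.map (A.val.toLinearMap ∘ₗ ρ) (A.val.toLinearMap ∘ₗ ρ)
      (Coalgebra.comul (R := R) (a : H)) = Coalgebra.comul (R := R) (a : H)) :
    (hopfSubCounit A).lTensor A ∘ₗ hopfSubComul A ρ = (TensorProduct.mk R A R).flip 1 := by
  have hinj := hopfSub_rTensor_injective A ρ hρ R
  have h3 := hopfSubComul_spec' A ρ hΔ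
  refine LinearMap.ext fun a => hinj ?_
  have hL : TensorProduct.map A.val.toLinearMap (LinearMap.id : R →ₗ[R] R) ∘ₗ
        (hopfSubCounit A).lTensor A ∘ₗ hopfSubComul A ρ =
      (counit (R := R) (A := H)).lTensor H ∘ₗ comul (R := R) (A := H) ∘ₗ A.val.toLinearMap := by
    rw [← LinearMap.comp_assoc, LinearMap.lTensor, ← TensorProduct.map_comp, LinearMap.id_comp,
      LinearMap.comp_id, ← h3, ← LinearMap.comp_assoc, LinearMap.lTensor,
      ← TensorProduct.map_comp, LinearMap.id_comp]
    rfl
  have := Coalgebra.lTensor_counit_comp_comul (R := R) (A := H)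
  calc _ = ((counit (R := R) (A := H)).lTensor H ∘ₗ comul (R := R) (A := H) ∘ₗ
        A.val.toLinearMap) a := congrArg (fun f => f a) hL
    _ = ((TensorProduct.mk R H R).flip 1 ∘ₗ A.val.toLinearMap) a := by
      rw [← LinearMap.comp_assoc, this]
    _ = _ := rfl

/-- The coalgebra structure on the subalgebra. -/
@[instance_reducible]
noncomputable def hopfSubCoalgebra (hρ : ∀ a : A, ρ (a : H) = a)
    (hΔ : ∀ a : A, TensorProduct.map (A.val.toLinearMap ∘ₗ ρ) (A.val.toLinearMap ∘ₗ ρ)
      (Coalgebra.comul (R := R) (a : H)) = Coalgebra.comul (R := R) (a : H)) :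
    Coalgebra R A where
  comul := hopfSubComul A ρ
  counit := hopfSubCounit A
  coassoc := hopfSub_coassoc A ρ hρ hΔ
  rTensor_counit_comp_comul := hopfSub_rTensor_counit A ρ hρ hΔ
  lTensor_counit_comp_comul := hopfSub_lTensor_counit A ρ hρ hΔ


theorem hopfSub_map_mul (x y : A ⊗[R] A) :
    TensorProduct.map A.val.toLinearMap A.val.toLinearMap (x * y) =
      TensorProduct.map A.val.toLinearMap A.val.toLinearMap x *
        TensorProduct.map A.val.toLinearMap A.val.toLinearMap y :=
  map_mul (Algebra.TensorProduct.map A.val A.val) x y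

theorem hopfSub_map_one :
    TensorProduct.map A.val.toLinearMap A.val.toLinearMap (1 : A ⊗[R] A) = 1 :=
  map_one (Algebra.TensorProduct.map A.val A.val)

/-- The bialgebra structure on the subalgebra. -/
@[instance_reducible]
noncomputable def hopfSubBialgebra (hρ : ∀ a : A, ρ (a : H) = a)
    (hΔ : ∀ a : A, TensorProduct.map (A.val.toLinearMap ∘ₗ ρ) (A.val.toLinearMap ∘ₗ ρ)
      (Coalgebra.comul (R := R) (a : H)) = Coalgebra.comul (R := R) (a : H)) :
    Bialgebra R A :=
  letI := hopfSubCoalgebra A ρ hρ hΔ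
  Bialgebra.mk' R A
    (show counit (R := R) (A := H) ((1 : A) : H) = 1 by
      rw [OneMemClass.coe_one, Bialgebra.counit_one])
    (fun {a b} => show counit (R := R) (A := H) ((a * b : A) : H) =
        counit (R := R) (A := H) (a : H) * counit (R := R) (A := H) (b : H) by
      rw [MulMemClass.coe_mul, Bialgebra.counit_mul])
    (hopfSub_map_injective A ρ hρ (by
      show TensorProduct.map A.val.toLinearMap A.val.toLinearMap (hopfSubComul A ρ 1) = _
      rw [hopfSubComul_spec A ρ hΔ, hopfSub_map_one, OneMemClass.coe_one, Bialgebra.comul_one]))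
    (fun {a b} => hopfSub_map_injective A ρ hρ (by
      show TensorProduct.map A.val.toLinearMap A.val.toLinearMap (hopfSubComul A ρ (a * b)) =
        TensorProduct.map A.val.toLinearMap A.val.toLinearMap
          (hopfSubComul A ρ a * hopfSubComul A ρ b)
      rw [hopfSub_map_mul, hopfSubComul_spec A ρ hΔ, hopfSubComul_spec A ρ hΔ,
        hopfSubComul_spec A ρ hΔ, MulMemClass.coe_mul, Bialgebra.comul_mul]))


/-- The antipode restricted to the subalgebra. -/
noncomputable def hopfSubAntipode (A : Subalgebra R H)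
    (hS : ∀ a : A, HopfAlgebra.antipode R (a : H) ∈ A) : A →ₗ[R] A where
  toFun a := ⟨HopfAlgebra.antipode R (a : H), hS a⟩
  map_add' a b := Subtype.ext (by
    show HopfAlgebra.antipode R ((a + b : A) : H) =
      HopfAlgebra.antipode R (a : H) + HopfAlgebra.antipode R (b : H)
    rw [AddMemClass.coe_add, map_add])
  map_smul' r a := Subtype.ext (by
    show HopfAlgebra.antipode R ((r • a : A) : H) = r • HopfAlgebra.antipode R (a : H)
    rw [SetLike.val_smul, map_smul])

theorem hopfSub_val_comp_antipode (hS : ∀ a : A, HopfAlgebra.antipode R (a : H) ∈ A) :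
    A.val.toLinearMap ∘ₗ hopfSubAntipode A hS = HopfAlgebra.antipode R ∘ₗ A.val.toLinearMap :=
  LinearMap.ext fun _ => rfl

theorem hopfSub_val_comp_mul' :
    A.val.toLinearMap ∘ₗ LinearMap.mul' R A =
      LinearMap.mul' R H ∘ₗ TensorProduct.map A.val.toLinearMap A.val.toLinearMap :=
  TensorProduct.ext' fun _ _ => rfl

theorem hopfSub_antipode_rTensor
    (hΔ : ∀ a : A, TensorProduct.map (A.val.toLinearMap ∘ₗ ρ) (A.val.toLinearMap ∘ₗ ρ)
      (Coalgebra.comul (R := R) (a : H)) = Coalgebra.comul (R := R) (a : H))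
    (hS : ∀ a : A, HopfAlgebra.antipode R (a : H) ∈ A) :
    LinearMap.mul' R A ∘ₗ (hopfSubAntipode A hS).rTensor A ∘ₗ hopfSubComul A ρ =
      Algebra.linearMap R A ∘ₗ hopfSubCounit A := by
  have h3 := hopfSubComul_spec' A ρ hΔ
  refine LinearMap.ext fun a => Subtype.val_injective ?_
  have hL : A.val.toLinearMap ∘ₗ LinearMap.mul' R A ∘ₗ (hopfSubAntipode A hS).rTensor A ∘ₗ
        hopfSubComul A ρ =
      LinearMap.mul' R H ∘ₗ (HopfAlgebra.antipode R).rTensor H ∘ₗ comul (R := R) (A := H) ∘ₗ
        A.val.toLinearMap := by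
    rw [← LinearMap.comp_assoc, hopfSub_val_comp_mul', LinearMap.comp_assoc]
    congr 1
    rw [← LinearMap.comp_assoc, LinearMap.rTensor, ← TensorProduct.map_comp,
      hopfSub_val_comp_antipode, LinearMap.comp_id, ← h3, ← LinearMap.comp_assoc,
      LinearMap.rTensor, ← TensorProduct.map_comp, LinearMap.id_comp]
  have := HopfAlgebra.mul_antipode_rTensor_comul (R := R) (A := H)
  calc _ = (LinearMap.mul' R H ∘ₗ (HopfAlgebra.antipode R).rTensor H ∘ₗ
        comul (R := R) (A := H) ∘ₗ A.val.toLinearMap) a := congrArg (fun f => f a) hL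
    _ = ((Algebra.linearMap R H ∘ₗ counit (R := R) (A := H)) ∘ₗ A.val.toLinearMap) a := by
      rw [← this]; rfl
    _ = _ := rfl

theorem hopfSub_antipode_lTensor
    (hΔ : ∀ a : A, TensorProduct.map (A.val.toLinearMap ∘ₗ ρ) (A.val.toLinearMap ∘ₗ ρ)
      (Coalgebra.comul (R := R) (a : H)) = Coalgebra.comul (R := R) (a : H))
    (hS : ∀ a : A, HopfAlgebra.antipode R (a : H) ∈ A) :
    LinearMap.mul' R A ∘ₗ (hopfSubAntipode A hS).lTensor A ∘ₗ hopfSubComul A ρ =
      Algebra.linearMap R A ∘ₗ hopfSubCounit A := by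
  have h3 := hopfSubComul_spec' A ρ hΔ
  refine LinearMap.ext fun a => Subtype.val_injective ?_
  have hL : A.val.toLinearMap ∘ₗ LinearMap.mul' R A ∘ₗ (hopfSubAntipode A hS).lTensor A ∘ₗ
        hopfSubComul A ρ =
      LinearMap.mul' R H ∘ₗ (HopfAlgebra.antipode R).lTensor H ∘ₗ comul (R := R) (A := H) ∘ₗ
        A.val.toLinearMap := by
    rw [← LinearMap.comp_assoc, hopfSub_val_comp_mul', LinearMap.comp_assoc]
    congr 1
    rw [← LinearMap.comp_assoc, LinearMap.lTensor, ← TensorProduct.map_comp,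
      hopfSub_val_comp_antipode, LinearMap.comp_id, ← h3, ← LinearMap.comp_assoc,
      LinearMap.lTensor, ← TensorProduct.map_comp, LinearMap.id_comp]
  have := HopfAlgebra.mul_antipode_lTensor_comul (R := R) (A := H)
  calc _ = (LinearMap.mul' R H ∘ₗ (HopfAlgebra.antipode R).lTensor H ∘ₗ
        comul (R := R) (A := H) ∘ₗ A.val.toLinearMap) a := congrArg (fun f => f a) hL
    _ = ((Algebra.linearMap R H ∘ₗ counit (R := R) (A := H)) ∘ₗ A.val.toLinearMap) a := by
      rw [← this]; rfl
    _ = _ := rfl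

/-- **The Hopf algebra structure on a direct-summand subalgebra** stable under the
comultiplication and the antipode.  Its algebra structure is the subalgebra's. -/
@[instance_reducible]
noncomputable def hopfSub (hρ : ∀ a : A, ρ (a : H) = a)
    (hΔ : ∀ a : A, TensorProduct.map (A.val.toLinearMap ∘ₗ ρ) (A.val.toLinearMap ∘ₗ ρ)
      (Coalgebra.comul (R := R) (a : H)) = Coalgebra.comul (R := R) (a : H))
    (hS : ∀ a : A, HopfAlgebra.antipode R (a : H) ∈ A) : HopfAlgebra R A where
  __ := hopfSubBialgebra A ρ hρ hΔ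
  antipode := hopfSubAntipode A hS
  mul_antipode_rTensor_comul := hopfSub_antipode_rTensor A ρ hΔ hS
  mul_antipode_lTensor_comul := hopfSub_antipode_lTensor A ρ hΔ hS

section lemmas

variable (hρ : ∀ a : A, ρ (a : H) = a)
  (hΔ : ∀ a : A, TensorProduct.map (A.val.toLinearMap ∘ₗ ρ) (A.val.toLinearMap ∘ₗ ρ)
    (Coalgebra.comul (R := R) (a : H)) = Coalgebra.comul (R := R) (a : H))
  (hS : ∀ a : A, HopfAlgebra.antipode R (a : H) ∈ A)

/-- The algebra structure of `hopfSub` is the subalgebra's. -/
theorem hopfSub_toAlgebra :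
    (hopfSub A ρ hρ hΔ hS).toAlgebra = A.algebra :=
  rfl

theorem hopfSub_comul (a : A) :
    letI := hopfSub A ρ hρ hΔ hS
    TensorProduct.map A.val.toLinearMap A.val.toLinearMap (Coalgebra.comul (R := R) a) =
      Coalgebra.comul (R := R) (a : H) :=
  hopfSubComul_spec A ρ hΔ a

theorem hopfSub_comul_eq (a : A) :
    letI := hopfSub A ρ hρ hΔ hS
    Coalgebra.comul (R := R) a = TensorProduct.map ρ ρ (Coalgebra.comul (R := R) (a : H)) :=
  rfl

theorem hopfSub_counit (a : A) :
    letI := hopfSub A ρ hρ hΔ hS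
    Coalgebra.counit (R := R) a = Coalgebra.counit (R := R) (a : H) :=
  rfl

theorem hopfSub_antipode (a : A) :
    letI := hopfSub A ρ hρ hΔ hS
    ((HopfAlgebra.antipode R a : A) : H) = HopfAlgebra.antipode R (a : H) :=
  rfl

theorem hopfSub_isCocomm [Coalgebra.IsCocomm R H] :
    letI := hopfSub A ρ hρ hΔ hS
    Coalgebra.IsCocomm R A := by
  letI := hopfSub A ρ hρ hΔ hS
  refine ⟨LinearMap.ext fun a => hopfSub_map_injective A ρ hρ ?_⟩
  have hnat : ∀ x : A ⊗[R] A,
      TensorProduct.map A.val.toLinearMap A.val.toLinearMap (TensorProduct.comm R A A x) =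
        TensorProduct.comm R H H (TensorProduct.map A.val.toLinearMap A.val.toLinearMap x) := by
    intro x
    induction x using TensorProduct.induction_on with
    | zero => simp only [map_zero]
    | tmul a b => rfl
    | add x y hx hy => simp only [map_add, hx, hy]
  show TensorProduct.map A.val.toLinearMap A.val.toLinearMap
      (TensorProduct.comm R A A (hopfSubComul A ρ a)) =
    TensorProduct.map A.val.toLinearMap A.val.toLinearMap (hopfSubComul A ρ a)
  rw [hnat, hopfSubComul_spec A ρ hΔ, Coalgebra.comm_comul]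

end lemmas

end Fermat.Agent.FlatMod
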