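/-
Lib/FlatMod/QuotPts: the points of the invariant subalgebra: restriction from `H` is surjective
and its fibres are the cosets of `N`.
-/
import Mathlib
import Fermat.Agent.Lib.FlatMod.QuotAlg
import Fermat.Agent.Lib.FlatMod.Summand
import Fermat.Agent.Lib.FlatMod.HopfSub

set_option autoImplicit false
set_option linter.style.haveILetI false
set_option linter.unusedSectionVars false

namespace Fermat.Agent.FlatMod

open GaloisRep TensorProduct WithConv

local notation "Kb" => AlgebraicClosure ℚ
local notation "GK" => (AlgebraicClosure ℚ ≃ₐ[ℚ] AlgebraicClosure ℚ)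

variable {p : ℕ}

namespace GalSub

variable {H : Type*} [CommRing H] [HopfAlgebra (ratLocalizedAt p) H] (N : GalSub p H)

/-- Restriction of a point to the invariant subalgebra. -/
noncomputable def resHom (f : WithConv (H →ₐ[ratLocalizedAt p] Kb)) :
    N.invAlg →ₐ[ratLocalizedAt p] Kb :=
  f.ofConv.comp N.invAlg.val

@[simp] theorem resHom_apply (f : WithConv (H →ₐ[ratLocalizedAt p] Kb)) (a : N.invAlg) :
    N.resHom f a = f (a : H) := rfl

theorem resHom_mul_mem (g n : WithConv (H →ₐ[ratLocalizedAt p] Kb)) (hn : n ∈ N.carrier) :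
    N.resHom (g * n) = N.resHom g := by
  apply AlgHom.ext
  intro a
  exact a.2 g n hn

variable [Fact p.Prime] [Module.Finite (ratLocalizedAt p) H] [Module.Flat (ratLocalizedAt p) H]
  [Coalgebra.IsCocomm (ratLocalizedAt p) H]

theorem mul_mem_coset_iff (g f' n : WithConv (H →ₐ[ratLocalizedAt p] Kb))
    (hn : n ∈ N.carrier) :
    (∃ n' ∈ N.carrier, f' * n = g * n') ↔ (∃ n' ∈ N.carrier, f' = g * n') := by
  constructor
  · rintro ⟨n', hn', h⟩
    refine ⟨n' * invPt n, N.mul_mem _ hn' _ (N.inv_mem n hn), ?_⟩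
    rw [← mul_assoc, ← h, mul_assoc, mul_invPt, mul_one]
  · rintro ⟨n', hn', h⟩
    refine ⟨n' * n, N.mul_mem _ hn' _ hn, ?_⟩
    rw [h, mul_assoc]

/-- Separation: two points with the same restriction to the invariants differ by an element of
`N`. -/
theorem exists_mul_of_resHom_eq (f g : WithConv (H →ₐ[ratLocalizedAt p] Kb))
    (hfg : N.resHom f = N.resHom g) : ∃ n ∈ N.carrier, f = g * n := by
  classical
  haveI := finite_pts (p := p) (H := H)
  letI : Fintype (WithConv (H →ₐ[ratLocalizedAt p] Kb) × N.carrier) := Fintype.ofFinite _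
  -- the functional `f - g` on the quotient
  let ψ : (H ⧸ (Subalgebra.toSubmodule N.invAlg)) →ₗ[ratLocalizedAt p] Kb :=
    (Subalgebra.toSubmodule N.invAlg).liftQ (f.ofConv.toLinearMap - g.ofConv.toLinearMap) (by
      intro x hx
      rw [LinearMap.mem_ker, LinearMap.sub_apply, sub_eq_zero]
      exact congrArg (fun u : N.invAlg →ₐ[ratLocalizedAt p] Kb => u ⟨x, hx⟩) hfg)
  let b := Module.Free.chooseBasis (ratLocalizedAt p) (H ⧸ (Subalgebra.toSubmodule N.invAlg))
  obtain ⟨a, ha⟩ := exists_combination b N.dBar N.dBar_gal N.dBar_inj ψ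
  have ha' : ∀ x : H, f x - g x = ∑ j, a j * ((j.1 * j.2.1) x - j.1 x) := by
    intro x
    exact ha (Submodule.Quotient.mk x)
  -- the finsupp relation
  let ℓ : (H →ₐ[ratLocalizedAt p] Kb) →₀ Kb :=
    Finsupp.single f.ofConv 1 - Finsupp.single g.ofConv 1 -
      ∑ j, a j • (Finsupp.single (j.1 * j.2.1).ofConv 1 - Finsupp.single j.1.ofConv 1)
  have hℓ : Finsupp.linearCombination Kb
      (AlgHom.toLinearMap : (H →ₐ[ratLocalizedAt p] Kb) → H →ₗ[ratLocalizedAt p] Kb) ℓ = 0 := by
    apply LinearMap.ext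
    intro x
    simp only [ℓ, map_sub, map_sum, map_smul, Finsupp.linearCombination_single, one_smul,
      LinearMap.sub_apply, LinearMap.sum_apply, LinearMap.smul_apply, AlgHom.toLinearMap_apply,
      smul_eq_mul, LinearMap.zero_apply]
    rw [sub_eq_zero]
    exact ha' x
  have hℓ0 : ℓ = 0 :=
    (linearIndependent_iff.1 (linearIndependent_toLinearMap (ratLocalizedAt p) H Kb)) ℓ hℓ
  -- the indicator of the coset of `g`
  let χ : (H →ₐ[ratLocalizedAt p] Kb) → Kb := fun f' =>
    if ∃ n ∈ N.carrier, toConv f' = g * n then 1 else 0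
  have hχ : ∀ (f' : WithConv (H →ₐ[ratLocalizedAt p] Kb)) (n : N.carrier),
      χ (f' * n.1).ofConv = χ f'.ofConv := by
    intro f' n
    show (if ∃ n' ∈ N.carrier, f' * n.1 = g * n' then (1 : Kb) else 0) =
      (if ∃ n' ∈ N.carrier, f' = g * n' then (1 : Kb) else 0)
    rw [if_congr (N.mul_mem_coset_iff g f' n.1 n.2) rfl rfl]
  have h1 := congrArg (Finsupp.linearCombination Kb χ) hℓ0
  simp only [ℓ, map_sub, map_sum, map_smul, Finsupp.linearCombination_single,
    smul_eq_mul, map_zero, hχ, sub_self, mul_zero, Finset.sum_const_zero, sub_zero,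
    one_mul] at h1
  have hχg : χ g.ofConv = 1 := by
    show (if ∃ n ∈ N.carrier, g = g * n then (1 : Kb) else 0) = 1
    rw [if_pos ⟨1, N.one_mem, (mul_one g).symm⟩]
  rw [hχg, sub_eq_zero] at h1
  by_contra hcon
  have hχf : χ f.ofConv = 0 := by
    show (if ∃ n ∈ N.carrier, f = g * n then (1 : Kb) else 0) = 0
    rw [if_neg hcon]
  rw [hχf] at h1
  exact zero_ne_one h1

instance finite_invAlg : Module.Finite (ratLocalizedAt p) N.invAlg :=
  Module.Finite.of_injective N.invAlg.val.toLinearMap Subtype.val_injective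

instance isTorsionFree_invAlg : Module.IsTorsionFree (ratLocalizedAt p) N.invAlg :=
  Function.Injective.moduleIsTorsionFree (fun a : N.invAlg => (a : H)) Subtype.val_injective
    (fun _ _ => rfl)

example : Module.Free (ratLocalizedAt p) N.invAlg := inferInstance
example : Module.Flat (ratLocalizedAt p) N.invAlg := inferInstance

/-- Every point of the invariant subalgebra is the restriction of a point of `H`. -/
theorem resHom_surjective
    (hsep : ∀ x : H, (∀ f : WithConv (H →ₐ[ratLocalizedAt p] Kb), f x = 0) → x = 0) :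
    Function.Surjective N.resHom := by
  classical
  haveI := finite_pts (p := p) (H := H)
  haveI : Finite (N.invAlg →ₐ[ratLocalizedAt p] Kb) := finite_algHom
  letI : Fintype (N.invAlg →ₐ[ratLocalizedAt p] Kb) := Fintype.ofFinite _
  letI : Fintype (Set.range N.resHom) := Fintype.ofFinite _
  have h1 : Fintype.card (N.invAlg →ₐ[ratLocalizedAt p] Kb) ≤
      Module.finrank (ratLocalizedAt p) N.invAlg := card_algHom_le
  have h2 : Module.finrank (ratLocalizedAt p) N.invAlg ≤ Fintype.card (Set.range N.resHom) := by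
    rw [Module.finrank_eq_card_chooseBasisIndex]
    refine card_basis_le (Module.Free.chooseBasis (ratLocalizedAt p) N.invAlg)
      (fun j : Set.range N.resHom => j.1.toLinearMap) ?_ ?_
    · rintro σ ⟨_, f, rfl⟩
      exact ⟨⟨_, galPt σ f, rfl⟩, fun _ => rfl⟩
    · intro a ha
      apply Subtype.ext
      apply hsep
      intro f
      exact ha ⟨_, f, rfl⟩
  have h3 : Function.Injective (fun j : Set.range N.resHom => j.1) := Subtype.val_injective
  have h4 : Fintype.card (Set.range N.resHom) ≤
      Fintype.card (N.invAlg →ₐ[ratLocalizedAt p] Kb) := Fintype.card_le_of_injective _ h3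
  have h5 := ((Fintype.bijective_iff_injective_and_card _).2
    ⟨h3, le_antisymm h4 (h1.trans h2)⟩).2
  intro g'
  obtain ⟨⟨_, f, rfl⟩, hj⟩ := h5 g'
  exact ⟨f, hj⟩

end GalSub

end Fermat.Agent.FlatMod
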