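/-
Lib/FlatMod/Quot: quotients of flat Galois modules are flat (the Hopf algebra of `N₀`-invariant
functions, `N₀` the kernel of the quotient map).
-/
import Mathlib
import Fermat.Agent.Lib.FlatMod.QuotPts

set_option autoImplicit false
set_option linter.style.haveILetI false
set_option linter.unusedSectionVars false

namespace Fermat.Agent.FlatMod

open GaloisRep TensorProduct WithConv

local notation "Kb" => AlgebraicClosure ℚ
local notation "GK" => (AlgebraicClosure ℚ ≃ₐ[ℚ] AlgebraicClosure ℚ)

variable {p : ℕ} [Fact p.Prime]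

/-- Quotients (same statement as the stub `IsFlatGaloisModule.quot`). -/
theorem isFlat_quot_aux {M M' : Type} [AddCommGroup M] [AddCommGroup M']
    {act : (AlgebraicClosure ℚ ≃ₐ[ℚ] AlgebraicClosure ℚ) → M → M}
    {act' : (AlgebraicClosure ℚ ≃ₐ[ℚ] AlgebraicClosure ℚ) → M' → M'}
    (h : IsFlatGaloisModule p M act) (π : M →+ M') (hπ : Function.Surjective π)
    (hact : ∀ σ x, π (act σ x) = act' σ (π x)) :
    IsFlatGaloisModule p M' act' := by
  classical
  obtain ⟨H, i1, i2, h1, h2, h3, hsep, e, he1, he2⟩ := exists_separated h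
  have hone : e 1 = 0 := by
    have := he1 1 1
    rw [mul_one] at this
    exact left_eq_add.1 this
  have hinv : ∀ f, e (invPt f) = - e f := by
    intro f
    have := he1 (invPt f) f
    rw [invPt_mul, hone] at this
    exact eq_neg_of_add_eq_zero_left this.symm
  have hgal : ∀ σ f, e (galPt σ f) = act σ (e f) := fun σ f =>
    he2 σ f (galPt σ f) (fun _ => rfl)
  have hact0 : ∀ σ, act' σ 0 = 0 := by
    intro σ
    have h4 := hact σ 0
    rw [map_zero] at h4
    rw [← h4, ← hone, ← hgal, galPt_one_pt, hone, map_zero]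
  let N₀ : GalSub p H :=
    { carrier := {f | π (e f) = 0}
      one_mem := by
        show π (e 1) = 0
        rw [hone, map_zero]
      mul_mem := by
        intro f hf g hg
        show π (e (f * g)) = 0
        rw [he1, map_add, hf, hg, add_zero]
      inv_mem := by
        intro f hf
        show π (e (invPt f)) = 0
        rw [hinv, map_neg, hf, neg_zero]
      gal_mem := by
        intro σ f hf
        show π (e (galPt σ f)) = 0
        rw [hgal, hact, hf, hact0] }
  obtain ⟨ρ, hρ⟩ := exists_retraction_of_saturated (Subalgebra.toSubmodule N₀.invAlg)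
    N₀.invAlg_saturated
  have hΔ : ∀ a : N₀.invAlg,
      TensorProduct.map (N₀.invAlg.val.toLinearMap ∘ₗ ρ) (N₀.invAlg.val.toLinearMap ∘ₗ ρ)
        (Coalgebra.comul (R := ratLocalizedAt p) (a : H)) =
      Coalgebra.comul (R := ratLocalizedAt p) (a : H) := fun a =>
    map_retraction_eq_self (Subalgebra.toSubmodule N₀.invAlg) ρ hρ _
      (N₀.map_mkQ_id_comul hsep a a.2) (N₀.map_id_mkQ_comul hsep a a.2)
  have hS : ∀ a : N₀.invAlg, HopfAlgebra.antipode (ratLocalizedAt p) (a : H) ∈ N₀.invAlg :=
    fun a => N₀.antipode_mem_invAlg a a.2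
  letI iH : HopfAlgebra (ratLocalizedAt p) N₀.invAlg := hopfSub N₀.invAlg ρ hρ hΔ hS
  have hcc : Coalgebra.IsCocomm (ratLocalizedAt p) N₀.invAlg :=
    hopfSub_isCocomm N₀.invAlg ρ hρ hΔ hS
  refine ⟨N₀.invAlg, inferInstance, iH, N₀.finite_invAlg, inferInstance, hcc, ?_⟩
  -- multiplicativity of the restriction
  have hres_mul : ∀ f g : WithConv (H →ₐ[ratLocalizedAt p] Kb),
      (toConv (N₀.resHom (f * g)) : WithConv (N₀.invAlg →ₐ[ratLocalizedAt p] Kb)) =
        toConv (N₀.resHom f) * toConv (N₀.resHom g) := by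
    intro f g
    apply WithConv.ext
    apply AlgHom.ext
    intro a
    have h5 := convMul_apply_eq_tmulFun (toConv (N₀.resHom f)) (toConv (N₀.resHom g)) a
    have h6 : tmulFun f.ofConv.toLinearMap g.ofConv.toLinearMap
        (TensorProduct.map N₀.invAlg.val.toLinearMap N₀.invAlg.val.toLinearMap
          (Coalgebra.comul (R := ratLocalizedAt p) a)) =
        tmulFun (N₀.resHom f).toLinearMap (N₀.resHom g).toLinearMap
          (Coalgebra.comul (R := ratLocalizedAt p) a) := tmulFun_map _ _ _ _ _
    have h7 := hopfSub_comul N₀.invAlg ρ hρ hΔ hS a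
    show N₀.resHom (f * g) a = (toConv (N₀.resHom f) * toConv (N₀.resHom g)) a
    rw [h5]
    show _ = tmulFun (N₀.resHom f).toLinearMap (N₀.resHom g).toLinearMap _
    rw [← h6, h7, ← convMul_apply_eq_tmulFun]
    rfl
  -- the map on points
  have hsurj := N₀.resHom_surjective hsep
  let F : WithConv (N₀.invAlg →ₐ[ratLocalizedAt p] Kb) → M' := fun g' =>
    π (e (Classical.choose (hsurj g'.ofConv)))
  have hF : ∀ f, F (toConv (N₀.resHom f)) = π (e f) := by
    intro f
    have h8 : N₀.resHom (Classical.choose (hsurj (N₀.resHom f))) = N₀.resHom f :=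
      Classical.choose_spec (hsurj (N₀.resHom f))
    obtain ⟨n, hn, h9⟩ := N₀.exists_mul_of_resHom_eq _ _ h8
    show π (e (Classical.choose (hsurj (N₀.resHom f)))) = π (e f)
    rw [h9, he1, map_add]
    have hn' : π (e n) = 0 := hn
    rw [hn', add_zero]
  have hFinj : Function.Injective F := by
    intro g' g'' hgg
    obtain ⟨f, hf⟩ := hsurj g'.ofConv
    obtain ⟨g, hg⟩ := hsurj g''.ofConv
    have hf' : g' = toConv (N₀.resHom f) := WithConv.ext hf.symm
    have hg' : g'' = toConv (N₀.resHom g) := WithConv.ext hg.symm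
    rw [hf', hg', hF, hF] at hgg
    have hn : f * invPt g ∈ N₀.carrier := by
      show π (e (f * invPt g)) = 0
      rw [he1, hinv, map_add, map_neg, hgg, add_neg_cancel]
    have h10 : f = g * (f * invPt g) := by
      rw [mul_left_comm, mul_invPt, mul_one]
    rw [hf', hg']
    congr 1
    rw [h10]
    exact N₀.resHom_mul_mem g _ hn
  have hFsurj : Function.Surjective F := by
    intro m'
    obtain ⟨m, rfl⟩ := hπ m'
    refine ⟨toConv (N₀.resHom (e.symm m)), ?_⟩
    rw [hF, Equiv.apply_symm_apply]
  refine ⟨Equiv.ofBijective F ⟨hFinj, hFsurj⟩, fun g' g'' => ?_, fun σ f'' g'' hfg => ?_⟩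
  · obtain ⟨f, hf⟩ := hsurj g'.ofConv
    obtain ⟨g, hg⟩ := hsurj g''.ofConv
    have hf' : g' = toConv (N₀.resHom f) := WithConv.ext hf.symm
    have hg' : g'' = toConv (N₀.resHom g) := WithConv.ext hg.symm
    show F (g' * g'') = F g' + F g''
    rw [hf', hg', ← hres_mul, hF, hF, hF, he1, map_add]
  · obtain ⟨f, hf⟩ := hsurj f''.ofConv
    have hf' : f'' = toConv (N₀.resHom f) := WithConv.ext hf.symm
    have hg' : g'' = toConv (N₀.resHom (galPt σ f)) := by
      apply WithConv.ext
      apply AlgHom.ext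
      intro a
      show g'' a = σ (f (a : H))
      rw [hfg a, hf']
      rfl
    show F g'' = act' σ (F f'')
    rw [hg', hf', hF, hF, hgal, hact]

end Fermat.Agent.FlatMod
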