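/-
Lib/FlatMod/Zero: the zero module is a flat Galois module (`H = ℤ_(p)` itself).  Owner: helper27.
-/
import Fermat.Agent.Lib.FlatMod.Defs

set_option autoImplicit false

namespace Fermat.Agent.FlatMod

variable {p : ℕ}

/-- The zero module (same statement as the stub `isFlatGaloisModule_of_subsingleton`). -/
theorem isFlat_zero_aux [Fact p.Prime] {M : Type} [AddCommGroup M]
    [Subsingleton M]
    (act : (AlgebraicClosure ℚ ≃ₐ[ℚ] AlgebraicClosure ℚ) → M → M) :
    IsFlatGaloisModule p M act := by
  refine ⟨GaloisRep.ratLocalizedAt p, inferInstance, inferInstance, inferInstance, inferInstance,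
    inferInstance, ?_⟩
  have : Subsingleton (WithConv (GaloisRep.ratLocalizedAt p →ₐ[GaloisRep.ratLocalizedAt p]
      AlgebraicClosure ℚ)) :=
    (WithConv.equiv _).subsingleton
  refine ⟨⟨fun _ => 0, fun _ => WithConv.toConv (Algebra.ofId _ _),
    fun _ => Subsingleton.elim _ _, fun _ => Subsingleton.elim _ _⟩, fun f g => ?_,
    fun σ f g _ => ?_⟩
  · exact Subsingleton.elim _ _
  · exact Subsingleton.elim _ _

end Fermat.Agent.FlatMod
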