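/-
Lib/FlatMod: closure properties of `IsFlatGaloisModule` (exact statements of helper60's interface; owner: helper57;
all five proved: Zero/Prod by helper27/helper21, HopfSub/Summand by helper27, rest helper57).
Elementary route (helper33's note of 23:17Z): `ℤ_(p)` is a PID, flat = torsion-free;
products: `H₁ ⊗ H₂`;  sub-objects `N ≤ M`: `H ⧸ I'`, `I' = {h | ∀ f ∈ N, f h = 0}`;
quotients `M ⧸ N`: `H'' = {h | ∀ f ∈ M, ∀ n ∈ N, (f * n) h = f h}`.
-/
import Fermat.Agent.Lib.FlatMod.Defs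
import Fermat.Agent.Lib.FlatMod.Zero
import Fermat.Agent.Lib.FlatMod.Prod
import Fermat.Agent.Lib.FlatMod.Sub
import Fermat.Agent.Lib.FlatMod.Quot

set_option autoImplicit false

namespace Fermat.Agent.FlatMod

variable {p : ℕ}

/-- Transport along an equivariant additive equivalence. -/
theorem IsFlatGaloisModule.of_equiv {M M' : Type} [AddCommGroup M] [AddCommGroup M']
    {act : (AlgebraicClosure ℚ ≃ₐ[ℚ] AlgebraicClosure ℚ) → M → M}
    {act' : (AlgebraicClosure ℚ ≃ₐ[ℚ] AlgebraicClosure ℚ) → M' → M'}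
    (h : IsFlatGaloisModule p M act) (e : M ≃+ M')
    (he : ∀ σ x, e (act σ x) = act' σ (e x)) : IsFlatGaloisModule p M' act' := by
  obtain ⟨H, i1, i2, h1, h2, h3, e₀, he1, he2⟩ := h
  refine ⟨H, i1, i2, h1, h2, h3, e₀.trans e.toEquiv, fun f g => ?_, fun σ f g hfg => ?_⟩
  · show e (e₀ (f * g)) = e (e₀ f) + e (e₀ g)
    rw [he1, map_add]
  · show e (e₀ g) = act' σ (e (e₀ f))
    rw [he2 σ f g hfg, he]

/-- The zero module. -/
theorem isFlatGaloisModule_of_subsingleton [Fact p.Prime] {M : Type} [AddCommGroup M]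
    [Subsingleton M]
    (act : (AlgebraicClosure ℚ ≃ₐ[ℚ] AlgebraicClosure ℚ) → M → M) :
    IsFlatGaloisModule p M act :=
  isFlat_zero_aux act

/-- Products. -/
theorem IsFlatGaloisModule.prod [Fact p.Prime] {M₁ M₂ : Type} [AddCommGroup M₁]
    [AddCommGroup M₂]
    {act₁ : (AlgebraicClosure ℚ ≃ₐ[ℚ] AlgebraicClosure ℚ) → M₁ → M₁}
    {act₂ : (AlgebraicClosure ℚ ≃ₐ[ℚ] AlgebraicClosure ℚ) → M₂ → M₂}
    (h₁ : IsFlatGaloisModule p M₁ act₁) (h₂ : IsFlatGaloisModule p M₂ act₂) :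
    IsFlatGaloisModule p (M₁ × M₂) (fun σ x => (act₁ σ x.1, act₂ σ x.2)) :=
  isFlat_prod_aux h₁ h₂

/-- Sub-objects: a Galois-stable subgroup of a flat module is flat. -/
theorem IsFlatGaloisModule.sub [Fact p.Prime] {M : Type} [AddCommGroup M]
    {act : (AlgebraicClosure ℚ ≃ₐ[ℚ] AlgebraicClosure ℚ) → M → M}
    (h : IsFlatGaloisModule p M act) (N : AddSubgroup M)
    (hN : ∀ σ, ∀ x ∈ N, act σ x ∈ N) :
    IsFlatGaloisModule p N (fun σ x => ⟨act σ x.1, hN σ x.1 x.2⟩) :=
  isFlat_sub_aux h N hN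

/-- Quotients: the quotient of a flat module by a Galois-stable subgroup is flat
(stated for any surjective equivariant additive map). -/
theorem IsFlatGaloisModule.quot [Fact p.Prime] {M M' : Type} [AddCommGroup M]
    [AddCommGroup M']
    {act : (AlgebraicClosure ℚ ≃ₐ[ℚ] AlgebraicClosure ℚ) → M → M}
    {act' : (AlgebraicClosure ℚ ≃ₐ[ℚ] AlgebraicClosure ℚ) → M' → M'}
    (h : IsFlatGaloisModule p M act) (π : M →+ M') (hπ : Function.Surjective π)
    (hact : ∀ σ x, π (act σ x) = act' σ (π x)) :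
    IsFlatGaloisModule p M' act' :=
  isFlat_quot_aux h π hπ hact

/-- Sub-objects, stated for any injective equivariant additive map. -/
theorem IsFlatGaloisModule.of_injective [Fact p.Prime] {M M' : Type} [AddCommGroup M]
    [AddCommGroup M']
    {act : (AlgebraicClosure ℚ ≃ₐ[ℚ] AlgebraicClosure ℚ) → M → M}
    {act' : (AlgebraicClosure ℚ ≃ₐ[ℚ] AlgebraicClosure ℚ) → M' → M'}
    (h : IsFlatGaloisModule p M act) (ι : M' →+ M) (hι : Function.Injective ι)
    (hact : ∀ σ x, ι (act' σ x) = act σ (ι x)) :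
    IsFlatGaloisModule p M' act' :=
  isFlat_of_injective_aux h ι hι hact

end Fermat.Agent.FlatMod
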