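/-
Lib/FlatMod/Saturation: integrality of functions on a finite set, and Galois saturation (an
equivariant function in the integral span of the image of a lattice is in the image).
-/
import Mathlib
import Fermat.Agent.Lib.FlatMod.Order

set_option autoImplicit false
set_option linter.style.haveILetI false
set_option linter.unusedSectionVars false

namespace Fermat.Agent.FlatMod

open GaloisRep TensorProduct WithConv

local notation "Kb" => AlgebraicClosure ℚ
local notation "GK" => (AlgebraicClosure ℚ ≃ₐ[ℚ] AlgebraicClosure ℚ)

variable {p : ℕ}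

/-- A function on a finite set with integral values is integral. -/
theorem isIntegral_pi_of_forall {R : Type*} [CommRing R] {W : Type*} [Finite W] {A : Type*}
    [CommRing A] [Algebra R A] (f : W → A) (hf : ∀ w, IsIntegral R (f w)) :
    IsIntegral R f := by
  classical
  haveI := Fintype.ofFinite W
  choose q hq hq0 using hf
  refine ⟨∏ w, q w, Polynomial.monic_prod_of_monic _ _ (fun w _ => hq w), ?_⟩
  funext w
  have h1 : (Polynomial.eval₂ (algebraMap R (W → A)) f (∏ w, q w)) w =
      Polynomial.eval₂ (algebraMap R A) (f w) (∏ w, q w) := by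
    have := Polynomial.hom_eval₂ (∏ w, q w) (algebraMap R (W → A)) (Pi.evalRingHom (fun _ => A) w) f
    have h2 : (Pi.evalRingHom (fun _ : W => A) w).comp (algebraMap R (W → A)) = algebraMap R A :=
      rfl
    rw [h2] at this
    exact this
  rw [h1, Polynomial.eval₂_finsetProd]
  exact Finset.prod_eq_zero (Finset.mem_univ w) (hq0 w)

section SAT

variable [Fact p.Prime] {B₀ : Type*} [AddCommGroup B₀] [Module (ratLocalizedAt p) B₀]
  {κ : Type*} [Fintype κ] (β : Module.Basis κ (ratLocalizedAt p) B₀)
  {J : Type*} (φ : J → (B₀ →ₗ[ratLocalizedAt p] Kb))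

include β in
/-- **Galois saturation**: an equivariant function in the span, with integral coefficients, of the
image of a finite free module under a Galois-stable jointly injective family of functionals is in
the image. -/
theorem galois_saturation
    (hgal : ∀ (σ : GK) (j : J), ∃ j', ∀ x, φ j' x = σ (φ j x))
    (hinj : ∀ x : B₀, (∀ j, φ j x = 0) → x = 0)
    (F : J → Kb) {α : Type*} (s : Finset α) (a : α → Kb) (z : α → B₀)
    (ha : ∀ i ∈ s, IsIntegral (ratLocalizedAt p) (a i))
    (hF : ∀ j, F j = ∑ i ∈ s, a i * φ j (z i))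
    (hFeq : ∀ (σ : GK) (j j' : J), (∀ x, φ j' x = σ (φ j x)) → F j' = σ (F j)) :
    ∃ x : B₀, ∀ j, φ j x = F j := by
  classical
  -- coefficients on the basis
  let a' : κ → Kb := fun k => ∑ i ∈ s, a i * algebraMap (ratLocalizedAt p) Kb (β.repr (z i) k)
  have ha' : ∀ k, IsIntegral (ratLocalizedAt p) (a' k) := fun k =>
    IsIntegral.sum _ (fun i hi => (ha i hi).mul isIntegral_algebraMap)
  have hF' : ∀ j, F j = ∑ k, a' k * φ j (β k) := by
    intro j
    rw [hF j]
    simp only [a', Finset.sum_mul]
    rw [Finset.sum_comm]
    refine Finset.sum_congr rfl (fun i _ => ?_)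
    conv_lhs => rw [← β.sum_repr (z i), map_sum, Finset.mul_sum]
    refine Finset.sum_congr rfl (fun k _ => ?_)
    rw [map_smul, Algebra.smul_def]
    ring
  have hfix : ∀ (σ : GK) (k : κ), σ (a' k) = a' k := by
    intro σ
    have hc : (fun k => σ (a' k) - a' k) = 0 := by
      apply kl_coord β φ hgal hinj
      intro j''
      obtain ⟨j, hj⟩ := hgal σ⁻¹ j''
      have hj' : ∀ x, φ j'' x = σ (φ j x) := by
        intro x
        rw [hj x]
        exact (AlgEquiv.apply_symm_apply σ _).symm
      have h1 := hFeq σ j j'' hj'
      rw [hF' j'', hF' j, map_sum] at h1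
      simp only [map_mul, ← hj'] at h1
      simp only [sub_mul, Finset.sum_sub_distrib]
      rw [sub_eq_zero]
      exact h1.symm
    intro k
    have := congrFun hc k
    simpa [sub_eq_zero] using this
  have hr : ∀ k, ∃ r : ratLocalizedAt p, algebraMap (ratLocalizedAt p) Kb r = a' k := fun k =>
    mem_range_of_fixed_of_isIntegral (a' k) (fun σ => hfix σ k) (ha' k)
  choose r hr using hr
  refine ⟨∑ k, r k • β k, fun j => ?_⟩
  rw [hF' j, map_sum]
  refine Finset.sum_congr rfl (fun k _ => ?_)
  rw [map_smul, Algebra.smul_def, hr]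

end SAT

end Fermat.Agent.FlatMod
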