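/-
Lib/FlatMod/OrderGen: Hopf orders from generators (it suffices to check closure under
comultiplication and antipode on a finite generating family of integral equivariant functions).
-/
import Mathlib
import Fermat.Agent.Lib.FlatMod.Saturation

set_option autoImplicit false
set_option linter.style.haveILetI false
set_option linter.unusedSectionVars false

namespace Fermat.Agent.FlatMod

open GaloisRep TensorProduct WithConv

local notation "Kb" => AlgebraicClosure ℚ
local notation "GK" => (AlgebraicClosure ℚ ≃ₐ[ℚ] AlgebraicClosure ℚ)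

variable {p : ℕ}

section Sub

variable {W : Type*} (H : Subalgebra (ratLocalizedAt p) (W → Kb))

/-- The algebra hom `H ⊗ H → ℚ̄` attached to two points. -/
noncomputable def tmulAlg (w w' : W) : H ⊗[ratLocalizedAt p] H →ₐ[ratLocalizedAt p] Kb :=
  Algebra.TensorProduct.lift (evPt H w) (evPt H w') (fun _ _ => Commute.all _ _)

theorem tmulAlg_apply (w w' : W) (z : H ⊗[ratLocalizedAt p] H) :
    tmulAlg H w w' z = tmulFun (evPt H w).toLinearMap (evPt H w').toLinearMap z := by
  induction z with
  | zero => simp
  | tmul a b => simp [tmulAlg]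
  | add a b ha hb => rw [map_add, map_add, ha, hb]

/-- The algebra hom `H ⊗ H → Map(W × W, ℚ̄)` for a subalgebra of functions. -/
noncomputable def subTheta2 : H ⊗[ratLocalizedAt p] H →ₐ[ratLocalizedAt p] (W × W → Kb) :=
  AlgHom.pi (fun x : W × W => tmulAlg H x.1 x.2)

theorem subTheta2_apply (z : H ⊗[ratLocalizedAt p] H) (x : W × W) :
    subTheta2 H z x = tmulFun (evPt H x.1).toLinearMap (evPt H x.2).toLinearMap z :=
  tmulAlg_apply H x.1 x.2 z

end Sub

/-- Pull-back of functions along the addition. -/
noncomputable def addPullFun (p : ℕ) (W : Type*) [Add W] :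
    (W → Kb) →ₐ[ratLocalizedAt p] (W × W → Kb) :=
  AlgHom.pi (fun x : W × W => Pi.evalAlgHom (ratLocalizedAt p) (fun _ : W => Kb) (x.1 + x.2))

@[simp] theorem addPullFun_apply {W : Type*} [Add W] (h : W → Kb) (x : W × W) :
    addPullFun p W h x = h (x.1 + x.2) := rfl

/-- Pull-back of functions along the negation. -/
noncomputable def negPullFun (p : ℕ) (W : Type*) [Neg W] :
    (W → Kb) →ₐ[ratLocalizedAt p] (W → Kb) :=
  AlgHom.pi (fun w : W => Pi.evalAlgHom (ratLocalizedAt p) (fun _ : W => Kb) (-w))

@[simp] theorem negPullFun_apply {W : Type*} [Neg W] (h : W → Kb) (w : W) :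
    negPullFun p W h w = h (-w) := rfl

/-- The subalgebra of Galois-equivariant functions. -/
def eqvAlg (p : ℕ) {W : Type*} (act : GK → W → W) : Subalgebra (ratLocalizedAt p) (W → Kb) where
  carrier := {h | ∀ (σ : GK) (w : W), h (act σ w) = σ (h w)}
  mul_mem' := by
    intro a b ha hb σ w
    simp only [Pi.mul_apply, map_mul, ha σ w, hb σ w]
  add_mem' := by
    intro a b ha hb σ w
    simp only [Pi.add_apply, map_add, ha σ w, hb σ w]
  algebraMap_mem' := by
    intro r σ w
    show algebraMap (ratLocalizedAt p) Kb r = σ (algebraMap (ratLocalizedAt p) Kb r)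
    rw [gal_algebraMap]

/-- A Hopf order from generators: it suffices to check the closure under comultiplication and
antipode on the generators. -/
noncomputable def HopfOrder.ofGenerators [Fact p.Prime] {W : Type*} [AddCommGroup W] [Finite W]
    (act : GK → W → W) {ι : Type*} [Finite ι] (c : ι → W → Kb)
    (hint : ∀ i w, IsIntegral (ratLocalizedAt p) (c i w))
    (hequiv : ∀ i (σ : GK) w, c i (act σ w) = σ (c i w))
    (hsep : ∀ w w' : W, (∀ i, c i w = c i w') → w = w')
    (hadd : ∀ i, ∃ z : (Algebra.adjoin (ratLocalizedAt p) (Set.range c)) ⊗[ratLocalizedAt p]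
        (Algebra.adjoin (ratLocalizedAt p) (Set.range c)),
      ∀ w w', tmulFun (evPt _ w).toLinearMap (evPt _ w').toLinearMap z = c i (w + w'))
    (hneg : ∀ i, (fun w => c i (-w)) ∈ Algebra.adjoin (ratLocalizedAt p) (Set.range c)) :
    HopfOrder p W act where
  alg := Algebra.adjoin (ratLocalizedAt p) (Set.range c)
  fin := Module.Finite.iff_fg.2 (fg_adjoin_of_finite (Set.finite_range c) (by
    rintro _ ⟨i, rfl⟩
    exact isIntegral_pi_of_forall _ (hint i)))
  equiv := by
    have h1 : Algebra.adjoin (ratLocalizedAt p) (Set.range c) ≤ eqvAlg p act := by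
      apply Algebra.adjoin_le
      rintro _ ⟨i, rfl⟩
      exact fun σ w => hequiv i σ w
    exact fun h hh => h1 hh
  sep := by
    intro w w' hww
    apply hsep
    intro i
    exact hww (c i) (Algebra.subset_adjoin ⟨i, rfl⟩)
  add := by
    have h1 : Algebra.adjoin (ratLocalizedAt p) (Set.range c) ≤
        Subalgebra.comap (addPullFun p W)
          (subTheta2 (Algebra.adjoin (ratLocalizedAt p) (Set.range c))).range := by
      apply Algebra.adjoin_le
      rintro _ ⟨i, rfl⟩
      obtain ⟨z, hz⟩ := hadd i
      refine ⟨z, ?_⟩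
      funext x
      show subTheta2 (Algebra.adjoin (ratLocalizedAt p) (Set.range c)) z x = _
      rw [subTheta2_apply]
      exact hz x.1 x.2
    intro h hh
    obtain ⟨z, hz⟩ := h1 hh
    refine ⟨z, fun w w' => ?_⟩
    have := congrFun hz (w, w')
    rw [← subTheta2_apply (Algebra.adjoin (ratLocalizedAt p) (Set.range c)) z (w, w')]
    exact this
  neg := by
    have h1 : Algebra.adjoin (ratLocalizedAt p) (Set.range c) ≤
        Subalgebra.comap (negPullFun p W) (Algebra.adjoin (ratLocalizedAt p) (Set.range c)) := by
      apply Algebra.adjoin_le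
      rintro _ ⟨i, rfl⟩
      exact hneg i
    exact fun h hh => h1 hh

end Fermat.Agent.FlatMod
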