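/-
Lib/FlatMod/OrderCoords: **Hopf order criterion, coordinate form (B)**: finitely many integral,
Galois-equivariant, separating coordinate functions on a finite Galois module `W` whose addition
and negation laws are polynomial with `ℤ_(p)`-coefficients exhibit `W` as a flat Galois module.
-/
import Mathlib
import Fermat.Agent.Lib.FlatMod.OrderGen

set_option autoImplicit false
set_option linter.style.haveILetI false
set_option linter.unusedSectionVars false

namespace Fermat.Agent.FlatMod

open GaloisRep TensorProduct WithConv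

local notation "Kb" => AlgebraicClosure ℚ
local notation "GK" => (AlgebraicClosure ℚ ≃ₐ[ℚ] AlgebraicClosure ℚ)

variable {p : ℕ}

/-- Evaluation of a polynomial expression in functions is pointwise. -/
theorem aeval_pi_apply {W : Type*} {ι : Type*} (c : ι → W → Kb)
    (P : MvPolynomial ι (ratLocalizedAt p)) (w : W) :
    (MvPolynomial.aeval c P) w = MvPolynomial.aeval (fun j => c j w) P :=
  MvPolynomial.comp_aeval_apply (f := c)
    (Pi.evalAlgHom (ratLocalizedAt p) (fun _ : W => Kb) w) P

/-- **Hopf order criterion, coordinate form (B)**. -/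
theorem isFlat_of_coords [Fact p.Prime] {W : Type} [AddCommGroup W] [Finite W]
    (act : GK → W → W) {ι : Type} [Finite ι] (c : ι → W → Kb)
    (hint : ∀ i w, IsIntegral (ratLocalizedAt p) (c i w))
    (hequiv : ∀ i (σ : GK) w, c i (act σ w) = σ (c i w))
    (hsep : ∀ w w' : W, (∀ i, c i w = c i w') → w = w')
    (hadd : ∀ i, ∃ P : MvPolynomial (ι ⊕ ι) (ratLocalizedAt p), ∀ w w',
      c i (w + w') = MvPolynomial.aeval (Sum.elim (fun j => c j w) (fun j => c j w')) P)
    (hneg : ∀ i, ∃ P : MvPolynomial ι (ratLocalizedAt p), ∀ w,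
      c i (-w) = MvPolynomial.aeval (fun j => c j w) P) :
    IsFlatGaloisModule p W act := by
  refine (HopfOrder.ofGenerators act c hint hequiv hsep ?_ ?_).isFlat
  · intro i
    obtain ⟨P, hP⟩ := hadd i
    let gen : ι → Algebra.adjoin (ratLocalizedAt p) (Set.range c) :=
      fun j => ⟨c j, Algebra.subset_adjoin ⟨j, rfl⟩⟩
    let g : ι ⊕ ι → (Algebra.adjoin (ratLocalizedAt p) (Set.range c)) ⊗[ratLocalizedAt p]
        (Algebra.adjoin (ratLocalizedAt p) (Set.range c)) :=
      Sum.elim (fun j => gen j ⊗ₜ 1) (fun j => 1 ⊗ₜ gen j)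
    refine ⟨MvPolynomial.aeval g P, fun w w' => ?_⟩
    rw [← tmulAlg_apply, MvPolynomial.comp_aeval_apply, hP]
    congr 2
    funext k
    cases k with
    | inl j => simp [g, gen, tmulAlg]
    | inr j => simp [g, gen, tmulAlg]
  · intro i
    obtain ⟨P, hP⟩ := hneg i
    have h1 : (fun w => c i (-w)) = MvPolynomial.aeval c P := by
      funext w
      rw [hP, aeval_pi_apply]
    rw [h1, ← MvPolynomial.aeval_range]
    exact ⟨P, rfl⟩

end Fermat.Agent.FlatMod
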