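/-
Lib/FlatMod/Unit: **local-to-global lemma (UNIT)** and the **local form (LOC)** of the coordinate
criterion `isFlat_of_coords`.

* `exists_unit_combination` (UNIT): finitely many polynomial expressions `d k` in integral
  coordinates on a finite set `Y`, such that at every point `y` and every place over `p` one of
  the values `d k (c y)` is a unit, generate the unit ideal: `∑ k, u k * d k = 1` on `Y`.
* `exists_poly_of_local_laws` (POLY): a function on `Y` given locally (at every place over `p`)
  by fractions `n k / d k` with unit denominators is a polynomial in the coordinates.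
* `isFlat_of_local_coords` (LOC): the coordinate criterion with local addition / negation laws.
* `isFlat_of_local_add`: same with a local addition law and a global negation law.
-/
import Mathlib
import Fermat.Agent.Lib.FlatMod.OrderCoords
import Fermat.Agent.Lib.FlatMod.RatLoc

set_option autoImplicit false
set_option linter.style.haveILetI false
set_option linter.unusedSectionVars false

namespace Fermat.Agent.FlatMod

open GaloisRep

local notation "Kb" => AlgebraicClosure ℚ
local notation "GK" => (AlgebraicClosure ℚ ≃ₐ[ℚ] AlgebraicClosure ℚ)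

variable {p : ℕ}

/-- A polynomial expression with `ℤ_(p)`-coefficients in integral elements is integral. -/
theorem isIntegral_aeval_of_isIntegral {ι : Type*} (x : ι → Kb)
    (hx : ∀ i, IsIntegral (ratLocalizedAt p) (x i)) (P : MvPolynomial ι (ratLocalizedAt p)) :
    IsIntegral (ratLocalizedAt p) (MvPolynomial.aeval x P) := by
  have h1 : (MvPolynomial.aeval x :
      MvPolynomial ι (ratLocalizedAt p) →ₐ[ratLocalizedAt p] Kb).range ≤
      integralClosure (ratLocalizedAt p) Kb := by
    rw [← Algebra.adjoin_range_eq_range_aeval]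
    refine Algebra.adjoin_le ?_
    rintro _ ⟨i, rfl⟩
    exact hx i
  exact h1 ⟨P, rfl⟩

/-- A maximal ideal of the polynomial ring containing the kernel of the evaluation at an integral
point `x` comes from a place over `p`: there is a valuation subring of `ℚ̄` over `p` in which all
values `P(x)`, `P ∈ n`, are non-units. -/
theorem exists_valuationSubring_of_maximal [Fact p.Prime] {ι : Type*} (x : ι → Kb)
    (hx : ∀ i, IsIntegral (ratLocalizedAt p) (x i))
    (n : Ideal (MvPolynomial ι (ratLocalizedAt p))) (hn : n.IsMaximal)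
    (hker : RingHom.ker (MvPolynomial.aeval x :
      MvPolynomial ι (ratLocalizedAt p) →ₐ[ratLocalizedAt p] Kb) ≤ n) :
    ∃ A : ValuationSubring Kb, A.LiesOverPrime p ∧
      ∀ P ∈ n, A.valuation (MvPolynomial.aeval x P) < 1 := by
  classical
  set Φ : MvPolynomial ι (ratLocalizedAt p) →ₐ[ratLocalizedAt p] Kb :=
    MvPolynomial.aeval x with hΦ
  let S : Subalgebra (ratLocalizedAt p) Kb := Φ.range
  let f : MvPolynomial ι (ratLocalizedAt p) →ₐ[ratLocalizedAt p] S := Φ.rangeRestrict
  have hf : Function.Surjective f := Φ.rangeRestrict_surjective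
  have hfval : ∀ P, ((f P : S) : Kb) = Φ P := fun P => rfl
  have hkerf : RingHom.ker f = RingHom.ker Φ := by
    ext P
    rw [RingHom.mem_ker, RingHom.mem_ker, ← hfval, Subtype.ext_iff]
    rfl
  let J : Ideal S := n.map f
  have hcomap : J.comap f = n := by
    rw [Ideal.comap_map_of_surjective' f hf, hkerf]
    exact sup_eq_left.2 hker
  have hJne : J ≠ ⊤ := by
    intro h
    rw [h, Ideal.comap_top] at hcomap
    exact hn.ne_top hcomap.symm
  have hJmax : J.IsMaximal :=
    (Ideal.map_eq_top_or_isMaximal_of_surjective f hf hn).resolve_left hJne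
  haveI : Algebra.IsIntegral (ratLocalizedAt p) S := by
    refine ⟨fun s => ?_⟩
    obtain ⟨P, rfl⟩ := hf s
    rw [← isIntegral_algHom_iff S.val Subtype.val_injective]
    exact isIntegral_aeval_of_isIntegral x hx P
  have hmax : (J.comap (algebraMap (ratLocalizedAt p) S)).IsMaximal :=
    Ideal.isMaximal_comap_of_isIntegral_of_isMaximal (R := ratLocalizedAt p) J
  have hpJ : algebraMap (ratLocalizedAt p) S (p : ratLocalizedAt p) ∈ J := by
    have h1 := IsLocalRing.eq_maximalIdeal hmax
    have h2 := (IsDiscreteValuationRing.irreducible_iff_uniformizer _).1 (ratLoc_irreducible_p p)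
    have h3 : (p : ratLocalizedAt p) ∈ J.comap (algebraMap (ratLocalizedAt p) S) := by
      rw [h1, h2]
      exact Ideal.mem_span_singleton_self _
    exact h3
  obtain ⟨B, hSB, hB⟩ :=
    Ideal.image_subset_nonunits_valuationSubring (A := S.toSubring) J hJne
  refine ⟨B, ?_, fun P hP => ?_⟩
  · have h1 : (p : Kb) ∈ S.toSubring.subtype '' (J : Set S) := by
      refine ⟨_, hpJ, ?_⟩
      show ((algebraMap (ratLocalizedAt p) S (p : ratLocalizedAt p) : S) : Kb) = (p : Kb)
      rw [map_natCast]
      rfl
    exact hB h1
  · have h1 : Φ P ∈ S.toSubring.subtype '' (J : Set S) :=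
      ⟨f P, Ideal.mem_map_of_mem f hP, rfl⟩
    exact (ValuationSubring.mem_nonunits_iff B).1 (hB h1)

/-- **(UNIT) local-to-global lemma**: polynomial expressions in integral coordinates on a finite
set `Y`, one of which is a unit at every point and every place over `p`, generate the unit ideal
of the ring of polynomial functions on `Y`. -/
theorem exists_unit_combination [Fact p.Prime] {Y : Type*} [Finite Y] {ι : Type*}
    {κ : Type*} [Fintype κ] (c : ι → Y → Kb)
    (hint : ∀ i y, IsIntegral (ratLocalizedAt p) (c i y))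
    (d : κ → MvPolynomial ι (ratLocalizedAt p))
    (hd : ∀ y, ∀ A : ValuationSubring Kb, A.LiesOverPrime p →
      ∃ k, A.valuation (MvPolynomial.aeval (fun i => c i y) (d k)) = 1) :
    ∃ u : κ → MvPolynomial ι (ratLocalizedAt p), ∀ y,
      ∑ k, MvPolynomial.aeval (fun i => c i y) (u k) *
        MvPolynomial.aeval (fun i => c i y) (d k) = 1 := by
  classical
  cases nonempty_fintype Y
  let Φ : Y → (MvPolynomial ι (ratLocalizedAt p) →ₐ[ratLocalizedAt p] Kb) :=
    fun y => MvPolynomial.aeval (fun i => c i y)
  let I : Ideal (MvPolynomial ι (ratLocalizedAt p)) :=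
    Ideal.span (Set.range d) ⊔ ⨅ y, RingHom.ker (Φ y)
  have hI : I = ⊤ := by
    by_contra hne
    obtain ⟨n, hn, hIn⟩ := Ideal.exists_le_maximal I hne
    have h1 : ⨅ y, RingHom.ker (Φ y) ≤ n := le_sup_right.trans hIn
    rw [← Finset.inf_univ_eq_iInf] at h1
    obtain ⟨y, -, hy⟩ := (Ideal.IsPrime.inf_le' hn.isPrime).1 h1
    obtain ⟨A, hA, hAn⟩ :=
      exists_valuationSubring_of_maximal (fun i => c i y) (fun i => hint i y) n hn hy
    obtain ⟨k, hk⟩ := hd y A hA
    have h2 : d k ∈ n := hIn (Ideal.mem_sup_left (Ideal.subset_span ⟨k, rfl⟩))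
    exact (ne_of_lt (hAn (d k) h2)) hk
  have h1 : (1 : MvPolynomial ι (ratLocalizedAt p)) ∈ I := hI ▸ Submodule.mem_top
  obtain ⟨s, hs, z, hz, hsz⟩ := Submodule.mem_sup.1 h1
  obtain ⟨u, hu⟩ := Ideal.mem_span_range_iff_exists_fun.1 hs
  refine ⟨u, fun y => ?_⟩
  have hz' : Φ y z = 0 := RingHom.mem_ker.1 (Ideal.mem_iInf.1 hz y)
  have h2 := congrArg (Φ y) hsz
  rw [map_add, hz', add_zero, ← hu, map_sum, map_one] at h2
  rw [← h2]
  exact Finset.sum_congr rfl (fun k _ => (map_mul (Φ y) (u k) (d k)).symm)

/-- **(POLY)**: a function `f` on a finite set `Y` which at every point and every place over `p`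
is a fraction `n k / d k` of polynomial expressions in the integral coordinates `c` with unit
denominator (the relations `f * d k = n k` holding everywhere) is itself a polynomial expression
in the coordinates. -/
theorem exists_poly_of_local_laws [Fact p.Prime] {Y : Type*} [Finite Y] {ι : Type*}
    {κ : Type*} [Finite κ] (c : ι → Y → Kb)
    (hint : ∀ i y, IsIntegral (ratLocalizedAt p) (c i y)) (f : Y → Kb)
    (d n : κ → MvPolynomial ι (ratLocalizedAt p))
    (hlaw : ∀ k y, f y * MvPolynomial.aeval (fun i => c i y) (d k) =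
      MvPolynomial.aeval (fun i => c i y) (n k))
    (hd : ∀ y, ∀ A : ValuationSubring Kb, A.LiesOverPrime p →
      ∃ k, A.valuation (MvPolynomial.aeval (fun i => c i y) (d k)) = 1) :
    ∃ P : MvPolynomial ι (ratLocalizedAt p), ∀ y,
      f y = MvPolynomial.aeval (fun i => c i y) P := by
  classical
  cases nonempty_fintype κ
  obtain ⟨u, hu⟩ := exists_unit_combination c hint d hd
  refine ⟨∑ k, u k * n k, fun y => ?_⟩
  rw [map_sum]
  calc f y = f y * ∑ k, MvPolynomial.aeval (fun i => c i y) (u k) *
        MvPolynomial.aeval (fun i => c i y) (d k) := by rw [hu y, mul_one]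
    _ = ∑ k, MvPolynomial.aeval (fun i => c i y) (u k * n k) := by
        rw [Finset.mul_sum]
        refine Finset.sum_congr rfl (fun k _ => ?_)
        rw [map_mul, ← hlaw k y]
        ring

/-- **(LOC) local form of the coordinate criterion**: as `isFlat_of_coords`, but the addition and
negation laws are only required locally: for every coordinate finitely many fractional laws
`n k / d k`, valid everywhere in the form `c i (w + w') * d k = n k`, such that at every pair of
points and every place over `p` one of the denominators is a unit. -/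
theorem isFlat_of_local_coords [Fact p.Prime] {W : Type} [AddCommGroup W] [Finite W]
    (act : GK → W → W) {ι : Type} [Finite ι] (c : ι → W → Kb)
    (hint : ∀ i w, IsIntegral (ratLocalizedAt p) (c i w))
    (hequiv : ∀ i (σ : GK) w, c i (act σ w) = σ (c i w))
    (hsep : ∀ w w' : W, (∀ i, c i w = c i w') → w = w')
    (hadd : ∀ i, ∃ (κ : Type) (_ : Finite κ)
      (d n : κ → MvPolynomial (ι ⊕ ι) (ratLocalizedAt p)),
      (∀ k w w', c i (w + w') *
          MvPolynomial.aeval (Sum.elim (fun j => c j w) (fun j => c j w')) (d k) =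
        MvPolynomial.aeval (Sum.elim (fun j => c j w) (fun j => c j w')) (n k)) ∧
      (∀ w w', ∀ A : ValuationSubring Kb, A.LiesOverPrime p → ∃ k,
        A.valuation
          (MvPolynomial.aeval (Sum.elim (fun j => c j w) (fun j => c j w')) (d k)) = 1))
    (hneg : ∀ i, ∃ (κ : Type) (_ : Finite κ)
      (d n : κ → MvPolynomial ι (ratLocalizedAt p)),
      (∀ k w, c i (-w) * MvPolynomial.aeval (fun j => c j w) (d k) =
        MvPolynomial.aeval (fun j => c j w) (n k)) ∧
      (∀ w, ∀ A : ValuationSubring Kb, A.LiesOverPrime p → ∃ k,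
        A.valuation (MvPolynomial.aeval (fun j => c j w) (d k)) = 1)) :
    IsFlatGaloisModule p W act := by
  refine isFlat_of_coords act c hint hequiv hsep (fun i => ?_) (fun i => ?_)
  · obtain ⟨κ, hκ, d, n, hlaw, hd⟩ := hadd i
    let c2 : ι ⊕ ι → W × W → Kb :=
      fun j y => Sum.elim (fun j => c j y.1) (fun j => c j y.2) j
    have hc2 : ∀ y : W × W, (fun j => c2 j y) =
        Sum.elim (fun j => c j y.1) (fun j => c j y.2) := fun y => rfl
    have hint2 : ∀ j y, IsIntegral (ratLocalizedAt p) (c2 j y) := by
      intro j y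
      cases j with
      | inl j => exact hint j y.1
      | inr j => exact hint j y.2
    obtain ⟨P, hP⟩ := exists_poly_of_local_laws c2 hint2 (fun y => c i (y.1 + y.2)) d n
      (fun k y => by rw [hc2]; exact hlaw k y.1 y.2)
      (fun y A hA => by rw [hc2]; exact hd y.1 y.2 A hA)
    exact ⟨P, fun w w' => hP (w, w')⟩
  · obtain ⟨κ, hκ, d, n, hlaw, hd⟩ := hneg i
    exact exists_poly_of_local_laws c hint (fun w => c i (-w)) d n hlaw hd

/-- **(LOC)** with a local addition law and a global (polynomial) negation law. -/
theorem isFlat_of_local_add [Fact p.Prime] {W : Type} [AddCommGroup W] [Finite W]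
    (act : GK → W → W) {ι : Type} [Finite ι] (c : ι → W → Kb)
    (hint : ∀ i w, IsIntegral (ratLocalizedAt p) (c i w))
    (hequiv : ∀ i (σ : GK) w, c i (act σ w) = σ (c i w))
    (hsep : ∀ w w' : W, (∀ i, c i w = c i w') → w = w')
    (hadd : ∀ i, ∃ (κ : Type) (_ : Finite κ)
      (d n : κ → MvPolynomial (ι ⊕ ι) (ratLocalizedAt p)),
      (∀ k w w', c i (w + w') *
          MvPolynomial.aeval (Sum.elim (fun j => c j w) (fun j => c j w')) (d k) =
        MvPolynomial.aeval (Sum.elim (fun j => c j w) (fun j => c j w')) (n k)) ∧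
      (∀ w w', ∀ A : ValuationSubring Kb, A.LiesOverPrime p → ∃ k,
        A.valuation
          (MvPolynomial.aeval (Sum.elim (fun j => c j w) (fun j => c j w')) (d k)) = 1))
    (hneg : ∀ i, ∃ P : MvPolynomial ι (ratLocalizedAt p), ∀ w,
      c i (-w) = MvPolynomial.aeval (fun j => c j w) P) :
    IsFlatGaloisModule p W act := by
  refine isFlat_of_local_coords act c hint hequiv hsep hadd (fun i => ?_)
  obtain ⟨P, hP⟩ := hneg i
  refine ⟨Unit, inferInstance, fun _ => 1, fun _ => P, fun _ w => ?_, fun w A _ => ⟨(), ?_⟩⟩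
  · rw [map_one, mul_one, hP]
  · rw [map_one, map_one]

end Fermat.Agent.FlatMod
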