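/-
Lib/FlatMod/OrderOmega: **seat A+ of FF/S19**: the descent datum `Ω` of a separating family in
the ideal form (for `τ ≠ τ'` the differences `θ i τ - θ i τ'` generate the unit ideal of the
integral closure of `ℤ_(p)` in `ℚ̄`), in the local form (at every place over `p` one difference is
a unit) and in the one-place form (at ONE place `A₀`, the places over `p` being conjugate), with
the corresponding forms of the Hopf order criterion (without negation law).
-/
import Mathlib
import Fermat.Agent.Lib.FlatMod.OrderDatum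
import Fermat.Agent.Lib.FlatMod.Unit

set_option autoImplicit false
set_option linter.style.haveILetI false
set_option linter.unusedSectionVars false

namespace Fermat.Agent.FlatMod

open GaloisRep TensorProduct WithConv

local notation "Kb" => AlgebraicClosure ℚ
local notation "GK" => (AlgebraicClosure ℚ ≃ₐ[ℚ] AlgebraicClosure ℚ)
local notation "Bint" p => integralClosure (ratLocalizedAt p) Kb

variable {p : ℕ}

/-- The Lagrange interpolation polynomial of the point `t` for a family `θ` separating the
points by combinations `∑ i ∈ F t t', a t t' i * (θ i t - θ i t') = 1`. -/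
noncomputable def lagrangeSpanPoly {A : Type} [CommRing A] {T J : Type} [Fintype T]
    [DecidableEq T] (θ : J → T → A) (F : T → T → Finset J) (a : T → T → J → A) (t : T) :
    MvPolynomial J A :=
  ∏ t' ∈ Finset.univ.erase t, ∑ i ∈ F t t',
    MvPolynomial.C (a t t' i) * (MvPolynomial.X i - MvPolynomial.C (θ i t'))

theorem eval_lagrangeSpanPoly {A : Type} [CommRing A] {T J : Type} [Fintype T] [DecidableEq T]
    (θ : J → T → A) (F : T → T → Finset J) (a : T → T → J → A)
    (ha : ∀ t t', t ≠ t' → ∑ i ∈ F t t', a t t' i * (θ i t - θ i t') = 1) (t x : T) :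
    MvPolynomial.eval (fun i => θ i x) (lagrangeSpanPoly θ F a t) = if t = x then 1 else 0 := by
  unfold lagrangeSpanPoly
  rw [map_prod]
  simp only [map_sum, map_mul, MvPolynomial.eval_C, map_sub, MvPolynomial.eval_X]
  split_ifs with h
  · subst h
    apply Finset.prod_eq_one
    intro t' ht'
    exact ha t t' (Finset.ne_of_mem_erase ht').symm
  · apply Finset.prod_eq_zero (i := x)
    · exact Finset.mem_erase.2 ⟨fun h' => h h'.symm, Finset.mem_univ _⟩
    · simp

/-- The finite set of monomials used by `DescentDatum.lagrangeSpan`. -/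
noncomputable def lagrangeSpanMonomials {A : Type} [CommRing A] {T J : Type} [Fintype T]
    [DecidableEq T] (θ : J → T → A) (F : T → T → Finset J) (a : T → T → J → A) :
    Finset (J →₀ ℕ) :=
  letI : DecidableEq (J →₀ ℕ) := Classical.decEq _
  Finset.univ.biUnion fun t => (lagrangeSpanPoly θ F a t).support

theorem sum_lagrangeSpanMonomials {A : Type} [CommRing A] {T J : Type} [Fintype T]
    [DecidableEq T] (θ : J → T → A) (F : T → T → Finset J) (a : T → T → J → A)
    (ha : ∀ t t', t ≠ t' → ∑ i ∈ F t t', a t t' i * (θ i t - θ i t') = 1) (t x : T) :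
    ∑ s : {s // s ∈ lagrangeSpanMonomials θ F a},
      (lagrangeSpanPoly θ F a t).coeff s.1 * ∏ i ∈ s.1.support, θ i x ^ s.1 i =
      if t = x then 1 else 0 := by
  rw [← eval_lagrangeSpanPoly θ F a ha t x, MvPolynomial.eval_eq]
  rw [Finset.sum_coe_sort (lagrangeSpanMonomials θ F a)
    (fun s => (lagrangeSpanPoly θ F a t).coeff s * ∏ i ∈ s.support, θ i x ^ s i)]
  symm
  apply Finset.sum_subset
  · intro s hs
    unfold lagrangeSpanMonomials
    letI : DecidableEq (J →₀ ℕ) := Classical.decEq _
    exact Finset.mem_biUnion.2 ⟨t, Finset.mem_univ _, hs⟩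
  · intro s _ hs
    rw [MvPolynomial.notMem_support_iff.1 hs, zero_mul]

/-- The **Lagrange descent datum** of a Galois-stable family of integral functions on `T` whose
differences at any two distinct points generate the unit ideal. -/
noncomputable def DescentDatum.lagrangeSpan {T J : Type} [Fintype T] [DecidableEq T]
    (θ : J → T → Bint p) (perm : GK → T → T)
    (hperm : ∀ (σ : GK) (i : J) (t : T), (θ i (perm σ t) : Kb) = σ (θ i t : Kb))
    (F : T → T → Finset J) (a : T → T → J → Bint p)
    (ha : ∀ t t', t ≠ t' → ∑ i ∈ F t t', a t t' i * (θ i t - θ i t') = 1) :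
    DescentDatum p T {s // s ∈ lagrangeSpanMonomials θ F a} where
  perm := perm
  perm_bij := fun σ => by
    have h1 : Function.Injective (perm σ) := by
      intro t t' h
      by_contra hne
      have h4 : ∀ i, θ i t = θ i t' := by
        intro i
        have h2 := hperm σ i t
        have h3 := hperm σ i t'
        rw [h] at h2
        exact Subtype.ext (σ.injective (h2.symm.trans h3))
      have h5 := ha t t' hne
      simp only [h4, sub_self, mul_zero, Finset.sum_const_zero] at h5
      exact zero_ne_one h5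
    exact Finite.injective_iff_bijective.1 h1
  Ω := Matrix.of fun s t => ∏ i ∈ s.1.support, θ i t ^ s.1 i
  Ω' := Matrix.of fun t s => (lagrangeSpanPoly θ F a t).coeff s.1
  inv := by
    refine Matrix.ext fun t x => ?_
    rw [Matrix.mul_apply, Matrix.one_apply]
    simp only [Matrix.of_apply]
    exact sum_lagrangeSpanMonomials θ F a ha t x
  eqv := fun σ s t => by
    simp only [Matrix.of_apply, SubmonoidClass.coe_finsetProd, SubmonoidClass.coe_pow, map_prod,
      map_pow]
    apply Finset.prod_congr rfl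
    intro i _
    rw [hperm]

/-- **Hopf order criterion, ideal form of (B')** (seat A+): `T` carries a Galois-equivariant
family of integral functions `θ i` such that for `t ≠ t'` the differences `θ i t - θ i t'`
generate the unit ideal of the integral closure of `ℤ_(p)` in `ℚ̄`.  No negation law. -/
theorem isFlat_of_coords_span' [Fact p.Prime] {W : Type} [AddCommGroup W] [Finite W]
    (act : GK → W → W) (hact : ∀ (σ : GK) (w w' : W), act σ (w + w') = act σ w + act σ w')
    {T J ι : Type} [Finite T] [Finite ι]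
    (perm : GK → T → T)
    (θ : J → T → Kb) (hθint : ∀ i t, IsIntegral (ratLocalizedAt p) (θ i t))
    (hθeq : ∀ (σ : GK) i t, θ i (perm σ t) = σ (θ i t))
    (hθsep : ∀ t t', t ≠ t' → ∃ (F : Finset J) (a : J → Kb),
      (∀ i, IsIntegral (ratLocalizedAt p) (a i)) ∧ ∑ i ∈ F, a i * (θ i t - θ i t') = 1)
    (c : T → ι → W → Kb)
    (hint : ∀ τ i w, IsIntegral (ratLocalizedAt p) (c τ i w))
    (hequiv : ∀ τ i (σ : GK) w, c (perm σ τ) i (act σ w) = σ (c τ i w))
    (hsep : ∀ w w' : W, (∀ τ i, c τ i w = c τ i w') → w = w')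
    (hadd : ∀ τ i, ∃ P : MvPolynomial ((T × ι) ⊕ (T × ι)) (Bint p), ∀ w w',
      c τ i (w + w') =
        MvPolynomial.aeval (Sum.elim (fun k => c k.1 k.2 w) (fun k => c k.1 k.2 w')) P) :
    IsFlatGaloisModule p W act := by
  classical
  letI : Fintype T := Fintype.ofFinite T
  let θ' : J → T → Bint p := fun i t => ⟨θ i t, hθint i t⟩
  have hex : ∀ t t' : T, ∃ Fa : Finset J × (J → Bint p),
      t ≠ t' → ∑ i ∈ Fa.1, Fa.2 i * (θ' i t - θ' i t') = 1 := by
    intro t t'
    by_cases h : t = t'
    · exact ⟨(∅, 0), fun h' => absurd h h'⟩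
    · obtain ⟨F, a, ha, h1⟩ := hθsep t t' h
      refine ⟨(F, fun i => ⟨a i, ha i⟩), fun _ => Subtype.ext ?_⟩
      rw [AddSubmonoidClass.coe_finsetSum]
      exact h1
  choose Fa hFa using hex
  have hneg := fun τ i => exists_neg_poly (A := Bint p) (fun k : T × ι => c k.1 k.2)
      (fun k => ⟨⟨c k.1 k.2 0, hint k.1 k.2 0⟩, rfl⟩) (fun k => hadd k.1 k.2) (τ, i)
  exact isFlat_of_coords_datum act hact
    (DescentDatum.lagrangeSpan θ' perm (fun σ i t => hθeq σ i t) (fun t t' => (Fa t t').1)
      (fun t t' => (Fa t t').2) hFa)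
    c hint hequiv hsep hadd hneg

/-- Finitely many integral elements one of which is a unit at every place over `p` generate the
unit ideal of the integral closure. -/
theorem exists_combination_of_local_unit [Fact p.Prime] {J : Type} [Finite J] (δ : J → Kb)
    (hδ : ∀ i, IsIntegral (ratLocalizedAt p) (δ i))
    (hloc : ∀ A : ValuationSubring Kb, A.LiesOverPrime p → ∃ i, A.valuation (δ i) = 1) :
    ∃ a : J → Kb, ∃ F : Finset J,
      (∀ i, IsIntegral (ratLocalizedAt p) (a i)) ∧ ∑ i ∈ F, a i * δ i = 1 := by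
  classical
  letI : Fintype J := Fintype.ofFinite J
  obtain ⟨u, hu⟩ := exists_unit_combination (p := p) (Y := Unit) (ι := J) (κ := J)
    (fun i _ => δ i) (fun i _ => hδ i) (fun i => MvPolynomial.X i)
    (fun _ A hA => by
      obtain ⟨i, hi⟩ := hloc A hA
      exact ⟨i, by rw [MvPolynomial.aeval_X]; exact hi⟩)
  refine ⟨fun i => MvPolynomial.aeval (fun j => δ j) (u i), Finset.univ,
    fun i => isIntegral_aeval_of_isIntegral _ hδ _, ?_⟩
  have := hu ()
  simp only [MvPolynomial.aeval_X] at this
  exact this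

/-- **Hopf order criterion, local form of (B')**: at every place over `p` and for any two
distinct points of `T` one of the differences `θ i t - θ i t'` is a unit.  No negation law. -/
theorem isFlat_of_coords_local' [Fact p.Prime] {W : Type} [AddCommGroup W] [Finite W]
    (act : GK → W → W) (hact : ∀ (σ : GK) (w w' : W), act σ (w + w') = act σ w + act σ w')
    {T J ι : Type} [Finite T] [Finite J] [Finite ι]
    (perm : GK → T → T)
    (θ : J → T → Kb) (hθint : ∀ i t, IsIntegral (ratLocalizedAt p) (θ i t))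
    (hθeq : ∀ (σ : GK) i t, θ i (perm σ t) = σ (θ i t))
    (hθsep : ∀ t t', t ≠ t' → ∀ A : ValuationSubring Kb, A.LiesOverPrime p →
      ∃ i, A.valuation (θ i t - θ i t') = 1)
    (c : T → ι → W → Kb)
    (hint : ∀ τ i w, IsIntegral (ratLocalizedAt p) (c τ i w))
    (hequiv : ∀ τ i (σ : GK) w, c (perm σ τ) i (act σ w) = σ (c τ i w))
    (hsep : ∀ w w' : W, (∀ τ i, c τ i w = c τ i w') → w = w')
    (hadd : ∀ τ i, ∃ P : MvPolynomial ((T × ι) ⊕ (T × ι)) (Bint p), ∀ w w',
      c τ i (w + w') =
        MvPolynomial.aeval (Sum.elim (fun k => c k.1 k.2 w) (fun k => c k.1 k.2 w')) P) :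
    IsFlatGaloisModule p W act := by
  refine isFlat_of_coords_span' act hact perm θ hθint hθeq ?_ c hint hequiv hsep hadd
  intro t t' hne
  obtain ⟨a, F, ha, h1⟩ := exists_combination_of_local_unit (p := p)
    (fun i => θ i t - θ i t') (fun i => (hθint i t).sub (hθint i t')) (hθsep t t' hne)
  exact ⟨F, a, ha, h1⟩

/-- A unit of the valuation ring `A₀` is mapped to a unit of `A` by an automorphism mapping `A₀`
into `A`. -/
theorem valuation_map_eq_one {A₀ A : ValuationSubring Kb} (σ : GK)
    (hσ : ∀ x : Kb, x ∈ A₀ → σ x ∈ A) {u : Kb} (hu : A₀.valuation u = 1) :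
    A.valuation (σ u) = 1 := by
  have hu0 : u ≠ 0 := by
    rintro rfl
    rw [map_zero] at hu
    exact zero_ne_one hu
  have h1 : u ∈ A₀ := (ValuationSubring.valuation_le_one_iff A₀ u).1 hu.le
  have h2 : u⁻¹ ∈ A₀ := by
    apply (ValuationSubring.valuation_le_one_iff A₀ u⁻¹).1
    rw [map_inv₀, hu, inv_one]
  have h3 : A.valuation (σ u) ≤ 1 := (ValuationSubring.valuation_le_one_iff A _).2 (hσ u h1)
  have h4 : A.valuation (σ u)⁻¹ ≤ 1 := by
    apply (ValuationSubring.valuation_le_one_iff A _).2
    rw [← map_inv₀]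
    exact hσ _ h2
  have h5 : σ u ≠ 0 := fun h => hu0 ((map_eq_zero σ).1 h)
  have h6 : A.valuation (σ u) ≠ 0 := (Valuation.ne_zero_iff _).2 h5
  rw [map_inv₀] at h4
  have h7 : 1 ≤ A.valuation (σ u) := by
    by_contra hlt
    push Not at hlt
    have := (one_lt_inv₀ (zero_lt_iff.2 h6)).2 hlt
    exact absurd h4 (not_le.2 this)
  exact le_antisymm h3 h7

/-- **Hopf order criterion, one-place form of (B')**: the points of `T` are separated by units
at ONE place `A₀`, and every place over `p` is conjugate to `A₀`.  No negation law. -/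
theorem isFlat_of_coords_place' [Fact p.Prime] {W : Type} [AddCommGroup W] [Finite W]
    (act : GK → W → W) (hact : ∀ (σ : GK) (w w' : W), act σ (w + w') = act σ w + act σ w')
    {T J ι : Type} [Finite T] [Finite J] [Finite ι]
    (perm : GK → T → T)
    (θ : J → T → Kb) (hθint : ∀ i t, IsIntegral (ratLocalizedAt p) (θ i t))
    (hθeq : ∀ (σ : GK) i t, θ i (perm σ t) = σ (θ i t))
    (A₀ : ValuationSubring Kb)
    (htrans : ∀ A : ValuationSubring Kb, A.LiesOverPrime p →
      ∃ σ : GK, ∀ x : Kb, x ∈ A₀ → σ x ∈ A)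
    (hθsep : ∀ t t', t ≠ t' → ∃ i, A₀.valuation (θ i t - θ i t') = 1)
    (c : T → ι → W → Kb)
    (hint : ∀ τ i w, IsIntegral (ratLocalizedAt p) (c τ i w))
    (hequiv : ∀ τ i (σ : GK) w, c (perm σ τ) i (act σ w) = σ (c τ i w))
    (hsep : ∀ w w' : W, (∀ τ i, c τ i w = c τ i w') → w = w')
    (hadd : ∀ τ i, ∃ P : MvPolynomial ((T × ι) ⊕ (T × ι)) (Bint p), ∀ w w',
      c τ i (w + w') =
        MvPolynomial.aeval (Sum.elim (fun k => c k.1 k.2 w) (fun k => c k.1 k.2 w')) P) :
    IsFlatGaloisModule p W act := by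
  have hinj : ∀ σ : GK, Function.Injective (perm σ) := by
    intro σ t t' h
    by_contra hne
    obtain ⟨i, hi⟩ := hθsep t t' hne
    have h2 := hθeq σ i t
    rw [h, hθeq σ i t'] at h2
    have h3 : θ i t = θ i t' := (σ.injective h2).symm
    rw [h3, sub_self, map_zero] at hi
    exact zero_ne_one hi
  have hsurj : ∀ σ : GK, Function.Surjective (perm σ) :=
    fun σ => Finite.surjective_of_injective (hinj σ)
  refine isFlat_of_coords_local' act hact perm θ hθint hθeq ?_ c hint hequiv hsep hadd
  intro t t' hne A hA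
  obtain ⟨σ, hσ⟩ := htrans A hA
  obtain ⟨t₀, rfl⟩ := hsurj σ t
  obtain ⟨t₀', rfl⟩ := hsurj σ t'
  have hne0 : t₀ ≠ t₀' := fun h => hne (by rw [h])
  obtain ⟨i, hi⟩ := hθsep t₀ t₀' hne0
  refine ⟨i, ?_⟩
  rw [hθeq, hθeq, ← map_sub]
  exact valuation_map_eq_one σ hσ hi

/-- **Hopf order criterion for a product of fibres, one-place form**: the coordinates are
indexed by the tuples `τ = (P_i)_i`, `P_i` in a finite Galois set `Fib i` on which finitely many
integral equivariant functions `s i j` are given, separating the points of `Fib i` by units at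
ONE place `A₀`; every place over `p` is conjugate to `A₀`.  No negation law. -/
theorem isFlat_of_coords_fibres [Fact p.Prime] {W : Type} [AddCommGroup W] [Finite W]
    (act : GK → W → W) (hact : ∀ (σ : GK) (w w' : W), act σ (w + w') = act σ w + act σ w')
    {n J ι : Type} [Finite n] [Finite J] [Finite ι] {Fib : n → Type} [∀ i, Finite (Fib i)]
    (perm : ∀ i, GK → Fib i → Fib i)
    (s : ∀ i, J → Fib i → Kb)
    (hsint : ∀ i j P, IsIntegral (ratLocalizedAt p) (s i j P))
    (hseq : ∀ i j (σ : GK) P, s i j (perm i σ P) = σ (s i j P))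
    (A₀ : ValuationSubring Kb)
    (htrans : ∀ A : ValuationSubring Kb, A.LiesOverPrime p →
      ∃ σ : GK, ∀ x : Kb, x ∈ A₀ → σ x ∈ A)
    (hunit : ∀ i (P P' : Fib i), P ≠ P' → ∃ j, A₀.valuation (s i j P - s i j P') = 1)
    (c : (∀ i, Fib i) → ι → W → Kb)
    (hint : ∀ τ j w, IsIntegral (ratLocalizedAt p) (c τ j w))
    (hequiv : ∀ τ j (σ : GK) w, c (fun i => perm i σ (τ i)) j (act σ w) = σ (c τ j w))
    (hsep : ∀ w w' : W, (∀ τ j, c τ j w = c τ j w') → w = w')
    (hadd : ∀ τ j, ∃ P : MvPolynomial (((∀ i, Fib i) × ι) ⊕ ((∀ i, Fib i) × ι)) (Bint p),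
      ∀ w w', c τ j (w + w') =
        MvPolynomial.aeval (Sum.elim (fun k => c k.1 k.2 w) (fun k => c k.1 k.2 w')) P) :
    IsFlatGaloisModule p W act := by
  classical
  refine isFlat_of_coords_place' act hact (T := ∀ i, Fib i) (J := n × J)
    (fun σ τ i => perm i σ (τ i)) (fun k τ => s k.1 k.2 (τ k.1))
    (fun k τ => hsint k.1 k.2 (τ k.1)) (fun σ k τ => hseq k.1 k.2 σ (τ k.1)) A₀ htrans ?_
    c hint hequiv hsep hadd
  intro τ τ' hne
  obtain ⟨i, hi⟩ := Function.ne_iff.1 hne
  obtain ⟨j, hj⟩ := hunit i (τ i) (τ' i) hi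
  exact ⟨(i, j), hj⟩

end Fermat.Agent.FlatMod
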