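/-
Lib/FlatMod/OrderPlace: the one-place forms of the Hopf order criterion with the conjugacy of the
places of `ℚ̄` over `p` (seat PL of FF/S19, `Lib/FF/PlacesQbar`) plugged in.
-/
import Mathlib
import Fermat.Agent.Lib.FlatMod.OrderOmega
import Fermat.Agent.Lib.FF.PlacesQbar

set_option autoImplicit false
set_option linter.style.haveILetI false
set_option linter.unusedSectionVars false

namespace Fermat.Agent.FlatMod

open GaloisRep TensorProduct WithConv
open scoped Pointwise

local notation "Kb" => AlgebraicClosure ℚ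
local notation "GK" => (AlgebraicClosure ℚ ≃ₐ[ℚ] AlgebraicClosure ℚ)
local notation "Bint" p => integralClosure (ratLocalizedAt p) Kb

variable {p : ℕ}

/-- Every place of `ℚ̄` over `p` is conjugate to a given one. -/
theorem exists_gal_map_mem [Fact p.Prime] (A₀ : ValuationSubring Kb)
    (hA₀ : A₀.LiesOverPrime p) (A : ValuationSubring Kb) (hA : A.LiesOverPrime p) :
    ∃ σ : GK, ∀ x : Kb, x ∈ A₀ → σ x ∈ A := by
  obtain ⟨σ, hσ⟩ := Fermat.Agent.FF.exists_smul_eq_of_liesOverPrime A₀ A hA₀ hA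
  refine ⟨σ, fun x hx => ?_⟩
  rw [← hσ]
  exact ValuationSubring.smul_mem_pointwise_smul_iff.2 hx

/-- **Hopf order criterion, one-place form**: the points of `T` are separated by units at ONE
place `A₀` over `p`.  No negation law, no conjugacy hypothesis. -/
theorem isFlat_of_coords_place [Fact p.Prime] {W : Type} [AddCommGroup W] [Finite W]
    (act : GK → W → W) (hact : ∀ (σ : GK) (w w' : W), act σ (w + w') = act σ w + act σ w')
    {T J ι : Type} [Finite T] [Finite J] [Finite ι]
    (perm : GK → T → T)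
    (θ : J → T → Kb) (hθint : ∀ i t, IsIntegral (ratLocalizedAt p) (θ i t))
    (hθeq : ∀ (σ : GK) i t, θ i (perm σ t) = σ (θ i t))
    (A₀ : ValuationSubring Kb) (hA₀ : A₀.LiesOverPrime p)
    (hθsep : ∀ t t', t ≠ t' → ∃ i, A₀.valuation (θ i t - θ i t') = 1)
    (c : T → ι → W → Kb)
    (hint : ∀ τ i w, IsIntegral (ratLocalizedAt p) (c τ i w))
    (hequiv : ∀ τ i (σ : GK) w, c (perm σ τ) i (act σ w) = σ (c τ i w))
    (hsep : ∀ w w' : W, (∀ τ i, c τ i w = c τ i w') → w = w')
    (hadd : ∀ τ i, ∃ P : MvPolynomial ((T × ι) ⊕ (T × ι)) (Bint p), ∀ w w',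
      c τ i (w + w') =
        MvPolynomial.aeval (Sum.elim (fun k => c k.1 k.2 w) (fun k => c k.1 k.2 w')) P) :
    IsFlatGaloisModule p W act :=
  isFlat_of_coords_place' act hact perm θ hθint hθeq A₀ (exists_gal_map_mem A₀ hA₀) hθsep
    c hint hequiv hsep hadd

/-- **Hopf order criterion for a product of fibres, one-place form**, without conjugacy
hypothesis: the form called by the assembly of FF/S19. -/
theorem isFlat_of_coords_fibres' [Fact p.Prime] {W : Type} [AddCommGroup W] [Finite W]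
    (act : GK → W → W) (hact : ∀ (σ : GK) (w w' : W), act σ (w + w') = act σ w + act σ w')
    {n J ι : Type} [Finite n] [Finite J] [Finite ι] {Fib : n → Type} [∀ i, Finite (Fib i)]
    (perm : ∀ i, GK → Fib i → Fib i)
    (s : ∀ i, J → Fib i → Kb)
    (hsint : ∀ i j P, IsIntegral (ratLocalizedAt p) (s i j P))
    (hseq : ∀ i j (σ : GK) P, s i j (perm i σ P) = σ (s i j P))
    (A₀ : ValuationSubring Kb) (hA₀ : A₀.LiesOverPrime p)
    (hunit : ∀ i (P P' : Fib i), P ≠ P' → ∃ j, A₀.valuation (s i j P - s i j P') = 1)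
    (c : (∀ i, Fib i) → ι → W → Kb)
    (hint : ∀ τ j w, IsIntegral (ratLocalizedAt p) (c τ j w))
    (hequiv : ∀ τ j (σ : GK) w, c (fun i => perm i σ (τ i)) j (act σ w) = σ (c τ j w))
    (hsep : ∀ w w' : W, (∀ τ j, c τ j w = c τ j w') → w = w')
    (hadd : ∀ τ j, ∃ P : MvPolynomial (((∀ i, Fib i) × ι) ⊕ ((∀ i, Fib i) × ι)) (Bint p),
      ∀ w w', c τ j (w + w') =
        MvPolynomial.aeval (Sum.elim (fun k => c k.1 k.2 w) (fun k => c k.1 k.2 w')) P) :
    IsFlatGaloisModule p W act :=
  isFlat_of_coords_fibres act hact perm s hsint hseq A₀ (exists_gal_map_mem A₀ hA₀) hunit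
    c hint hequiv hsep hadd

end Fermat.Agent.FlatMod
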