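/-
Lib/FlatMod/OrderZones: the Hopf order criterion with ZONES (helper57).

`W` a finite Galois module with a Galois-invariant additive map `m : W → Z` to a finite set with an
addition (for instance the projection of a Kummer extension `E_P` of `ℤ/n` by `J[n]` to `ℤ/n`).
The coordinates `c τ i` are integral and equivariant, separate the points of every fibre of `m`,
and the addition law is given, ON EVERY ZONE `{m w = z, m w' = z'}`, by a polynomial with integral
coefficients in the coordinates (the polynomial may depend on the zone: "carry").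
Then `W` is a flat Galois module.

Proof: add the indicator functions of the fibres of `m` to the coordinates.
-/
import Mathlib
import Fermat.Agent.Lib.FlatMod.OrderPlace

set_option autoImplicit false
set_option linter.style.haveILetI false
set_option linter.unusedSectionVars false

namespace Fermat.Agent.FlatMod

open GaloisRep TensorProduct WithConv
open scoped Pointwise

local notation "Kb" => AlgebraicClosure ℚ
local notation "GK" => (AlgebraicClosure ℚ ≃ₐ[ℚ] AlgebraicClosure ℚ)
local notation "Bint" p => integralClosure (ratLocalizedAt p) Kb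

variable {p : ℕ}

/-- The coordinates with the indicator functions of the zones added. -/
noncomputable def zoneCoord {W T ι Z : Type} [DecidableEq Z] (c : T → ι → W → Kb) (m : W → Z) :
    T → (ι ⊕ Z) → W → Kb :=
  fun τ k w => Sum.elim (fun i => c τ i w) (fun z => if m w = z then 1 else 0) k

@[simp] theorem zoneCoord_inl {W T ι Z : Type} [DecidableEq Z] (c : T → ι → W → Kb) (m : W → Z)
    (τ : T) (i : ι) (w : W) : zoneCoord c m τ (Sum.inl i) w = c τ i w := rfl

@[simp] theorem zoneCoord_inr {W T ι Z : Type} [DecidableEq Z] (c : T → ι → W → Kb) (m : W → Z)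
    (τ : T) (z : Z) (w : W) : zoneCoord c m τ (Sum.inr z) w = if m w = z then 1 else 0 := rfl

/-- The inclusion of the old variables into the new ones. -/
def zoneVar (T ι Z : Type) : (T × ι) ⊕ (T × ι) → (T × (ι ⊕ Z)) ⊕ (T × (ι ⊕ Z)) :=
  Sum.map (Prod.map id Sum.inl) (Prod.map id Sum.inl)

theorem zoneCoord_comp_zoneVar {W T ι Z : Type} [DecidableEq Z] (c : T → ι → W → Kb) (m : W → Z)
    (w w' : W) :
    (Sum.elim (fun k : T × (ι ⊕ Z) => zoneCoord c m k.1 k.2 w)
        (fun k : T × (ι ⊕ Z) => zoneCoord c m k.1 k.2 w')) ∘ zoneVar T ι Z =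
      Sum.elim (fun k : T × ι => c k.1 k.2 w) (fun k : T × ι => c k.1 k.2 w') := by
  funext k
  rcases k with k | k <;> rfl

/-- The addition polynomial of an old coordinate in the new coordinates. -/
noncomputable def zoneAddPoly {T ι Z : Type} [Fintype Z] (τ : T)
    (P : Z → Z → MvPolynomial ((T × ι) ⊕ (T × ι)) (Bint p)) :
    MvPolynomial ((T × (ι ⊕ Z)) ⊕ (T × (ι ⊕ Z))) (Bint p) :=
  ∑ z : Z, ∑ z' : Z, MvPolynomial.X (Sum.inl (τ, Sum.inr z)) *
    MvPolynomial.X (Sum.inr (τ, Sum.inr z')) * MvPolynomial.rename (zoneVar T ι Z) (P z z')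

theorem aeval_zoneAddPoly {W T ι Z : Type} [Fintype Z] [DecidableEq Z] (c : T → ι → W → Kb)
    (m : W → Z) (τ : T) (P : Z → Z → MvPolynomial ((T × ι) ⊕ (T × ι)) (Bint p)) (w w' : W) :
    MvPolynomial.aeval (Sum.elim (fun k : T × (ι ⊕ Z) => zoneCoord c m k.1 k.2 w)
        (fun k : T × (ι ⊕ Z) => zoneCoord c m k.1 k.2 w')) (zoneAddPoly τ P) =
      MvPolynomial.aeval (Sum.elim (fun k : T × ι => c k.1 k.2 w)
        (fun k : T × ι => c k.1 k.2 w')) (P (m w) (m w')) := by
  unfold zoneAddPoly
  simp only [map_sum, map_mul, MvPolynomial.aeval_X, MvPolynomial.aeval_rename,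
    zoneCoord_comp_zoneVar, Sum.elim_inl, Sum.elim_inr, zoneCoord_inr]
  rw [Finset.sum_eq_single (m w)]
  · rw [Finset.sum_eq_single (m w')]
    · rw [if_pos rfl, if_pos rfl, one_mul, one_mul]
    · intro z' _ hz'
      rw [if_neg (Ne.symm hz'), mul_zero, zero_mul]
    · intro h
      exact absurd (Finset.mem_univ _) h
  · intro z _ hz
    refine Finset.sum_eq_zero fun z' _ => ?_
    rw [if_neg (Ne.symm hz), zero_mul, zero_mul]
  · intro h
    exact absurd (Finset.mem_univ _) h

/-- The addition polynomial of an indicator coordinate. -/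
noncomputable def zoneIndPoly {T : Type} (ι : Type) {Z : Type} [Fintype Z] [DecidableEq Z] [Add Z]
    (τ : T) (z : Z) : MvPolynomial ((T × (ι ⊕ Z)) ⊕ (T × (ι ⊕ Z))) (Bint p) :=
  ∑ z₁ : Z, ∑ z₂ : Z, if z₁ + z₂ = z then
    MvPolynomial.X (Sum.inl (τ, Sum.inr z₁)) * MvPolynomial.X (Sum.inr (τ, Sum.inr z₂)) else 0

theorem aeval_zoneIndPoly {W T ι Z : Type} [Fintype Z] [DecidableEq Z] [Add Z]
    (c : T → ι → W → Kb) (m : W → Z) (τ : T) (z : Z) (w w' : W) :
    MvPolynomial.aeval (Sum.elim (fun k : T × (ι ⊕ Z) => zoneCoord c m k.1 k.2 w)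
        (fun k : T × (ι ⊕ Z) => zoneCoord c m k.1 k.2 w')) (zoneIndPoly (p := p) ι τ z) =
      if m w + m w' = z then 1 else 0 := by
  unfold zoneIndPoly
  simp only [map_sum]
  rw [Finset.sum_eq_single (m w)]
  · rw [Finset.sum_eq_single (m w')]
    · by_cases h : m w + m w' = z
      · rw [if_pos h, if_pos h, map_mul, MvPolynomial.aeval_X, MvPolynomial.aeval_X,
          Sum.elim_inl, Sum.elim_inr, zoneCoord_inr, zoneCoord_inr, if_pos rfl, if_pos rfl,
          one_mul]
      · rw [if_neg h, if_neg h, map_zero]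
    · intro z₂ _ hz₂
      by_cases h : m w + z₂ = z
      · rw [if_pos h, map_mul, MvPolynomial.aeval_X, MvPolynomial.aeval_X,
          Sum.elim_inl, Sum.elim_inr, zoneCoord_inr, zoneCoord_inr, if_neg (Ne.symm hz₂),
          mul_zero]
      · rw [if_neg h, map_zero]
    · intro h
      exact absurd (Finset.mem_univ _) h
  · intro z₁ _ hz₁
    refine Finset.sum_eq_zero fun z₂ _ => ?_
    by_cases h : z₁ + z₂ = z
    · rw [if_pos h, map_mul, MvPolynomial.aeval_X, MvPolynomial.aeval_X,
        Sum.elim_inl, Sum.elim_inr, zoneCoord_inr, zoneCoord_inr, if_neg (Ne.symm hz₁),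
        zero_mul]
    · rw [if_neg h, map_zero]
  · intro h
    exact absurd (Finset.mem_univ _) h

/-- **Hopf order criterion with zones, one-place form**, `T` nonempty. -/
theorem isFlat_of_coords_place_zones_aux [Fact p.Prime] {W : Type} [AddCommGroup W] [Finite W]
    (act : GK → W → W) (hact : ∀ (σ : GK) (w w' : W), act σ (w + w') = act σ w + act σ w')
    {T J ι : Type} [Finite T] [Finite J] [Finite ι]
    (perm : GK → T → T)
    (θ : J → T → Kb) (hθint : ∀ i t, IsIntegral (ratLocalizedAt p) (θ i t))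
    (hθeq : ∀ (σ : GK) i t, θ i (perm σ t) = σ (θ i t))
    (A₀ : ValuationSubring Kb) (hA₀ : A₀.LiesOverPrime p)
    (hθsep : ∀ t t', t ≠ t' → ∃ i, A₀.valuation (θ i t - θ i t') = 1)
    (c : T → ι → W → Kb)
    (hint : ∀ τ i w, IsIntegral (ratLocalizedAt p) (c τ i w))
    (hequiv : ∀ τ i (σ : GK) w, c (perm σ τ) i (act σ w) = σ (c τ i w))
    {Z : Type} [Finite Z] [Add Z] (m : W → Z) (hm : ∀ w w', m (w + w') = m w + m w')
    (hminv : ∀ (σ : GK) w, m (act σ w) = m w)
    (hT : Nonempty T)
    (hsep : ∀ w w' : W, m w = m w' → (∀ τ i, c τ i w = c τ i w') → w = w')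
    (hadd : ∀ (z z' : Z) τ i, ∃ P : MvPolynomial ((T × ι) ⊕ (T × ι)) (Bint p), ∀ w w',
      m w = z → m w' = z' → c τ i (w + w') =
        MvPolynomial.aeval (Sum.elim (fun k => c k.1 k.2 w) (fun k => c k.1 k.2 w')) P) :
    IsFlatGaloisModule p W act := by
  classical
  haveI : Fintype Z := Fintype.ofFinite Z
  refine isFlat_of_coords_place act hact perm θ hθint hθeq A₀ hA₀ hθsep
    (ι := ι ⊕ Z) (zoneCoord c m) ?_ ?_ ?_ ?_
  · rintro τ (i | z) w
    · exact hint τ i w
    · rw [zoneCoord_inr]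
      split_ifs
      · exact isIntegral_one
      · exact isIntegral_zero
  · rintro τ (i | z) σ w
    · exact hequiv τ i σ w
    · rw [zoneCoord_inr, zoneCoord_inr, hminv]
      split_ifs
      · rw [map_one]
      · rw [map_zero]
  · intro w w' h
    refine hsep w w' ?_ fun τ i => h τ (Sum.inl i)
    obtain ⟨τ⟩ := hT
    have h1 := h τ (Sum.inr (m w))
    rw [zoneCoord_inr, zoneCoord_inr, if_pos rfl] at h1
    by_contra hne
    rw [if_neg (Ne.symm hne)] at h1
    exact one_ne_zero h1
  · rintro τ (i | z)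
    · choose P hP using fun z z' => hadd z z' τ i
      refine ⟨zoneAddPoly τ P, fun w w' => ?_⟩
      rw [aeval_zoneAddPoly, zoneCoord_inl]
      exact hP (m w) (m w') w w' rfl rfl
    · refine ⟨zoneIndPoly ι τ z, fun w w' => ?_⟩
      rw [aeval_zoneIndPoly, zoneCoord_inr, hm]

/-- **Hopf order criterion with zones, one-place form**: the addition law is polynomial with
integral coefficients on every zone `{m w = z, m w' = z'}`, `m : W → Z` additive and
Galois-invariant, and the coordinates separate the points of every fibre of `m`. -/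
theorem isFlat_of_coords_place_zones [Fact p.Prime] {W : Type} [AddCommGroup W] [Finite W]
    (act : GK → W → W) (hact : ∀ (σ : GK) (w w' : W), act σ (w + w') = act σ w + act σ w')
    {T J ι : Type} [Finite T] [Finite J] [Finite ι]
    (perm : GK → T → T)
    (θ : J → T → Kb) (hθint : ∀ i t, IsIntegral (ratLocalizedAt p) (θ i t))
    (hθeq : ∀ (σ : GK) i t, θ i (perm σ t) = σ (θ i t))
    (A₀ : ValuationSubring Kb) (hA₀ : A₀.LiesOverPrime p)
    (hθsep : ∀ t t', t ≠ t' → ∃ i, A₀.valuation (θ i t - θ i t') = 1)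
    (c : T → ι → W → Kb)
    (hint : ∀ τ i w, IsIntegral (ratLocalizedAt p) (c τ i w))
    (hequiv : ∀ τ i (σ : GK) w, c (perm σ τ) i (act σ w) = σ (c τ i w))
    {Z : Type} [Finite Z] [Add Z] (m : W → Z) (hm : ∀ w w', m (w + w') = m w + m w')
    (hminv : ∀ (σ : GK) w, m (act σ w) = m w)
    (hsep : ∀ w w' : W, m w = m w' → (∀ τ i, c τ i w = c τ i w') → w = w')
    (hadd : ∀ (z z' : Z) τ i, ∃ P : MvPolynomial ((T × ι) ⊕ (T × ι)) (Bint p), ∀ w w',
      m w = z → m w' = z' → c τ i (w + w') =
        MvPolynomial.aeval (Sum.elim (fun k => c k.1 k.2 w) (fun k => c k.1 k.2 w')) P) :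
    IsFlatGaloisModule p W act := by
  rcases isEmpty_or_nonempty T with hT | hT
  · -- no coordinates: `m` is injective; use the indicator functions alone
    refine isFlat_of_coords_place_zones_aux act hact (T := PUnit) (J := PEmpty) (ι := PEmpty)
      (fun _ t => t) (fun i _ => i.elim) (fun i => i.elim) (fun _ i => i.elim) A₀ hA₀
      (fun t t' h => absurd (Subsingleton.elim t t') h)
      (fun _ i _ => i.elim) (fun _ i => i.elim) (fun _ i => i.elim) m hm hminv ⟨PUnit.unit⟩
      (fun w w' h _ => hsep w w' h fun τ => (hT.false τ).elim)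
      (fun _ _ _ i => i.elim)
  · exact isFlat_of_coords_place_zones_aux act hact perm θ hθint hθeq A₀ hA₀ hθsep c hint hequiv
      m hm hminv hT hsep hadd

/-- **Hopf order criterion with zones for a product of fibres, one-place form**: the form of
`isFlat_of_coords_fibres'` with a zone-dependent addition polynomial. -/
theorem isFlat_of_coords_fibres_zones [Fact p.Prime] {W : Type} [AddCommGroup W] [Finite W]
    (act : GK → W → W) (hact : ∀ (σ : GK) (w w' : W), act σ (w + w') = act σ w + act σ w')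
    {n J ι : Type} [Finite n] [Finite J] [Finite ι] {Fib : n → Type} [∀ i, Finite (Fib i)]
    (perm : ∀ i, GK → Fib i → Fib i)
    (s : ∀ i, J → Fib i → Kb)
    (hsint : ∀ i j P, IsIntegral (ratLocalizedAt p) (s i j P))
    (hseq : ∀ i j (σ : GK) P, s i j (perm i σ P) = σ (s i j P))
    (A₀ : ValuationSubring Kb) (hA₀ : A₀.LiesOverPrime p)
    (hunit : ∀ i (P P' : Fib i), P ≠ P' → ∃ j, A₀.valuation (s i j P - s i j P') = 1)
    (c : (∀ i, Fib i) → ι → W → Kb)
    (hint : ∀ τ j w, IsIntegral (ratLocalizedAt p) (c τ j w))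
    (hequiv : ∀ τ j (σ : GK) w, c (fun i => perm i σ (τ i)) j (act σ w) = σ (c τ j w))
    {Z : Type} [Finite Z] [Add Z] (m : W → Z) (hm : ∀ w w', m (w + w') = m w + m w')
    (hminv : ∀ (σ : GK) w, m (act σ w) = m w)
    (hsep : ∀ w w' : W, m w = m w' → (∀ τ j, c τ j w = c τ j w') → w = w')
    (hadd : ∀ (z z' : Z) τ j,
      ∃ P : MvPolynomial (((∀ i, Fib i) × ι) ⊕ ((∀ i, Fib i) × ι)) (Bint p),
      ∀ w w', m w = z → m w' = z' → c τ j (w + w') =
        MvPolynomial.aeval (Sum.elim (fun k => c k.1 k.2 w) (fun k => c k.1 k.2 w')) P) :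
    IsFlatGaloisModule p W act := by
  classical
  refine isFlat_of_coords_place_zones act hact (T := ∀ i, Fib i) (J := n × J)
    (fun σ τ i => perm i σ (τ i)) (fun k τ => s k.1 k.2 (τ k.1))
    (fun k τ => hsint k.1 k.2 (τ k.1)) (fun σ k τ => hseq k.1 k.2 σ (τ k.1)) A₀ hA₀ ?_
    c hint hequiv m hm hminv hsep hadd
  intro τ τ' hne
  obtain ⟨i, hi⟩ := Function.ne_iff.1 hne
  obtain ⟨j, hj⟩ := hunit i (τ i) (τ' i) hi
  exact ⟨(i, j), hj⟩

end Fermat.Agent.FlatMod
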