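/-
Lib/FlatMod/OrderInt: **Hopf order criterion, coordinate form with integral algebraic
coefficients** (`isFlat_of_coords_int`): by Galois saturation, addition and negation laws with
coefficients in the integral closure of `ℤ_(p)` in `ℚ̄` suffice.
-/
import Mathlib
import Fermat.Agent.Lib.FlatMod.OrderCoords

set_option autoImplicit false
set_option linter.style.haveILetI false
set_option linter.unusedSectionVars false

namespace Fermat.Agent.FlatMod

open GaloisRep TensorProduct WithConv

local notation "Kb" => AlgebraicClosure ℚ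
local notation "GK" => (AlgebraicClosure ℚ ≃ₐ[ℚ] AlgebraicClosure ℚ)

variable {p : ℕ}

section Bare

variable {W : Type*} {act : GK → W → W} (H : Subalgebra (ratLocalizedAt p) (W → Kb))
  (hequiv : ∀ h ∈ H, ∀ (σ : GK) (w : W), h (act σ w) = σ (h w))

include hequiv in
theorem gal_tmulFun_evPt (σ : GK) (w w' : W) (z : H ⊗[ratLocalizedAt p] H) :
    σ (tmulFun (evPt H w).toLinearMap (evPt H w').toLinearMap z) =
      tmulFun (evPt H (act σ w)).toLinearMap (evPt H (act σ w')).toLinearMap z := by
  induction z with
  | zero => simp
  | tmul a b =>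
    simp only [tmulFun_tmul, AlgHom.toLinearMap_apply, evPt_apply, map_mul]
    rw [hequiv a.1 a.2, hequiv b.1 b.2]
  | add x y hx hy => rw [map_add, map_add, map_add, hx, hy]

theorem evPt_sep1 (h : H) (hh : ∀ w, (evPt H w).toLinearMap h = 0) : h = 0 := by
  apply Subtype.ext
  funext w
  exact hh w

instance isTorsionFree_subalg : Module.IsTorsionFree (ratLocalizedAt p) H :=
  Function.Injective.moduleIsTorsionFree (fun a : H => (a : W → Kb)) Subtype.val_injective
    (fun _ _ => rfl)

include hequiv in
theorem evPt_sep2 [Fact p.Prime] [Module.Finite (ratLocalizedAt p) H]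
    (z : H ⊗[ratLocalizedAt p] H)
    (hz : ∀ j : W × W, tmulFun (evPt H j.1).toLinearMap (evPt H j.2).toLinearMap z = 0) :
    z = 0 :=
  tensor_separation (Module.Free.chooseBasis (ratLocalizedAt p) H)
    (fun w => (evPt H w).toLinearMap) (fun w => (evPt H w).toLinearMap)
    (fun σ w => ⟨act σ w, fun x => hequiv x.1 x.2 σ w⟩) (evPt_sep1 H) (evPt_sep1 H) z
    (fun w w' => hz (w, w'))

end Bare

/-- Evaluation of a polynomial with coefficients in the integral closure, as an integral
combination of monomials. -/
theorem aeval_int_eq_sum {κ : Type*} (x : κ → Kb)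
    (P : MvPolynomial κ (integralClosure (ratLocalizedAt p) Kb)) :
    MvPolynomial.aeval x P =
      ∑ d ∈ P.support, ((P.coeff d : integralClosure (ratLocalizedAt p) Kb) : Kb) *
        MvPolynomial.aeval x (MvPolynomial.monomial d (1 : ratLocalizedAt p)) := by
  rw [MvPolynomial.aeval_def, MvPolynomial.eval₂_eq]
  refine Finset.sum_congr rfl (fun d _ => ?_)
  rw [MvPolynomial.aeval_monomial, map_one, one_mul]
  rfl

/-- **Hopf order criterion, coordinate form with integral algebraic coefficients**: as
`isFlat_of_coords`, but the addition and negation laws may have coefficients in the integral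
closure of `ℤ_(p)` in `ℚ̄` (the Galois action must then be assumed additive). -/
theorem isFlat_of_coords_int [Fact p.Prime] {W : Type} [AddCommGroup W] [Finite W]
    (act : GK → W → W) (hact : ∀ (σ : GK) (w w' : W), act σ (w + w') = act σ w + act σ w')
    {ι : Type} [Finite ι] (c : ι → W → Kb)
    (hint : ∀ i w, IsIntegral (ratLocalizedAt p) (c i w))
    (hequiv : ∀ i (σ : GK) w, c i (act σ w) = σ (c i w))
    (hsep : ∀ w w' : W, (∀ i, c i w = c i w') → w = w')
    (hadd : ∀ i, ∃ P : MvPolynomial (ι ⊕ ι) (integralClosure (ratLocalizedAt p) Kb), ∀ w w',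
      c i (w + w') = MvPolynomial.aeval (Sum.elim (fun j => c j w) (fun j => c j w')) P)
    (hneg : ∀ i, ∃ P : MvPolynomial ι (integralClosure (ratLocalizedAt p) Kb), ∀ w,
      c i (-w) = MvPolynomial.aeval (fun j => c j w) P) :
    IsFlatGaloisModule p W act := by
  classical
  have hfin : Module.Finite (ratLocalizedAt p) (Algebra.adjoin (ratLocalizedAt p) (Set.range c)) :=
    Module.Finite.iff_fg.2 (fg_adjoin_of_finite (Set.finite_range c) (by
      rintro _ ⟨i, rfl⟩
      exact isIntegral_pi_of_forall _ (hint i)))
  have heq : ∀ h ∈ Algebra.adjoin (ratLocalizedAt p) (Set.range c), ∀ (σ : GK) (w : W),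
      h (act σ w) = σ (h w) := by
    have h1 : Algebra.adjoin (ratLocalizedAt p) (Set.range c) ≤ eqvAlg p act := by
      apply Algebra.adjoin_le
      rintro _ ⟨i, rfl⟩
      exact fun σ w => hequiv i σ w
    exact fun h hh => h1 hh
  have hact0 : ∀ σ : GK, act σ 0 = 0 := by
    intro σ
    have := hact σ 0 0
    rw [add_zero] at this
    exact left_eq_add.1 this
  have hactneg : ∀ (σ : GK) (w : W), act σ (-w) = - act σ w := by
    intro σ w
    have := hact σ (-w) w
    rw [neg_add_cancel, hact0] at this
    exact eq_neg_of_add_eq_zero_left this.symm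
  let gen : ι → Algebra.adjoin (ratLocalizedAt p) (Set.range c) :=
    fun j => ⟨c j, Algebra.subset_adjoin ⟨j, rfl⟩⟩
  have hsepH : ∀ w w' : W, (∀ h : Algebra.adjoin (ratLocalizedAt p) (Set.range c),
      (h : W → Kb) w = (h : W → Kb) w') → w = w' := by
    intro w w' hh
    apply hsep
    intro i
    exact hh (gen i)
  refine (HopfOrder.ofGenerators act c hint hequiv hsep ?_ ?_).isFlat
  · intro i
    obtain ⟨P, hP⟩ := hadd i
    let g : ι ⊕ ι → (Algebra.adjoin (ratLocalizedAt p) (Set.range c)) ⊗[ratLocalizedAt p]
        (Algebra.adjoin (ratLocalizedAt p) (Set.range c)) :=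
      Sum.elim (fun j => gen j ⊗ₜ 1) (fun j => 1 ⊗ₜ gen j)
    have hg : ∀ (w w' : W) (k : ι ⊕ ι),
        tmulAlg (Algebra.adjoin (ratLocalizedAt p) (Set.range c)) w w' (g k) =
          Sum.elim (fun j => c j w) (fun j => c j w') k := by
      intro w w' k
      cases k with
      | inl j => simp [g, gen, tmulAlg]
      | inr j => simp [g, gen, tmulAlg]
    obtain ⟨z, hz⟩ := galois_saturation
      (Module.Free.chooseBasis (ratLocalizedAt p)
        ((Algebra.adjoin (ratLocalizedAt p) (Set.range c)) ⊗[ratLocalizedAt p]
          (Algebra.adjoin (ratLocalizedAt p) (Set.range c))))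
      (fun j : W × W => tmulFun (evPt _ j.1).toLinearMap (evPt _ j.2).toLinearMap)
      (fun σ j => ⟨(act σ j.1, act σ j.2), fun x => (gal_tmulFun_evPt _ heq σ j.1 j.2 x).symm⟩)
      (fun x hx => evPt_sep2 _ heq x hx)
      (fun j : W × W => c i (j.1 + j.2)) P.support
      (fun d => ((P.coeff d : integralClosure (ratLocalizedAt p) Kb) : Kb))
      (fun d => MvPolynomial.aeval g (MvPolynomial.monomial d (1 : ratLocalizedAt p)))
      (fun d _ => (P.coeff d).2)
      (by
        intro j
        rw [hP, aeval_int_eq_sum]
        refine Finset.sum_congr rfl (fun d _ => ?_)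
        congr 1
        rw [← tmulAlg_apply, MvPolynomial.comp_aeval_apply]
        congr 2
        funext k
        exact (hg j.1 j.2 k).symm)
      (by
        intro σ j j' hjj'
        have h1 : j'.1 = act σ j.1 := by
          apply hsepH
          intro h
          have := hjj' (h ⊗ₜ 1)
          simp only [tmulFun_tmul, AlgHom.toLinearMap_apply, evPt_apply, map_one, mul_one] at this
          rw [this, heq h.1 h.2]
        have h2 : j'.2 = act σ j.2 := by
          apply hsepH
          intro h
          have := hjj' (1 ⊗ₜ h)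
          simp only [tmulFun_tmul, AlgHom.toLinearMap_apply, evPt_apply, map_one, one_mul] at this
          rw [this, heq h.1 h.2]
        show c i (j'.1 + j'.2) = σ (c i (j.1 + j.2))
        rw [h1, h2, ← hact, hequiv])
    exact ⟨z, fun w w' => hz (w, w')⟩
  · intro i
    obtain ⟨P, hP⟩ := hneg i
    obtain ⟨x, hx⟩ := galois_saturation
      (Module.Free.chooseBasis (ratLocalizedAt p) (Algebra.adjoin (ratLocalizedAt p) (Set.range c)))
      (fun w : W => (evPt (Algebra.adjoin (ratLocalizedAt p) (Set.range c)) w).toLinearMap)
      (fun σ w => ⟨act σ w, fun x => heq x.1 x.2 σ w⟩)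
      (evPt_sep1 _)
      (fun w : W => c i (-w)) P.support
      (fun d => ((P.coeff d : integralClosure (ratLocalizedAt p) Kb) : Kb))
      (fun d => MvPolynomial.aeval gen (MvPolynomial.monomial d (1 : ratLocalizedAt p)))
      (fun d _ => (P.coeff d).2)
      (by
        intro w
        rw [hP, aeval_int_eq_sum]
        refine Finset.sum_congr rfl (fun d _ => ?_)
        congr 1
        rw [AlgHom.toLinearMap_apply, MvPolynomial.comp_aeval_apply]
        rfl)
      (by
        intro σ w w' hww'
        have h1 : w' = act σ w := by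
          apply hsepH
          intro h
          have := hww' h
          simp only [AlgHom.toLinearMap_apply, evPt_apply] at this
          rw [this, heq h.1 h.2]
        show c i (-w') = σ (c i (-w))
        rw [h1, ← hactneg, hequiv])
    have h3 : (fun w => c i (-w)) = (x : W → Kb) := by
      funext w
      exact (hx w).symm
    rw [h3]
    exact x.2

end Fermat.Agent.FlatMod
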