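/-
Lib/FlatMod/OrderDescent: **Hopf order criterion with unramified descent (B')**.
-/
import Mathlib
import Fermat.Agent.Lib.FlatMod.OrderInt

set_option autoImplicit false
set_option linter.style.haveILetI false
set_option linter.unusedSectionVars false

namespace Fermat.Agent.FlatMod

open GaloisRep TensorProduct WithConv

local notation "Kb" => AlgebraicClosure ℚ
local notation "GK" => (AlgebraicClosure ℚ ≃ₐ[ℚ] AlgebraicClosure ℚ)
local notation "Bint" p => integralClosure (ratLocalizedAt p) Kb

variable {p : ℕ}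

/-- **Hopf order criterion with unramified descent (B')**: coordinates `c τ i` permuted by the
Galois group (`c (perm σ τ) i (act σ w) = σ (c τ i w)`), integral addition and negation laws, and
an integral invertible equivariant matrix `Ω` (e.g. the Vandermonde matrix of the conjugates of a
generator of an extension unramified at `p`). -/
theorem isFlat_of_coords_descent [Fact p.Prime] {W : Type} [AddCommGroup W] [Finite W]
    (act : GK → W → W) (hact : ∀ (σ : GK) (w w' : W), act σ (w + w') = act σ w + act σ w')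
    {T S ι : Type} [Fintype T] [DecidableEq T] [Fintype S] [Finite ι]
    (perm : GK → T → T) (hperm : ∀ σ, Function.Bijective (perm σ))
    (Ω : Matrix S T (Bint p)) (Ω' : Matrix T S (Bint p)) (hΩ : Ω' * Ω = 1)
    (hΩeq : ∀ (σ : GK) s τ, σ (Ω s τ : Kb) = (Ω s (perm σ τ) : Kb))
    (c : T → ι → W → Kb)
    (hint : ∀ τ i w, IsIntegral (ratLocalizedAt p) (c τ i w))
    (hequiv : ∀ τ i (σ : GK) w, c (perm σ τ) i (act σ w) = σ (c τ i w))
    (hsep : ∀ w w' : W, (∀ τ i, c τ i w = c τ i w') → w = w')
    (hadd : ∀ τ i, ∃ P : MvPolynomial ((T × ι) ⊕ (T × ι)) (Bint p), ∀ w w',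
      c τ i (w + w') =
        MvPolynomial.aeval (Sum.elim (fun k => c k.1 k.2 w) (fun k => c k.1 k.2 w')) P)
    (hneg : ∀ τ i, ∃ P : MvPolynomial (T × ι) (Bint p), ∀ w,
      c τ i (-w) = MvPolynomial.aeval (fun k => c k.1 k.2 w) P) :
    IsFlatGaloisModule p W act := by
  have hΩ' : ∀ τ τ' : T, ∑ s, Ω' τ s * Ω s τ' = if τ = τ' then 1 else 0 := by
    intro τ τ'
    have := congrFun (congrFun hΩ τ) τ'
    rw [Matrix.mul_apply, Matrix.one_apply] at this
    exact this
  -- the equivariant coordinates
  let t : S × ι → W → Kb := fun k w => ∑ τ, (Ω k.1 τ : Kb) * c τ k.2 w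
  have hc : ∀ τ i w, c τ i w = ∑ s, (Ω' τ s : Kb) * t (s, i) w := by
    intro τ i w
    simp only [t, Finset.mul_sum, ← mul_assoc]
    rw [Finset.sum_comm]
    have h1 : ∀ τ', ∑ s, (Ω' τ s : Kb) * (Ω s τ' : Kb) * c τ' i w =
        (if τ = τ' then 1 else 0) * c τ' i w := by
      intro τ'
      rw [← Finset.sum_mul]
      congr 1
      have := congrArg (fun b : Bint p => (b : Kb)) (hΩ' τ τ')
      simp only [AddSubmonoidClass.coe_finsetSum, MulMemClass.coe_mul] at this
      rw [this]
      split_ifs <;> simp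
    simp only [h1]
    simp
  -- linear forms expressing the `c` in terms of the `t`
  let L : T × ι → MvPolynomial (S × ι) (Bint p) := fun k =>
    ∑ s, MvPolynomial.C (Ω' k.1 s) * MvPolynomial.X (s, k.2)
  have hL : ∀ (k : T × ι) (w : W), MvPolynomial.aeval (fun k' => t k' w) (L k) = c k.1 k.2 w := by
    intro k w
    rw [hc]
    simp only [L, map_sum, map_mul, MvPolynomial.aeval_C, MvPolynomial.aeval_X]
    rfl
  apply isFlat_of_coords_int act hact t
  · intro k w
    exact IsIntegral.sum _ (fun τ _ => (Ω k.1 τ).2.mul (hint τ k.2 w))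
  · intro k σ w
    simp only [t, map_sum, map_mul]
    rw [← (Equiv.ofBijective _ (hperm σ)).sum_comp]
    refine Finset.sum_congr rfl (fun τ _ => ?_)
    rw [Equiv.ofBijective_apply, hequiv, hΩeq]
  · intro w w' hww
    apply hsep
    intro τ i
    rw [hc, hc]
    refine Finset.sum_congr rfl (fun s _ => ?_)
    rw [hww (s, i)]
  · intro k
    choose P hP using hadd
    let M : (T × ι) ⊕ (T × ι) → MvPolynomial ((S × ι) ⊕ (S × ι)) (Bint p) :=
      Sum.elim (fun k' => MvPolynomial.rename Sum.inl (L k'))
        (fun k' => MvPolynomial.rename Sum.inr (L k'))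
    refine ⟨∑ τ, MvPolynomial.C (Ω k.1 τ) * MvPolynomial.bind₁ M (P τ k.2), fun w w' => ?_⟩
    simp only [t, map_sum, map_mul, MvPolynomial.aeval_C]
    refine Finset.sum_congr rfl (fun τ _ => ?_)
    congr 1
    rw [hP, MvPolynomial.aeval_bind₁]
    congr 2
    funext k'
    cases k' with
    | inl k'' =>
      simp only [M, Sum.elim_inl, MvPolynomial.aeval_rename]
      exact (hL k'' w).symm
    | inr k'' =>
      simp only [M, Sum.elim_inr, MvPolynomial.aeval_rename]
      exact (hL k'' w').symm
  · intro k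
    choose P hP using hneg
    refine ⟨∑ τ, MvPolynomial.C (Ω k.1 τ) * MvPolynomial.bind₁ L (P τ k.2), fun w => ?_⟩
    simp only [t, map_sum, map_mul, MvPolynomial.aeval_C]
    refine Finset.sum_congr rfl (fun τ _ => ?_)
    congr 1
    rw [hP, MvPolynomial.aeval_bind₁]
    congr 2
    funext k'
    exact (hL k' w).symm

end Fermat.Agent.FlatMod
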