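/-
Lib/FlatMod/OrderDatum: descent data for the Hopf order criterion (B'): the Lagrange descent datum
of a separating equivariant family with unit differences (covers Vandermonde, towers and
products), and the versions of the criterion in which the negation law is derived from the
addition law.
-/
import Mathlib
import Fermat.Agent.Lib.FlatMod.OrderDescent

set_option autoImplicit false
set_option linter.style.haveILetI false
set_option linter.unusedSectionVars false

namespace Fermat.Agent.FlatMod

open GaloisRep TensorProduct WithConv Polynomial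

local notation "Kb" => AlgebraicClosure ℚ
local notation "GK" => (AlgebraicClosure ℚ ≃ₐ[ℚ] AlgebraicClosure ℚ)
local notation "Bint" p => integralClosure (ratLocalizedAt p) Kb

variable {p : ℕ}

/-- If the coordinates of a sum are polynomials in the coordinates of the summands, then the
coordinates of a multiple `m • w` are polynomials in the coordinates of `w`. -/
theorem exists_nsmul_poly {A L : Type*} [CommRing A] [CommRing L] [Algebra A L] {W : Type*}
    [AddCommMonoid W] {K : Type*} (c : K → W → L)
    (h0 : ∀ k, ∃ a : A, algebraMap A L a = c k 0)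
    (hadd : ∀ k, ∃ P : MvPolynomial (K ⊕ K) A, ∀ w w',
      c k (w + w') = MvPolynomial.aeval (Sum.elim (fun j => c j w) (fun j => c j w')) P)
    (m : ℕ) : ∀ k, ∃ Q : MvPolynomial K A, ∀ w,
      c k (m • w) = MvPolynomial.aeval (fun j => c j w) Q := by
  induction m with
  | zero =>
    intro k
    obtain ⟨a, ha⟩ := h0 k
    refine ⟨MvPolynomial.C a, fun w => ?_⟩
    rw [zero_nsmul, MvPolynomial.aeval_C, ha]
  | succ m ih =>
    intro k
    choose Q hQ using ih
    obtain ⟨P, hP⟩ := hadd k
    refine ⟨MvPolynomial.bind₁ (Sum.elim Q MvPolynomial.X) P, fun w => ?_⟩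
    rw [succ_nsmul, hP, MvPolynomial.aeval_bind₁]
    congr 2
    funext j
    cases j with
    | inl j => simp [hQ]
    | inr j => simp

/-- If the coordinates of a sum are polynomials in the coordinates of the summands, then so are
the coordinates of the negative (`W` finite). -/
theorem exists_neg_poly {A L : Type*} [CommRing A] [CommRing L] [Algebra A L] {W : Type*}
    [AddCommGroup W] [Finite W] {K : Type*} (c : K → W → L)
    (h0 : ∀ k, ∃ a : A, algebraMap A L a = c k 0)
    (hadd : ∀ k, ∃ P : MvPolynomial (K ⊕ K) A, ∀ w w',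
      c k (w + w') = MvPolynomial.aeval (Sum.elim (fun j => c j w) (fun j => c j w')) P) :
    ∀ k, ∃ Q : MvPolynomial K A, ∀ w, c k (-w) = MvPolynomial.aeval (fun j => c j w) Q := by
  intro k
  obtain ⟨Q, hQ⟩ := exists_nsmul_poly c h0 hadd (Nat.card W - 1) k
  refine ⟨Q, fun w => ?_⟩
  rw [← hQ]
  congr 1
  have h1 : 0 < Nat.card W := Nat.card_pos
  have h2 : (Nat.card W - 1) • w + w = 0 := by
    rw [← succ_nsmul, Nat.sub_add_cancel h1]
    exact card_nsmul_eq_zero'
  exact (eq_neg_of_add_eq_zero_left h2).symm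

/-- A descent datum: a finite set `T` permuted by the Galois group and an invertible matrix `Ω`
over the integral closure of `ℤ_(p)` in `ℚ̄` with `σ (Ω s τ) = Ω s (σ τ)`. -/
structure DescentDatum (p : ℕ) (T S : Type) [Fintype T] [DecidableEq T] [Fintype S] where
  perm : GK → T → T
  perm_bij : ∀ σ, Function.Bijective (perm σ)
  Ω : Matrix S T (Bint p)
  Ω' : Matrix T S (Bint p)
  inv : Ω' * Ω = 1
  eqv : ∀ (σ : GK) (s : S) (τ : T), σ (Ω s τ : Kb) = (Ω s (perm σ τ) : Kb)

/-- Form (B') for a descent datum. -/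
theorem isFlat_of_coords_datum [Fact p.Prime] {W : Type} [AddCommGroup W] [Finite W]
    (act : GK → W → W) (hact : ∀ (σ : GK) (w w' : W), act σ (w + w') = act σ w + act σ w')
    {T S ι : Type} [Fintype T] [DecidableEq T] [Fintype S] [Finite ι]
    (D : DescentDatum p T S)
    (c : T → ι → W → Kb)
    (hint : ∀ τ i w, IsIntegral (ratLocalizedAt p) (c τ i w))
    (hequiv : ∀ τ i (σ : GK) w, c (D.perm σ τ) i (act σ w) = σ (c τ i w))
    (hsep : ∀ w w' : W, (∀ τ i, c τ i w = c τ i w') → w = w')
    (hadd : ∀ τ i, ∃ P : MvPolynomial ((T × ι) ⊕ (T × ι)) (Bint p), ∀ w w',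
      c τ i (w + w') =
        MvPolynomial.aeval (Sum.elim (fun k => c k.1 k.2 w) (fun k => c k.1 k.2 w')) P)
    (hneg : ∀ τ i, ∃ P : MvPolynomial (T × ι) (Bint p), ∀ w,
      c τ i (-w) = MvPolynomial.aeval (fun k => c k.1 k.2 w) P) :
    IsFlatGaloisModule p W act :=
  isFlat_of_coords_descent act hact D.perm D.perm_bij D.Ω D.Ω' D.inv D.eqv c hint hequiv hsep
    hadd hneg

/-- The Lagrange interpolation polynomial of the point `t` for a separating family `θ`. -/
noncomputable def lagrangePoly {A : Type} [CommRing A] {T J : Type} [Fintype T] [DecidableEq T]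
    (θ : J → T → A) (j : T → T → J) (u : T → T → A) (t : T) : MvPolynomial J A :=
  ∏ t' ∈ Finset.univ.erase t,
    MvPolynomial.C (u t t') * (MvPolynomial.X (j t t') - MvPolynomial.C (θ (j t t') t'))

theorem eval_lagrangePoly {A : Type} [CommRing A] {T J : Type} [Fintype T] [DecidableEq T]
    (θ : J → T → A) (j : T → T → J) (u : T → T → A)
    (hu : ∀ t t', t ≠ t' → (θ (j t t') t - θ (j t t') t') * u t t' = 1) (t x : T) :
    MvPolynomial.eval (fun i => θ i x) (lagrangePoly θ j u t) = if t = x then 1 else 0 := by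
  unfold lagrangePoly
  rw [map_prod]
  simp only [map_mul, MvPolynomial.eval_C, map_sub, MvPolynomial.eval_X]
  split_ifs with h
  · subst h
    apply Finset.prod_eq_one
    intro t' ht'
    rw [mul_comm]
    exact hu t t' (Finset.ne_of_mem_erase ht').symm
  · apply Finset.prod_eq_zero (i := x)
    · exact Finset.mem_erase.2 ⟨fun h' => h h'.symm, Finset.mem_univ _⟩
    · rw [sub_self, mul_zero]

/-- The finite set of monomials used by the Lagrange descent datum. -/
noncomputable def lagrangeMonomials {A : Type} [CommRing A] {T J : Type} [Fintype T]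
    [DecidableEq T] (θ : J → T → A) (j : T → T → J) (u : T → T → A) : Finset (J →₀ ℕ) :=
  letI : DecidableEq (J →₀ ℕ) := Classical.decEq _
  Finset.univ.biUnion fun t => (lagrangePoly θ j u t).support

theorem sum_lagrangeMonomials {A : Type} [CommRing A] {T J : Type} [Fintype T] [DecidableEq T]
    (θ : J → T → A) (j : T → T → J) (u : T → T → A)
    (hu : ∀ t t', t ≠ t' → (θ (j t t') t - θ (j t t') t') * u t t' = 1) (t x : T) :
    ∑ s : {s // s ∈ lagrangeMonomials θ j u},
      (lagrangePoly θ j u t).coeff s.1 * ∏ i ∈ s.1.support, θ i x ^ s.1 i =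
      if t = x then 1 else 0 := by
  rw [← eval_lagrangePoly θ j u hu t x, MvPolynomial.eval_eq]
  rw [Finset.sum_coe_sort (lagrangeMonomials θ j u)
    (fun s => (lagrangePoly θ j u t).coeff s * ∏ i ∈ s.support, θ i x ^ s i)]
  symm
  apply Finset.sum_subset
  · intro s hs
    unfold lagrangeMonomials
    letI : DecidableEq (J →₀ ℕ) := Classical.decEq _
    exact Finset.mem_biUnion.2 ⟨t, Finset.mem_univ _, hs⟩
  · intro s _ hs
    rw [MvPolynomial.notMem_support_iff.1 hs, zero_mul]

/-- The **Lagrange descent datum** of a Galois-stable family of integral functions on `T` which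
separates the points of `T` by unit differences. -/
noncomputable def DescentDatum.lagrange {T J : Type} [Fintype T] [DecidableEq T]
    (θ : J → T → Bint p) (perm : GK → T → T)
    (hperm : ∀ (σ : GK) (i : J) (t : T), (θ i (perm σ t) : Kb) = σ (θ i t : Kb))
    (j : T → T → J) (u : T → T → Bint p)
    (hu : ∀ t t', t ≠ t' → (θ (j t t') t - θ (j t t') t') * u t t' = 1) :
    DescentDatum p T {s // s ∈ lagrangeMonomials θ j u} where
  perm := perm
  perm_bij := fun σ => by
    have h1 : Function.Injective (perm σ) := by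
      intro t t' h
      by_contra hne
      have h2 := hperm σ (j t t') t
      have h3 := hperm σ (j t t') t'
      rw [h] at h2
      have h4 : θ (j t t') t = θ (j t t') t' :=
        Subtype.ext (σ.injective (h2.symm.trans h3))
      have h5 := hu t t' hne
      rw [h4, sub_self, zero_mul] at h5
      exact zero_ne_one h5
    exact Finite.injective_iff_bijective.1 h1
  Ω := Matrix.of fun s t => ∏ i ∈ s.1.support, θ i t ^ s.1 i
  Ω' := Matrix.of fun t s => (lagrangePoly θ j u t).coeff s.1
  inv := by
    refine Matrix.ext fun t x => ?_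
    rw [Matrix.mul_apply, Matrix.one_apply]
    simp only [Matrix.of_apply]
    exact sum_lagrangeMonomials θ j u hu t x
  eqv := fun σ s t => by
    simp only [Matrix.of_apply, SubmonoidClass.coe_finsetProd, SubmonoidClass.coe_pow, map_prod,
      map_pow]
    apply Finset.prod_congr rfl
    intro i _
    rw [hperm]

/-- **Hopf order criterion, separating form of (B')**: the coordinates `c τ i` are permuted by
the Galois group along a finite set `T`, and `T` carries a Galois-equivariant family of integral
functions `θ i` separating its points by units (e.g. `T` = the conjugates of a generator of an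
extension unramified at `p`, or any tower / compositum of such). -/
theorem isFlat_of_coords_separating [Fact p.Prime] {W : Type} [AddCommGroup W] [Finite W]
    (act : GK → W → W) (hact : ∀ (σ : GK) (w w' : W), act σ (w + w') = act σ w + act σ w')
    {T J ι : Type} [Finite T] [Finite ι]
    (perm : GK → T → T)
    (θ : J → T → Kb) (hθint : ∀ i t, IsIntegral (ratLocalizedAt p) (θ i t))
    (hθeq : ∀ (σ : GK) i t, θ i (perm σ t) = σ (θ i t))
    (hθsep : ∀ t t', t ≠ t' →
      ∃ i, ∃ v : Kb, IsIntegral (ratLocalizedAt p) v ∧ (θ i t - θ i t') * v = 1)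
    (c : T → ι → W → Kb)
    (hint : ∀ τ i w, IsIntegral (ratLocalizedAt p) (c τ i w))
    (hequiv : ∀ τ i (σ : GK) w, c (perm σ τ) i (act σ w) = σ (c τ i w))
    (hsep : ∀ w w' : W, (∀ τ i, c τ i w = c τ i w') → w = w')
    (hadd : ∀ τ i, ∃ P : MvPolynomial ((T × ι) ⊕ (T × ι)) (Bint p), ∀ w w',
      c τ i (w + w') =
        MvPolynomial.aeval (Sum.elim (fun k => c k.1 k.2 w) (fun k => c k.1 k.2 w')) P)
    (hneg : ∀ τ i, ∃ P : MvPolynomial (T × ι) (Bint p), ∀ w,
      c τ i (-w) = MvPolynomial.aeval (fun k => c k.1 k.2 w) P) :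
    IsFlatGaloisModule p W act := by
  classical
  letI : Fintype T := Fintype.ofFinite T
  let θ' : Option J → T → Bint p := fun i t =>
    match i with
    | none => 0
    | some i => ⟨θ i t, hθint i t⟩
  have hθ' : ∀ (σ : GK) (i : Option J) (t : T), (θ' i (perm σ t) : Kb) = σ (θ' i t : Kb) := by
    intro σ i t
    cases i with
    | none => simp [θ']
    | some i => exact hθeq σ i t
  have hex : ∀ t t' : T, ∃ iv : Option J × Bint p,
      t ≠ t' → (θ' iv.1 t - θ' iv.1 t') * iv.2 = 1 := by
    intro t t'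
    by_cases h : t = t'
    · exact ⟨(none, 0), fun h' => absurd h h'⟩
    · obtain ⟨i, v, hv, h1⟩ := hθsep t t' h
      exact ⟨(some i, ⟨v, hv⟩), fun _ => Subtype.ext h1⟩
  choose iv hiv using hex
  exact isFlat_of_coords_datum act hact
    (DescentDatum.lagrange θ' perm hθ' (fun t t' => (iv t t').1) (fun t t' => (iv t t').2) hiv)
    c hint hequiv hsep hadd hneg

/-- Form (B') without the negation law. -/
theorem isFlat_of_coords_descent' [Fact p.Prime] {W : Type} [AddCommGroup W] [Finite W]
    (act : GK → W → W) (hact : ∀ (σ : GK) (w w' : W), act σ (w + w') = act σ w + act σ w')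
    {T S ι : Type} [Fintype T] [DecidableEq T] [Fintype S] [Finite ι]
    (perm : GK → T → T) (hperm : ∀ σ, Function.Bijective (perm σ))
    (Ω : Matrix S T (Bint p)) (Ω' : Matrix T S (Bint p)) (hΩ : Ω' * Ω = 1)
    (hΩeq : ∀ (σ : GK) s τ, σ (Ω s τ : Kb) = (Ω s (perm σ τ) : Kb))
    (c : T → ι → W → Kb)
    (hint : ∀ τ i w, IsIntegral (ratLocalizedAt p) (c τ i w))
    (hequiv : ∀ τ i (σ : GK) w, c (perm σ τ) i (act σ w) = σ (c τ i w))
    (hsep : ∀ w w' : W, (∀ τ i, c τ i w = c τ i w') → w = w')
    (hadd : ∀ τ i, ∃ P : MvPolynomial ((T × ι) ⊕ (T × ι)) (Bint p), ∀ w w',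
      c τ i (w + w') =
        MvPolynomial.aeval (Sum.elim (fun k => c k.1 k.2 w) (fun k => c k.1 k.2 w')) P) :
    IsFlatGaloisModule p W act :=
  isFlat_of_coords_descent act hact perm hperm Ω Ω' hΩ hΩeq c hint hequiv hsep hadd
    (fun τ i => exists_neg_poly (A := Bint p) (fun k : T × ι => c k.1 k.2)
      (fun k => ⟨⟨c k.1 k.2 0, hint k.1 k.2 0⟩, rfl⟩) (fun k => hadd k.1 k.2) (τ, i))

/-- Coordinate form with integral algebraic coefficients, without the negation law. -/
theorem isFlat_of_coords_int' [Fact p.Prime] {W : Type} [AddCommGroup W] [Finite W]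
    (act : GK → W → W) (hact : ∀ (σ : GK) (w w' : W), act σ (w + w') = act σ w + act σ w')
    {ι : Type} [Finite ι] (c : ι → W → Kb)
    (hint : ∀ i w, IsIntegral (ratLocalizedAt p) (c i w))
    (hequiv : ∀ i (σ : GK) w, c i (act σ w) = σ (c i w))
    (hsep : ∀ w w' : W, (∀ i, c i w = c i w') → w = w')
    (hadd : ∀ i, ∃ P : MvPolynomial (ι ⊕ ι) (Bint p), ∀ w w',
      c i (w + w') = MvPolynomial.aeval (Sum.elim (fun j => c j w) (fun j => c j w')) P) :
    IsFlatGaloisModule p W act :=
  isFlat_of_coords_int act hact c hint hequiv hsep hadd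
    (exists_neg_poly (A := Bint p) c (fun k => ⟨⟨c k 0, hint k 0⟩, rfl⟩) hadd)

/-- The separating form of (B') without the negation law. -/
theorem isFlat_of_coords_separating' [Fact p.Prime] {W : Type} [AddCommGroup W] [Finite W]
    (act : GK → W → W) (hact : ∀ (σ : GK) (w w' : W), act σ (w + w') = act σ w + act σ w')
    {T J ι : Type} [Finite T] [Finite ι]
    (perm : GK → T → T)
    (θ : J → T → Kb) (hθint : ∀ i t, IsIntegral (ratLocalizedAt p) (θ i t))
    (hθeq : ∀ (σ : GK) i t, θ i (perm σ t) = σ (θ i t))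
    (hθsep : ∀ t t', t ≠ t' →
      ∃ i, ∃ v : Kb, IsIntegral (ratLocalizedAt p) v ∧ (θ i t - θ i t') * v = 1)
    (c : T → ι → W → Kb)
    (hint : ∀ τ i w, IsIntegral (ratLocalizedAt p) (c τ i w))
    (hequiv : ∀ τ i (σ : GK) w, c (perm σ τ) i (act σ w) = σ (c τ i w))
    (hsep : ∀ w w' : W, (∀ τ i, c τ i w = c τ i w') → w = w')
    (hadd : ∀ τ i, ∃ P : MvPolynomial ((T × ι) ⊕ (T × ι)) (Bint p), ∀ w w',
      c τ i (w + w') =
        MvPolynomial.aeval (Sum.elim (fun k => c k.1 k.2 w) (fun k => c k.1 k.2 w')) P) :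
    IsFlatGaloisModule p W act :=
  isFlat_of_coords_separating act hact perm θ hθint hθeq hθsep c hint hequiv hsep hadd
    (fun τ i => exists_neg_poly (A := Bint p) (fun k : T × ι => c k.1 k.2)
      (fun k => ⟨⟨c k.1 k.2 0, hint k.1 k.2 0⟩, rfl⟩) (fun k => hadd k.1 k.2) (τ, i))

/-- **Hopf order criterion for a product of towers**: the coordinates are indexed by the tuples
`τ = (P_i)_i`, `P_i` running through a finite Galois set `Fib i` on which two integral equivariant
functions `t i`, `s i` are given such that any two distinct points are separated by a unit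
difference of `t i` or of `s i`.  No negation law is needed. -/
theorem isFlat_of_coords_towers [Fact p.Prime] {W : Type} [AddCommGroup W] [Finite W]
    (act : GK → W → W) (hact : ∀ (σ : GK) (w w' : W), act σ (w + w') = act σ w + act σ w')
    {n ι : Type} [Finite n] [Finite ι] {Fib : n → Type} [∀ i, Finite (Fib i)]
    (perm : ∀ i, GK → Fib i → Fib i)
    (t s : ∀ i, Fib i → Kb)
    (ht : ∀ i P, IsIntegral (ratLocalizedAt p) (t i P))
    (hs : ∀ i P, IsIntegral (ratLocalizedAt p) (s i P))
    (hteq : ∀ i (σ : GK) P, t i (perm i σ P) = σ (t i P))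
    (hseq : ∀ i (σ : GK) P, s i (perm i σ P) = σ (s i P))
    (hunit : ∀ i (P P' : Fib i), P ≠ P' →
      (∃ v : Kb, IsIntegral (ratLocalizedAt p) v ∧ (t i P - t i P') * v = 1) ∨
      (∃ v : Kb, IsIntegral (ratLocalizedAt p) v ∧ (s i P - s i P') * v = 1))
    (c : (∀ i, Fib i) → ι → W → Kb)
    (hint : ∀ τ j w, IsIntegral (ratLocalizedAt p) (c τ j w))
    (hequiv : ∀ τ j (σ : GK) w, c (fun i => perm i σ (τ i)) j (act σ w) = σ (c τ j w))
    (hsep : ∀ w w' : W, (∀ τ j, c τ j w = c τ j w') → w = w')
    (hadd : ∀ τ j, ∃ P : MvPolynomial (((∀ i, Fib i) × ι) ⊕ ((∀ i, Fib i) × ι)) (Bint p),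
      ∀ w w', c τ j (w + w') =
        MvPolynomial.aeval (Sum.elim (fun k => c k.1 k.2 w) (fun k => c k.1 k.2 w')) P) :
    IsFlatGaloisModule p W act := by
  classical
  refine isFlat_of_coords_separating' act hact (T := ∀ i, Fib i) (J := n × Bool)
    (fun σ τ i => perm i σ (τ i))
    (fun k τ => if k.2 then s k.1 (τ k.1) else t k.1 (τ k.1)) ?_ ?_ ?_ c hint hequiv hsep hadd
  · rintro ⟨i, b⟩ τ
    cases b
    · simpa using ht i (τ i)
    · simpa using hs i (τ i)
  · rintro σ ⟨i, b⟩ τ
    cases b
    · simpa using hteq i σ (τ i)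
    · simpa using hseq i σ (τ i)
  · intro τ τ' hne
    obtain ⟨i, hi⟩ := Function.ne_iff.1 hne
    rcases hunit i (τ i) (τ' i) hi with ⟨v, hv, h1⟩ | ⟨v, hv, h1⟩
    · exact ⟨(i, false), v, hv, by simpa using h1⟩
    · exact ⟨(i, true), v, hv, by simpa using h1⟩

end Fermat.Agent.FlatMod
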