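/-
Lib/FlatMod/OrderMatrix: **matrix form (C) of the Hopf order criterion**: a finite Galois module
with a faithful, integral, Galois-equivariant (up to a unit-separated permuted family) matrix
representation is the module of points of a finite flat group scheme over `ℤ_(p)`.
-/
import Mathlib
import Fermat.Agent.Lib.FlatMod.OrderDatum

set_option autoImplicit false
set_option linter.style.haveILetI false
set_option linter.unusedSectionVars false

namespace Fermat.Agent.FlatMod

open GaloisRep TensorProduct WithConv

local notation "Kb" => AlgebraicClosure ℚ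
local notation "GK" => (AlgebraicClosure ℚ ≃ₐ[ℚ] AlgebraicClosure ℚ)
local notation "Bint" p => integralClosure (ratLocalizedAt p) Kb

variable {p : ℕ}

/-- The matrix product as a polynomial law: the `(a, b)` coordinate of a product. -/
theorem exists_add_poly_of_matrix {A : Type*} [CommRing A] [Algebra A Kb] {W : Type*} [Add W]
    {n : Type*} [Fintype n] (ρ : W → Matrix n n Kb) (hmul : ∀ w w', ρ (w + w') = ρ w * ρ w')
    (a b : n) : ∃ P : MvPolynomial ((n × n) ⊕ (n × n)) A, ∀ w w',
      ρ (w + w') a b =
        MvPolynomial.aeval (Sum.elim (fun k => ρ w k.1 k.2) (fun k => ρ w' k.1 k.2)) P := by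
  refine ⟨∑ k, MvPolynomial.X (Sum.inl (a, k)) * MvPolynomial.X (Sum.inr (k, b)), fun w w' => ?_⟩
  rw [hmul, Matrix.mul_apply, map_sum]
  apply Finset.sum_congr rfl
  intro k _
  rw [map_mul, MvPolynomial.aeval_X, MvPolynomial.aeval_X]
  rfl

/-- **Hopf order criterion, matrix form (C)**: a faithful integral Galois-equivariant
multiplicative map of `W` to matrices. -/
theorem isFlat_of_matrix_rep [Fact p.Prime] {W : Type} [AddCommGroup W] [Finite W]
    (act : GK → W → W) (hact : ∀ (σ : GK) (w w' : W), act σ (w + w') = act σ w + act σ w')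
    {n : Type} [Fintype n] (ρ : W → Matrix n n Kb)
    (hint : ∀ w a b, IsIntegral (ratLocalizedAt p) (ρ w a b))
    (hequiv : ∀ (σ : GK) w a b, ρ (act σ w) a b = σ (ρ w a b))
    (hinj : Function.Injective ρ)
    (hmul : ∀ w w', ρ (w + w') = ρ w * ρ w') :
    IsFlatGaloisModule p W act := by
  classical
  refine isFlat_of_coords_int' act hact (ι := n × n) (fun k w => ρ w k.1 k.2)
    (fun k w => hint w k.1 k.2) (fun k σ w => hequiv σ w k.1 k.2) ?_ ?_
  · intro w w' h
    apply hinj
    ext a b
    exact h (a, b)
  · rintro ⟨a, b⟩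
    exact exists_add_poly_of_matrix (A := Bint p) ρ hmul a b

/-- **Hopf order criterion, matrix form with descent (C')**: a family of integral multiplicative
maps `ρ τ` of `W` to matrices, jointly faithful, permuted by the Galois group along a finite set
`T` whose points are separated by units by an equivariant family of integral functions. -/
theorem isFlat_of_matrix_rep_separating [Fact p.Prime] {W : Type} [AddCommGroup W] [Finite W]
    (act : GK → W → W) (hact : ∀ (σ : GK) (w w' : W), act σ (w + w') = act σ w + act σ w')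
    {T J n : Type} [Finite T] [Fintype n]
    (perm : GK → T → T)
    (θ : J → T → Kb) (hθint : ∀ i t, IsIntegral (ratLocalizedAt p) (θ i t))
    (hθeq : ∀ (σ : GK) i t, θ i (perm σ t) = σ (θ i t))
    (hθsep : ∀ t t', t ≠ t' →
      ∃ i, ∃ v : Kb, IsIntegral (ratLocalizedAt p) v ∧ (θ i t - θ i t') * v = 1)
    (ρ : T → W → Matrix n n Kb)
    (hint : ∀ τ w a b, IsIntegral (ratLocalizedAt p) (ρ τ w a b))
    (hequiv : ∀ τ (σ : GK) w a b, ρ (perm σ τ) (act σ w) a b = σ (ρ τ w a b))
    (hinj : ∀ w w', (∀ τ, ρ τ w = ρ τ w') → w = w')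
    (hmul : ∀ τ w w', ρ τ (w + w') = ρ τ w * ρ τ w') :
    IsFlatGaloisModule p W act := by
  classical
  refine isFlat_of_coords_separating' act hact perm θ hθint hθeq hθsep (ι := n × n)
    (fun τ k w => ρ τ w k.1 k.2) (fun τ k w => hint τ w k.1 k.2)
    (fun τ k σ w => hequiv τ σ w k.1 k.2) ?_ ?_
  · intro w w' h
    apply hinj
    intro τ
    ext a b
    exact h τ (a, b)
  · rintro τ ⟨a, b⟩
    refine ⟨∑ k, MvPolynomial.X (Sum.inl (τ, (a, k))) * MvPolynomial.X (Sum.inr (τ, (k, b))),
      fun w w' => ?_⟩
    rw [hmul, Matrix.mul_apply, map_sum]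
    apply Finset.sum_congr rfl
    intro k _
    rw [map_mul, MvPolynomial.aeval_X, MvPolynomial.aeval_X]
    rfl

end Fermat.Agent.FlatMod
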