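/-
Lib/FlatMod/OrderUnits: units of the integral closure of `ℤ_(p)` in `ℚ̄`: `1 + p z` is a unit,
and two distinct roots of a polynomial which is separable modulo `p` differ by a unit
(the input of the separating forms of the Hopf order criterion).
-/
import Mathlib
import Fermat.Agent.Lib.FlatMod.OrderDescent

set_option autoImplicit false
set_option linter.style.haveILetI false
set_option linter.unusedSectionVars false

namespace Fermat.Agent.FlatMod

open GaloisRep TensorProduct WithConv Polynomial

local notation "Kb" => AlgebraicClosure ℚ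
local notation "GK" => (AlgebraicClosure ℚ ≃ₐ[ℚ] AlgebraicClosure ℚ)
local notation "Bint" p => integralClosure (ratLocalizedAt p) Kb

variable {p : ℕ}

/-- `p` lies in every maximal ideal of the integral closure of `ℤ_(p)` in `ℚ̄`. -/
theorem p_mem_of_isMaximal [Fact p.Prime] (M : Ideal (Bint p)) [hM : M.IsMaximal] :
    (p : Bint p) ∈ M := by
  have h1 : (M.comap (algebraMap (ratLocalizedAt p) (Bint p))).IsMaximal :=
    Ideal.isMaximal_comap_of_isIntegral_of_isMaximal (R := ratLocalizedAt p) M
  have h2 := IsLocalRing.eq_maximalIdeal h1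
  have h3 : (p : ratLocalizedAt p) ∈ IsLocalRing.maximalIdeal (ratLocalizedAt p) := by
    rw [IsLocalRing.mem_maximalIdeal]
    exact (ratLoc_irreducible_p (p := p)).not_isUnit
  rw [← h2, Ideal.mem_comap] at h3
  simpa using h3

theorem isUnit_one_add_p_mul [Fact p.Prime] (z : Bint p) : IsUnit (1 + (p : Bint p) * z) := by
  by_contra h
  obtain ⟨M, hM, hmem⟩ := exists_max_ideal_of_mem_nonunits h
  have h1 : (p : Bint p) * z ∈ M := M.mul_mem_right z (p_mem_of_isMaximal M)
  have h2 : (1 : Bint p) ∈ M := by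
    have := M.sub_mem hmem h1
    simpa using this
  exact hM.ne_top ((Ideal.eq_top_iff_one M).2 h2)

/-- Two distinct roots of a polynomial which is separable modulo `p` differ by a unit. -/
theorem isUnit_sub_of_coprime_mod [Fact p.Prime] (f a b c : Polynomial (Bint p))
    (h : a * f + b * derivative f = 1 + C (p : Bint p) * c) {x y : Bint p}
    (hx : f.eval x = 0) (hy : f.eval y = 0) (hxy : x ≠ y) : IsUnit (x - y) := by
  obtain ⟨g, hg⟩ := dvd_iff_isRoot.2 hx
  have hgy : g.eval y = 0 := by
    have h1 : f.eval y = (y - x) * g.eval y := by rw [hg]; simp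
    rw [hy] at h1
    rcases mul_eq_zero.1 h1.symm with h2 | h2
    · exact absurd (sub_eq_zero.1 h2).symm hxy
    · exact h2
  obtain ⟨k, hk⟩ := dvd_iff_isRoot.2 hgy
  have hder : (derivative f).eval x = (x - y) * k.eval x := by
    rw [hg, hk]
    simp [derivative_mul]
  have h1 := congrArg (Polynomial.eval x) h
  simp only [eval_add, eval_mul, hx, mul_zero, zero_add, eval_one, eval_C, hder] at h1
  have h2 : IsUnit ((x - y) * (b.eval x * k.eval x)) := by
    have : (x - y) * (b.eval x * k.eval x) = 1 + (p : Bint p) * c.eval x := by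
      rw [← h1]; ring
    rw [this]
    exact isUnit_one_add_p_mul _
  exact isUnit_of_mul_isUnit_left h2

/-- Two distinct roots in `ℚ̄` of an integer polynomial which is separable modulo `p` differ by
a unit of the integral closure of `ℤ_(p)`. -/
theorem exists_inv_sub_of_separable_mod [Fact p.Prime] (f : Polynomial ℤ)
    (hsep : (f.map (Int.castRingHom (ZMod p))).Separable) {x y : Kb}
    (hx : IsIntegral (ratLocalizedAt p) x) (hy : IsIntegral (ratLocalizedAt p) y)
    (hfx : aeval x f = 0) (hfy : aeval y f = 0) (hxy : x ≠ y) :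
    ∃ v : Kb, IsIntegral (ratLocalizedAt p) v ∧ (x - y) * v = 1 := by
  obtain ⟨a, b, hab⟩ := hsep
  obtain ⟨a', rfl⟩ := Polynomial.map_surjective (Int.castRingHom (ZMod p))
    ZMod.intCast_surjective a
  obtain ⟨b', rfl⟩ := Polynomial.map_surjective (Int.castRingHom (ZMod p))
    ZMod.intCast_surjective b
  have h1 : (a' * f + b' * derivative f - 1).map (Int.castRingHom (ZMod p)) = 0 := by
    rw [Polynomial.map_sub, Polynomial.map_add, Polynomial.map_mul, Polynomial.map_mul,
      Polynomial.map_one, ← derivative_map, hab, sub_self]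
  have h2 : C (p : ℤ) ∣ a' * f + b' * derivative f - 1 := by
    rw [Polynomial.C_dvd_iff_dvd_coeff]
    intro i
    have h3 := congrArg (fun q => Polynomial.coeff q i) h1
    simp only [coeff_map, coeff_zero, eq_intCast] at h3
    exact (ZMod.intCast_zmod_eq_zero_iff_dvd _ p).1 h3
  obtain ⟨c, hc⟩ := h2
  have h4 : a' * f + b' * derivative f = 1 + C (p : ℤ) * c := by
    rw [← hc]; ring
  let φ : ℤ →+* Bint p := Int.castRingHom _
  have h5 := congrArg (Polynomial.map φ) h4
  simp only [Polynomial.map_add, Polynomial.map_mul, Polynomial.map_one, Polynomial.map_C,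
    ← derivative_map] at h5
  have hφp : φ (p : ℤ) = (p : Bint p) := by simp [φ]
  rw [hφp] at h5
  have hev : ∀ z : Bint p, (((f.map φ).eval z : Bint p) : Kb) = aeval (z : Kb) f := by
    intro z
    rw [eval_map, aeval_def]
    have := Polynomial.hom_eval₂ f φ (algebraMap (Bint p) Kb) z
    rw [show (algebraMap (Bint p) Kb).comp φ = algebraMap ℤ Kb from RingHom.ext_int _ _] at this
    exact this
  have hx0 : (f.map φ).eval (⟨x, hx⟩ : Bint p) = 0 := Subtype.ext (by rw [hev]; exact hfx)
  have hy0 : (f.map φ).eval (⟨y, hy⟩ : Bint p) = 0 := Subtype.ext (by rw [hev]; exact hfy)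
  have hne : (⟨x, hx⟩ : Bint p) ≠ ⟨y, hy⟩ := fun h => hxy (congrArg Subtype.val h)
  obtain ⟨u, hu⟩ := isUnit_sub_of_coprime_mod (f.map φ) (a'.map φ) (b'.map φ) (c.map φ) h5
    hx0 hy0 hne
  refine ⟨((u⁻¹ : (Bint p)ˣ) : Bint p), (u⁻¹ : (Bint p)ˣ).1.2, ?_⟩
  have h6 : ((⟨x, hx⟩ : Bint p) - ⟨y, hy⟩) * ((u⁻¹ : (Bint p)ˣ) : Bint p) = 1 := by
    rw [← hu]; exact u.mul_inv
  exact congrArg Subtype.val h6

/-- A root in `ℚ̄` of a monic integer polynomial is integral over `ℤ_(p)`. -/
theorem isIntegral_of_monic_int (f : Polynomial ℤ) (hf : f.Monic) {x : Kb}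
    (hfx : aeval x f = 0) : IsIntegral (ratLocalizedAt p) x :=
  (show IsIntegral ℤ x from ⟨f, hf, hfx⟩).tower_top

end Fermat.Agent.FlatMod
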