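/-
Lib/FlatMod/Pi: finite powers and subquotients of flat Galois modules (packaging of the closure
lemmas for the S32 glue: `V / I V` is a Galois subquotient of a finite power of `J[p^m]`).
-/
import Mathlib
import Fermat.Agent.Lib.FlatMod.Closure

set_option autoImplicit false
set_option linter.style.haveILetI false
set_option linter.unusedSectionVars false

namespace Fermat.Agent.FlatMod

local notation "GK" => (AlgebraicClosure ℚ ≃ₐ[ℚ] AlgebraicClosure ℚ)

variable {p : ℕ}

/-- Subquotients: `Q` is the image under an equivariant additive map of a Galois-stable subgroup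
of a flat module. -/
theorem IsFlatGaloisModule.subquotient [Fact p.Prime] {M Q : Type} [AddCommGroup M]
    [AddCommGroup Q] {act : GK → M → M} {actQ : GK → Q → Q}
    (h : IsFlatGaloisModule p M act) (N : AddSubgroup M) (hN : ∀ σ, ∀ x ∈ N, act σ x ∈ N)
    (π : N →+ Q) (hπ : Function.Surjective π)
    (hact : ∀ (σ : GK) (x : N), π ⟨act σ x.1, hN σ x.1 x.2⟩ = actQ σ (π x)) :
    IsFlatGaloisModule p Q actQ :=
  (h.sub N hN).quot π hπ hact

/-- Subquotients, stated with an injective and a surjective equivariant additive map
`M ←ι N' →π Q`. -/
theorem IsFlatGaloisModule.of_inj_surj [Fact p.Prime] {M N' Q : Type} [AddCommGroup M]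
    [AddCommGroup N'] [AddCommGroup Q] {act : GK → M → M} {actN : GK → N' → N'}
    {actQ : GK → Q → Q} (h : IsFlatGaloisModule p M act)
    (ι : N' →+ M) (hι : Function.Injective ι) (hιact : ∀ σ x, ι (actN σ x) = act σ (ι x))
    (π : N' →+ Q) (hπ : Function.Surjective π) (hπact : ∀ σ x, π (actN σ x) = actQ σ (π x)) :
    IsFlatGaloisModule p Q actQ :=
  (h.of_injective ι hι hιact).quot π hπ hπact

/-- Powers indexed by `Fin n`. -/
theorem IsFlatGaloisModule.pi_fin [Fact p.Prime] {M : Type} [AddCommGroup M]
    {act : GK → M → M} (h : IsFlatGaloisModule p M act) (n : ℕ) :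
    IsFlatGaloisModule p (Fin n → M) (fun σ f i => act σ (f i)) := by
  induction n with
  | zero => exact isFlatGaloisModule_of_subsingleton _
  | succ n ih =>
    have h1 := h.prod ih
    let e : M × (Fin n → M) ≃+ (Fin (n + 1) → M) :=
      { toFun := fun x => Fin.cons x.1 x.2
        invFun := fun f => (f 0, Fin.tail f)
        left_inv := fun x => by simp
        right_inv := fun f => by simp
        map_add' := fun x y => by
          funext i
          refine Fin.cases ?_ (fun j => ?_) i
          · simp
          · simp }
    refine h1.of_equiv e (fun σ x => ?_)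
    funext i
    refine Fin.cases ?_ (fun j => ?_) i
    · simp [e]
    · simp [e]

/-- Finite powers of a flat Galois module are flat. -/
theorem IsFlatGaloisModule.pi [Fact p.Prime] {M : Type} [AddCommGroup M]
    {act : GK → M → M} (h : IsFlatGaloisModule p M act) (ι : Type) [Finite ι] :
    IsFlatGaloisModule p (ι → M) (fun σ f i => act σ (f i)) := by
  obtain ⟨n, ⟨e'⟩⟩ := Finite.exists_equiv_fin ι
  let e : (Fin n → M) ≃+ (ι → M) :=
    { toFun := fun f i => f (e' i)
      invFun := fun g j => g (e'.symm j)
      left_inv := fun f => by funext j; simp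
      right_inv := fun g => by funext i; simp
      map_add' := fun _ _ => rfl }
  exact (h.pi_fin n).of_equiv e (fun _ _ => rfl)

/-- Finite products of flat Galois modules are flat. -/
theorem IsFlatGaloisModule.pi_family [Fact p.Prime] {n : ℕ} {M : Fin n → Type}
    [∀ i, AddCommGroup (M i)] {act : ∀ i, GK → M i → M i}
    (h : ∀ i, IsFlatGaloisModule p (M i) (act i)) :
    IsFlatGaloisModule p (∀ i, M i) (fun σ f i => act i σ (f i)) := by
  induction n with
  | zero => exact isFlatGaloisModule_of_subsingleton _
  | succ n ih =>
    have h1 := (h 0).prod (ih (M := fun j => M j.succ) (act := fun j => act j.succ)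
      (fun j => h j.succ))
    let e : M 0 × (∀ j : Fin n, M j.succ) ≃+ (∀ i, M i) :=
      { toFun := fun x => Fin.cons (α := M) x.1 x.2
        invFun := fun f => (f 0, fun j => f j.succ)
        left_inv := fun x => by simp
        right_inv := fun f => by
          funext i
          refine Fin.cases ?_ (fun j => ?_) i
          · simp
          · simp
        map_add' := fun x y => by
          funext i
          refine Fin.cases ?_ (fun j => ?_) i
          · simp
          · simp }
    refine h1.of_equiv e (fun σ x => ?_)
    funext i
    refine Fin.cases ?_ (fun j => ?_) i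
    · simp [e]
    · simp [e]

end Fermat.Agent.FlatMod
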